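import Fermat.Agent.CFT.SKummer.Levels
import Fermat.Agent.CFT.SClass

/-!
# Divisors of `Omega S` and capitulation of classes of `p`-power order
-/

set_option autoImplicit false

noncomputable section

namespace Fermat.Agent.CFT.SKummer

open scoped Pointwise NumberField
open Fermat.Agent.Frob Fermat.Agent.Minkowski IsDedekindDomain
open Fermat.Agent.PT Fermat.Agent.CFT.Kum Fermat.Agent.CFT.Bridge

variable {S : Finset Nat.Primes}

/-- an invariant divisor comes from the primes of `F`. -/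
lemma exists_finsupp (F : IntermediateField ℚ Qbar) [NumberField F] {D : Place S → ℤ}
    (hb : SuppBdd D) (hD : ∀ g ∈ F.fixingSubgroup, ∀ P, D (g • P) = D P) :
    ∃ E : HeightOneSpectrum (𝓞 F) →₀ ℤ, (∀ v ∈ SK S F, E v = 0) ∧ ∀ P, D P = E (P.below F) := by
  classical
  let e : HeightOneSpectrum (𝓞 F) → ℤ := fun v =>
    if h : v ∉ SK S F then D (exists_below_eq h).choose else 0
  have hspec : ∀ P : Place S, e (P.below F) = D P := by
    intro P
    have h := below_notMem_SK (K := F) P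
    simp only [e, dif_pos h]
    obtain ⟨g, hg, hgP⟩ := exists_smul_of_below_eq (exists_below_eq h).choose_spec.symm
    rw [← hgP]
    exact hD g hg P
  obtain ⟨n, hn, hn'⟩ := hb
  have hfin : (Function.support e).Finite := by
    have h1 : {v : HeightOneSpectrum (𝓞 F) | v.asIdeal ∣ Ideal.span {(n : 𝓞 F)}}.Finite := by
      apply Ideal.finite_factors
      rw [Ne, Ideal.zero_eq_bot, Ideal.span_singleton_eq_bot]
      exact_mod_cast hn
    refine h1.subset fun v hv => ?_
    by_cases h : v ∉ SK S F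
    · obtain ⟨P, rfl⟩ := exists_below_eq h
      rw [Function.mem_support, hspec] at hv
      obtain ⟨k, hk⟩ := hn' P hv
      change (P.below F).asIdeal ∣ _
      rw [Ideal.dvd_span_singleton, hk, Nat.cast_mul]
      exact Ideal.mul_mem_right _ _ (natCast_mem_below P)
    · exfalso
      apply hv
      simp only [e, dif_neg h]
  refine ⟨Finsupp.ofSupportFinite e hfin, fun v hv => ?_, fun P => (hspec P).symm⟩
  change e v = 0
  simp only [e]
  rw [dif_neg (not_not.mpr hv)]

/-- a divisor of `F ≤ Omega S` gives a divisor of `Omega S`. -/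
lemma mem_Dv_of_finsupp {F : IntermediateField ℚ Qbar} [NumberField F] (hF : F ≤ Omega S)
    (E : HeightOneSpectrum (𝓞 F) →₀ ℤ) : (fun P : Place S => E (P.below F)) ∈ Dv S := by
  obtain ⟨n, hn, h⟩ := exists_nat_of_finite (F := F) (s := {v | E v ≠ 0})
    (E.hasFiniteSupport)
  refine ⟨⟨n, hn, fun P hP => h (P.below F) hP _ P.q.2 (natCast_mem_below P)⟩,
    F.fixingSubgroup, fixingSubgroup_mem_sLevels hF, fun g hg P => ?_⟩
  change E ((g • P).below F) = _
  rw [below_smul hg P]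

/-- iterated Kummer criterion. -/
theorem mem_Omega_of_pow_pow {p : Nat.Primes} (hpS : p ∈ S) (k : ℕ) {z : Qbar}
    (hz : z ^ ((p : ℕ) ^ k) ∈ Omega S)
    (hord : ∀ P : Place S, (((p : ℕ) ^ k : ℕ) : ℤ) ∣ ord P (z ^ ((p : ℕ) ^ k))) :
    z ∈ Omega S := by
  induction k generalizing z with
  | zero => simpa using hz
  | succ k ih =>
    by_cases hz0 : z = 0
    · rw [hz0]
      exact (Omega S).zero_mem
    have h1 : (z ^ (p : ℕ)) ^ ((p : ℕ) ^ k) = z ^ ((p : ℕ) ^ (k + 1)) := by
      rw [← pow_mul, ← pow_succ']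
    have h2 : z ^ (p : ℕ) ∈ Omega S := by
      apply ih
      · rwa [h1]
      · intro P
        rw [h1]
        exact dvd_trans (by rw [pow_succ]; exact_mod_cast Dvd.intro _ rfl) (hord P)
    apply mem_Omega_of_pow hpS h2
    intro P
    have h3 := hord P
    rw [← h1, ord_pow P h2 (pow_ne_zero _ hz0), pow_succ, Nat.cast_mul] at h3
    have h4 : (((p : ℕ) ^ k : ℕ) : ℤ) ≠ 0 := by exact_mod_cast pow_ne_zero _ p.2.ne_zero
    exact Int.dvd_of_mul_dvd_mul_left h4 h3

/-- **Capitulation** of the classes of `p`-power order. -/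
theorem exists_dv_eq {p : Nat.Primes} (hpS : p ∈ S) (d : Dv S) :
    ∃ a : ℤ, ∃ w : unitsOm S, dv S w = d + ((p : ℕ) : ℤ) • a • d := by
  obtain ⟨D, hb, V, hV, hV'⟩ := d
  obtain ⟨F, h1, h2, h3, h4⟩ := mem_sLevels'.mp hV
  have hNF : NumberField F := ⟨⟩
  obtain ⟨E, hE, hED⟩ := exists_finsupp F hb (fun g hg P => hV' g (h4 hg) P)
  -- class number
  set h := Fintype.card (ClassGroup (𝓞 F)) with hh
  have hh0 : h ≠ 0 := Fintype.card_ne_zero
  obtain ⟨x, hx⟩ : ∃ x : Fˣ, SUnits.div x = (h : ℤ) • E := by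
    rw [SUnits.exists_div_eq_iff, SUnits.idealOf_zsmul, zpow_natCast, map_pow, hh,
      pow_card_eq_one]
  obtain ⟨k, m, hm, hkm⟩ := Nat.exists_eq_pow_mul_and_not_dvd hh0 (p : ℕ) p.2.ne_one
  have hcop : IsCoprime (m : ℤ) ((p : ℕ) : ℤ) := by
    rw [Nat.isCoprime_iff_coprime, Nat.coprime_comm]
    exact (Nat.Prime.coprime_iff_not_dvd p.2).mpr hm
  obtain ⟨u, v, huv⟩ := hcop
  have hpk : 0 < (p : ℕ) ^ k := pow_pos p.2.pos _
  obtain ⟨z, hz⟩ := IsAlgClosed.exists_pow_nat_eq (((x : F)) : Qbar) hpk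
  have hx0 : (((x : F)) : Qbar) ≠ 0 := by exact_mod_cast x.ne_zero
  have hxO : (((x : F)) : Qbar) ∈ Omega S := h3 (x : F).2
  have hordx : ∀ P : Place S, ord P ((x : F) : Qbar) = (((p : ℕ) ^ k : ℕ) : ℤ) * (m * D P) := by
    intro P
    rw [← ord_below h3 P x, ← SUnits.div_apply, hx, hED]
    change (h : ℤ) * E _ = _
    rw [hkm]
    push_cast
    ring
  have hz0 : z ≠ 0 := by
    rintro rfl
    rw [zero_pow hpk.ne'] at hz
    exact hx0 hz.symm
  have hzO : z ∈ Omega S := by
    apply mem_Omega_of_pow_pow hpS k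
    · rw [hz]; exact hxO
    · intro P
      rw [hz, hordx]
      exact Dvd.intro _ rfl
  have hordz : ∀ P : Place S, ord P z = m * D P := by
    intro P
    have h5 := hordx P
    rw [← hz, ord_pow P hzO hz0] at h5
    have h6 : (((p : ℕ) ^ k : ℕ) : ℤ) ≠ 0 := by exact_mod_cast hpk.ne'
    exact mul_left_cancel₀ h6 h5
  refine ⟨-v, u • ⟨Additive.ofMul (Units.mk0 z hz0), hzO⟩, ?_⟩
  apply Subtype.ext
  funext P
  rw [map_zsmul]
  change u * ord P z = D P + ((p : ℕ) : ℤ) * (-v * D P)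
  rw [hordz]
  have : u * (m * D P) = (u * m) * D P := by ring
  rw [this, eq_sub_of_add_eq huv]
  ring

end Fermat.Agent.CFT.SKummer
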