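import Fermat.Agent.CFT.SKummer.Formal

/-!
# Formal part of `S`-level Kummer theory: counting `H¹(𝓛S, μ_p)`
-/

set_option autoImplicit false
set_option linter.unusedSectionVars false

namespace Fermat.Agent.CFT.SKummer.Formal

open Fermat.Agent.PT

variable {G : Type*} [Group G] {𝓛 𝓛S : LevelSys G}
variable {E : Type*} [AddCommGroup E] {ρ : Representation ℤ G E}
variable {W : Type*} [AddCommGroup W] {ω : Representation ℤ G W}
variable {D : Type*} [AddCommGroup D] {δ : Representation ℤ G D}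
variable {k : Type*} [CommRing k] {M : Type*} [AddCommGroup M] [Module k M]
  {τ : Representation k G M}

/-- elements `z` with `p z` invariant. -/
def kumA (p : ℕ) (ω : Representation ℤ G W) : AddSubgroup W where
  carrier := {z | ∀ g, p • (ω g z - z) = 0}
  zero_mem' := fun g => by simp
  add_mem' := fun {x y} hx hy g => by
    have e : ω g (x + y) - (x + y) = (ω g x - x) + (ω g y - y) := by rw [map_add]; abel
    rw [e, smul_add, hx, hy, add_zero]
  neg_mem' := fun {x} hx g => by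
    have e : ω g (-x) - (-x) = -(ω g x - x) := by rw [map_neg]; abel
    rw [e, smul_neg, hx, neg_zero]

/-- `p W^G`. -/
def pInv (p : ℕ) (ω : Representation ℤ G W) : AddSubgroup W where
  carrier := {x | ∃ w : W, (∀ g, ω g w = w) ∧ x = p • w}
  zero_mem' := ⟨0, fun g => map_zero _, by simp⟩
  add_mem' := by
    rintro _ _ ⟨w, hw, rfl⟩ ⟨w', hw', rfl⟩
    exact ⟨w + w', fun g => by rw [map_add, hw, hw'], by rw [smul_add]⟩
  neg_mem' := by
    rintro _ ⟨w, hw, rfl⟩
    exact ⟨-w, fun g => by rw [map_neg, hw], by rw [smul_neg]⟩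

/-- the Selmer group `{y ∈ W^G | div y ∈ p D}`. -/
def sel (p : ℕ) (ω : Representation ℤ G W) (dv : W →ₗ[ℤ] D) : AddSubgroup W where
  carrier := {x | (∀ g, ω g x = x) ∧ ∃ d : D, dv x = p • d}
  zero_mem' := ⟨fun g => map_zero _, 0, by simp⟩
  add_mem' := by
    rintro x y ⟨hx, d, hd⟩ ⟨hy, d', hd'⟩
    exact ⟨fun g => by rw [map_add, hx, hy], d + d', by rw [map_add, hd, hd', smul_add]⟩
  neg_mem' := by
    rintro x ⟨hx, d, hd⟩
    exact ⟨fun g => by rw [map_neg, hx], -d, by rw [map_neg, hd, smul_neg]⟩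

variable {p : ℕ} (ι : M →+ W) (hι : Function.Injective ι) (hιp : ∀ m, p • ι m = 0)
  (hιr : ∀ w : W, p • w = 0 → ∃ m, ι m = w)
  (hτ : ∀ g m, ι (τ g m) = ω g (ι m)) (hω : Discrete 𝓛S ω)

/-- The Kummer cocycle. -/
noncomputable def kumC (z : ↥(kumA p ω)) (g : G) : M := (hιr _ (z.2 g)).choose

lemma ι_kumC (z : ↥(kumA p ω)) (g : G) : ι (kumC ι hιr z g) = ω g z - z :=
  (hιr _ (z.2 g)).choose_spec

include hι hτ hω in
lemma mem_Z1_of_ι {c : G → M} {z : W} (h : ∀ g, ι (c g) = ω g z - z) : c ∈ Z1 𝓛S τ := by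
  obtain ⟨V, hV, hV'⟩ := LC1.d01 hω z
  refine ⟨⟨V, hV, fun g s hs => hι ?_⟩, fun g g' => hι ?_⟩
  · rw [h, h]
    exact hV' g s hs
  · rw [map_add, hτ, h, h, h]
    simp only [map_sub, map_mul, Module.End.mul_apply]
    abel

/-- The Kummer map. -/
noncomputable def kumTo : ↥(kumA p ω) →+ H1 𝓛S τ where
  toFun z := H1mk 𝓛S τ ⟨kumC ι hιr z, mem_Z1_of_ι ι hι hτ hω (ι_kumC ι hιr z)⟩
  map_zero' := by
    have : (⟨kumC ι hιr (0 : ↥(kumA p ω)), mem_Z1_of_ι ι hι hτ hω (ι_kumC ι hιr 0)⟩ :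
        ↥(Z1 𝓛S τ)) = 0 := by
      apply Subtype.ext
      funext g
      apply hι
      change ι (kumC ι hιr 0 g) = ι 0
      rw [ι_kumC]
      simp
    rw [this, map_zero]
  map_add' z z' := by
    rw [← map_add]
    congr 1
    apply Subtype.ext
    funext g
    apply hι
    change ι (kumC ι hιr (z + z') g) = ι (kumC ι hιr z g + kumC ι hιr z' g)
    rw [map_add, ι_kumC, ι_kumC, ι_kumC]
    simp only [AddSubgroup.coe_add, map_add]
    abel

lemma kumTo_eq_zero_iff (z : ↥(kumA p ω)) : kumTo ι hι hιr hτ hω z = 0 ↔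
    ∃ m : M, ∀ g, ω g z.1 - z = ω g (ι m) - ι m := by
  change H1mk 𝓛S τ _ = 0 ↔ _
  rw [H1mk_eq_zero]
  refine exists_congr fun m => forall_congr' fun g => ?_
  change kumC ι hιr z g = _ ↔ _
  rw [← hι.eq_iff, ι_kumC, map_sub, hτ]

namespace Setup

variable {j : W →ₗ[ℤ] E} {dv : W →ₗ[ℤ] D} (H : Setup p 𝓛 𝓛S ρ ω δ j dv)
include H

include hιp in
lemma kumTo_surjective : Function.Surjective (kumTo (p := p) ι hι hιr hτ H.hω) := by
  intro x
  obtain ⟨⟨c, hc⟩, rfl⟩ := H1mk_surjective x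
  obtain ⟨z, hz⟩ := H.h1W (z := fun g => ι (c g)) (hc.1.comp ι) (fun g h => by
    change ι (c (g * h)) = ω g (ι (c h)) + ι (c g)
    rw [hc.2, map_add, hτ])
  have hz' : ∀ g, ι (c g) = ω g z - z := hz
  refine ⟨⟨z, fun g => by rw [← hz', hιp]⟩, ?_⟩
  change H1mk 𝓛S τ _ = _
  congr 1
  apply Subtype.ext
  funext g
  apply hι
  change ι (kumC ι hιr _ g) = ι (c g)
  rw [ι_kumC, hz' g]

include hι hιp hιr hτ in
/-- **Counting `H¹(𝓛S, μ_p)`.** -/
theorem card_H1 : Nat.card (H1 𝓛S τ) = (pInv p ω).relIndex (sel p ω dv) := by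
  have h1 : Nat.card (H1 𝓛S τ) = (kumTo (p := p) ι hι hιr hτ H.hω).ker.index := by
    rw [AddSubgroup.index_ker, AddMonoidHom.range_eq_top.mpr
      (H.kumTo_surjective ι hι hιp hιr hτ)]
    exact Nat.card_congr AddSubgroup.topEquiv.toEquiv.symm
  let f : ↥(kumA p ω) →+ W := (nsmulAddMonoidHom p).comp (kumA p ω).subtype
  have hf : ∀ z, f z = p • z.1 := fun z => rfl
  have h2 : f.range = sel p ω dv := by
    ext y
    constructor
    · rintro ⟨z, rfl⟩
      refine ⟨fun g => ?_, dv z, by rw [hf, map_nsmul]⟩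
      have := z.2 g
      rw [hf, map_nsmul]
      rwa [smul_sub, sub_eq_zero] at this
    · rintro ⟨hy, d, hd⟩
      obtain ⟨z, hz⟩ := H.exists_smul_eq ⟨d, hd⟩
      refine ⟨⟨z, fun g => ?_⟩, hz⟩
      rw [smul_sub, ← map_nsmul, hz, hy, sub_self]
  have h3 : (kumTo (p := p) ι hι hιr hτ H.hω).ker = (pInv p ω).comap f := by
    ext z
    rw [AddMonoidHom.mem_ker, kumTo_eq_zero_iff, AddSubgroup.mem_comap]
    constructor
    · rintro ⟨m, hm⟩
      refine ⟨z - ι m, fun g => ?_, by rw [hf, smul_sub, hιp, sub_zero]⟩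
      have := hm g
      rw [map_sub, sub_eq_sub_iff_sub_eq_sub]
      exact this
    · rintro ⟨w, hw, hwz⟩
      rw [hf] at hwz
      obtain ⟨m, hm⟩ := hιr (z - w) (by rw [smul_sub, hwz, sub_self])
      refine ⟨m, fun g => ?_⟩
      rw [hm, map_sub, hw]
      abel
  rw [h1, h3, AddSubgroup.index_comap, h2]

end Setup

end Fermat.Agent.CFT.SKummer.Formal
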