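import Fermat.Agent.CFT.SKummer.Instance
import Fermat.Agent.CFT.SKummer.H1
import Fermat.Agent.CFT.Bridge.LocInv

/-!
# Counting `H¹(G_{K,S}, μ_p)` and the kernel of `H²(G_{K,S}, μ_p) → H²(G_K, μ_p)`
-/

set_option autoImplicit false

noncomputable section

namespace Fermat.Agent.CFT.SKummer

open scoped Pointwise NumberField
open Fermat.Agent.Frob Fermat.Agent.Minkowski IsDedekindDomain
open Fermat.Agent.PT Fermat.Agent.CFT.Kum Fermat.Agent.CFT.Bridge

variable {S : Finset Nat.Primes} {K : IntermediateField ℚ Qbar}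

/-- the level system of `G_{K,S}` -/
abbrev levS (S : Finset Nat.Primes) (K : IntermediateField ℚ Qbar) :
    LevelSys K.fixingSubgroup :=
  (sLevels S).restrict K.fixingSubgroup

lemma levS_le_lev : ∀ V ∈ levS S K, V ∈ lev K := by
  rintro V ⟨W, hW, h⟩
  exact ⟨W, sLevels_le hW, h⟩

lemma omU_fixed_iff (x : unitsOm S) :
    (∀ g : K.fixingSubgroup, omU S K.fixingSubgroup g x = x) ↔ uval (x : Additive Qbarˣ) ∈ K := by
  constructor
  · intro h
    rw [← InfiniteGalois.fixedField_fixingSubgroup K, IntermediateField.mem_fixedField_iff]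
    intro g hg
    exact congrArg (fun y : unitsOm S => uval (y : Additive Qbarˣ)) (h ⟨g, hg⟩)
  · intro h g
    apply Subtype.ext
    apply uval_injective
    exact (IntermediateField.mem_fixingSubgroup_iff K (g : GQ)).mp g.2 _ h

/-- units of `K` as units of `Omega S`. -/
def ofK (hK : K ≤ Omega S) : Additive Kˣ →+ unitsOm S where
  toFun x := ⟨Additive.ofMul (Units.map (algebraMap K Qbar : K →* Qbar) x.toMul),
    hK ((x.toMul : Kˣ) : K).2⟩
  map_zero' := Subtype.ext (uval_injective (by simp))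
  map_add' x y := Subtype.ext (uval_injective (by simp [uval_add]))

@[simp] lemma uval_ofK (hK : K ≤ Omega S) (x : Additive Kˣ) :
    uval (ofK hK x : Additive Qbarˣ) = ((x.toMul : Kˣ) : K) := rfl

lemma ofK_injective (hK : K ≤ Omega S) : Function.Injective (ofK hK) := by
  intro x y h
  have h1 := congrArg (fun y : unitsOm S => uval (y : Additive Qbarˣ)) h
  simp only [uval_ofK] at h1
  apply Additive.toMul.injective
  exact Units.ext (Subtype.ext h1)

lemma exists_ofK (hK : K ≤ Omega S) {x : unitsOm S}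
    (hx : ∀ g : K.fixingSubgroup, omU S K.fixingSubgroup g x = x) : ∃ y, ofK hK y = x := by
  rw [omU_fixed_iff] at hx
  have h0 : (⟨uval (x : Additive Qbarˣ), hx⟩ : K) ≠ 0 := by
    intro h
    exact uval_ne_zero _ (congrArg Subtype.val h)
  exact ⟨Additive.ofMul (Units.mk0 _ h0), Subtype.ext (uval_injective rfl)⟩

lemma ofK_fixed (hK : K ≤ Omega S) (x : Additive Kˣ) (g : K.fixingSubgroup) :
    omU S K.fixingSubgroup g (ofK hK x) = ofK hK x :=
  (omU_fixed_iff _).mpr ((x.toMul : Kˣ) : K).2 g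

section

variable [NumberField K]

/-- divisors of `K` outside `S` as divisors of `Omega S`. -/
def ofDiv (hK : K ≤ Omega S) : ({v // v ∉ SK S K} →₀ ℤ) →+ Dv S where
  toFun E := ⟨fun P => E ⟨P.below K, below_notMem_SK P⟩, by
    have h1 := mem_Dv_of_finsupp hK (E.mapDomain (Subtype.val : {v // v ∉ SK S K} → _))
    have h2 : (fun P : Place S => E ⟨P.below K, below_notMem_SK P⟩) =
        fun P : Place S => (E.mapDomain (Subtype.val : {v // v ∉ SK S K} → _)) (P.below K) := by
      funext P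
      exact (Finsupp.mapDomain_apply Subtype.val_injective E
        (⟨P.below K, below_notMem_SK P⟩ : {v // v ∉ SK S K})).symm
    rw [h2]
    exact h1⟩
  map_zero' := rfl
  map_add' _ _ := rfl

@[simp] lemma ofDiv_apply (hK : K ≤ Omega S) (E : {v // v ∉ SK S K} →₀ ℤ) (P : Place S) :
    (ofDiv hK E).1 P = E ⟨P.below K, below_notMem_SK P⟩ := rfl

lemma ofDiv_injective (hK : K ≤ Omega S) : Function.Injective (ofDiv hK) := by
  intro E E' h
  ext ⟨v, hv⟩
  obtain ⟨P, rfl⟩ := exists_below_eq hv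
  exact congrArg (fun D : Dv S => D.1 P) h

lemma ofDiv_fixed (hK : K ≤ Omega S) (E : {v // v ∉ SK S K} →₀ ℤ) (g : K.fixingSubgroup) :
    dvU S K.fixingSubgroup g (ofDiv hK E) = ofDiv hK E := by
  apply Subtype.ext
  funext P
  rw [dvU_apply, ofDiv_apply, ofDiv_apply]
  congr 2
  exact below_smul (K.fixingSubgroup.inv_mem g.2) P

lemma exists_ofDiv (hK : K ≤ Omega S) {D : Dv S}
    (hD : ∀ g : K.fixingSubgroup, dvU S K.fixingSubgroup g D = D) : ∃ E, ofDiv hK E = D := by
  obtain ⟨E, hE, hED⟩ := exists_finsupp K D.2.1 (fun g hg P => by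
    have h1 := congrArg (fun D : Dv S => D.1 (g • P)) (hD ⟨g, hg⟩)
    have h2 : D.1 (g⁻¹ • (g • P)) = D.1 (g • P) := h1
    rw [inv_smul_smul] at h2
    exact h2.symm)
  refine ⟨E.subtypeDomain (· ∉ SK S K), ?_⟩
  apply Subtype.ext
  funext P
  exact (hED P).symm

lemma dv_ofK (hK : K ≤ Omega S) (x : Additive Kˣ) :
    dv S (ofK hK x) = ofDiv hK (SUnits.divOut (SK S K) x.toMul).toAdd := by
  apply Subtype.ext
  funext P
  rw [ofDiv_apply, dv_apply, uval_ofK, SUnits.divOut_apply, ord_below hK]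

lemma range_ofDiv (hK : K ≤ Omega S) :
    (ofDiv hK).range = Formal.Setup.invD (dvU S K.fixingSubgroup) := by
  ext D
  constructor
  · rintro ⟨E, rfl⟩
    exact ofDiv_fixed hK E
  · intro h
    exact exists_ofDiv hK h

lemma comap_relD (hK : K ≤ Omega S) {p : Nat.Primes} (hpS : p ∈ S) :
    AddSubgroup.toSubgroup
      ((Formal.Setup.relD (p : ℕ) (omU S K.fixingSubgroup) (dv S)).comap (ofDiv hK)) =
      ((powMonoidHom (p : ℕ) :
        (ClassGroup (𝓞 K) ⧸ SUnits.classSubgroup (SK S K)) →* _).range.comap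
        (SUnits.classOut (SK S K))) := by
  have H := setup hK hpS
  ext E
  obtain ⟨E, rfl⟩ := Multiplicative.ofAdd.surjective E
  constructor
  · rintro ⟨w, hw, d, hd⟩
    obtain ⟨x, rfl⟩ := exists_ofK hK hw
    rw [dv_ofK, toAdd_ofAdd] at hd
    have h1 : ∀ g : K.fixingSubgroup, dvU S K.fixingSubgroup g d = d := by
      intro g
      rw [← sub_eq_zero]
      apply H.htf
      have h2 := ofDiv_fixed hK E g
      rw [hd, map_add, ofDiv_fixed, map_nsmul, add_right_inj] at h2
      rw [smul_sub, h2, sub_self]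
    obtain ⟨E', rfl⟩ := exists_ofDiv hK h1
    rw [← map_nsmul, ← map_add] at hd
    have h3 := ofDiv_injective hK hd
    subst h3
    change SUnits.classOut (SK S K) (Multiplicative.ofAdd _) ∈ (powMonoidHom (p : ℕ)).range
    rw [ofAdd_add, map_mul]
    have h4 : SUnits.classOut (SK S K) (Multiplicative.ofAdd
        ((SUnits.divOut (SK S K) x.toMul).toAdd)) = 1 := by
      rw [SUnits.classOut_eq_one_iff]
      exact ⟨x.toMul, rfl⟩
    rw [h4, one_mul, ofAdd_nsmul, map_pow]
    exact ⟨_, rfl⟩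
  · rintro ⟨c, hc⟩
    obtain ⟨E', rfl⟩ := SUnits.classOut_surjective (SK S K) c
    have h1 : SUnits.classOut (SK S K) (Multiplicative.ofAdd E / E' ^ (p : ℕ)) = 1 := by
      rw [map_div, map_pow, div_eq_one]
      exact hc.symm
    rw [SUnits.classOut_eq_one_iff] at h1
    obtain ⟨x, hx⟩ := h1
    refine ⟨ofK hK (Additive.ofMul x), ofK_fixed hK _, ofDiv hK E'.toAdd, ?_⟩
    rw [dv_ofK, ← map_nsmul, ← map_add]
    congr 1
    have h2 := congrArg Multiplicative.toAdd hx
    rw [toAdd_div, toAdd_pow, toAdd_ofAdd] at h2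
    change E = (SUnits.divOut (SK S K) x).toAdd + _
    rw [h2, sub_add_cancel]

/-- the relative index is the order of `Cl_S / p`. -/
theorem relIndex_relD (hK : K ≤ Omega S) {p : Nat.Primes} (hpS : p ∈ S) :
    (Formal.Setup.relD (p : ℕ) (omU S K.fixingSubgroup) (dv S)).relIndex
      (Formal.Setup.invD (dvU S K.fixingSubgroup)) =
      (powMonoidHom (p : ℕ) :
        (ClassGroup (𝓞 K) ⧸ SUnits.classSubgroup (SK S K)) →* _).range.index := by
  rw [← range_ofDiv hK, ← AddSubgroup.index_comap, ← AddSubgroup.index_toSubgroup,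
    comap_relD hK hpS, Subgroup.index_comap_of_surjective _ (SUnits.classOut_surjective _)]

end

section iota

variable {p : ℕ} [hp : Fact p.Prime]

/-- the embedding `i ↦ ζ ^ i` of `ZMod p` into the units of `Omega S`. -/
def iota (hK : K ≤ Omega S) {ζ : K} (hζ : IsPrimitiveRoot ζ p) : ZMod p →+ unitsOm S where
  toFun i := ⟨Additive.ofMul ((kumOf K hζ).zp i), by
    rw [mem_unitsOm]
    change (((kumOf K hζ).ζ ^ i.val : Qbarˣ) : Qbar) ∈ _
    rw [Units.val_pow_eq_pow_val]
    exact pow_mem (hK ζ.2) _⟩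
  map_zero' := Subtype.ext (by
    change Additive.ofMul ((kumOf K hζ).zp 0) = 0
    rw [KumSet.zp_zero]
    rfl)
  map_add' i j := Subtype.ext (by
    change Additive.ofMul ((kumOf K hζ).zp (i + j)) = _
    rw [KumSet.zp_add]
    rfl)

lemma iota_coe (hK : K ≤ Omega S) {ζ : K} (hζ : IsPrimitiveRoot ζ p) (i : ZMod p) :
    ((iota hK hζ i : unitsOm S) : Additive Qbarˣ) = Additive.ofMul ((kumOf K hζ).zp i) := rfl

variable (hK : K ≤ Omega S) {ζ : K} (hζ : IsPrimitiveRoot ζ p)

lemma iota_injective : Function.Injective (iota hK hζ) := by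
  intro i j h
  apply (kumOf K hζ).zp_injective
  exact Additive.ofMul.injective (congrArg Subtype.val h)

lemma smul_iota (i : ZMod p) : p • iota hK hζ i = 0 := by
  apply Subtype.ext
  change p • (Additive.ofMul ((kumOf K hζ).zp i)) = 0
  rw [← ofMul_pow, KumSet.zp_pow]
  rfl

lemma exists_iota {w : unitsOm S} (hw : p • w = 0) : ∃ i, iota hK hζ i = w := by
  have h1 : p • (w : Additive Qbarˣ) = 0 := congrArg Subtype.val hw
  obtain ⟨i, hi⟩ := (kumOf K hζ).exists_zp (x := (w : Additive Qbarˣ).toMul) (by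
    have := congrArg Additive.toMul h1
    rwa [toMul_nsmul] at this)
  refine ⟨i, Subtype.ext ?_⟩
  rw [iota_coe, ← hi]
  rfl

lemma iota_equivar (g : K.fixingSubgroup) (i : ZMod p) :
    iota hK hζ (triv p K.fixingSubgroup g i) = omU S K.fixingSubgroup g (iota hK hζ i) := by
  apply Subtype.ext
  change Additive.ofMul ((kumOf K hζ).zp i) = Additive.ofMul (uact (g : GQ) _)
  congr 1
  exact ((kumOf K hζ).uact_zp g i).symm

end iota

section final

variable [NumberField K] {p : Nat.Primes}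

local instance : Fact ((p : ℕ).Prime) := ⟨p.2⟩

/-- **The kernel of `H²(G_{K,S}, μ_p) → H²(G_K, μ_p)` has the order of `Cl_S(K) / p`.** -/
theorem card_ker_infl (hK : K ≤ Omega S) (hpS : p ∈ S) {ζ : K} (hζ : IsPrimitiveRoot ζ (p : ℕ)) :
    Nat.card ↥(LinearMap.ker (Formal.infl2 (levS_le_lev (S := S) (K := K))
      (triv (p : ℕ) K.fixingSubgroup))) =
      (powMonoidHom (p : ℕ) :
        (ClassGroup (𝓞 K) ⧸ SUnits.classSubgroup (SK S K)) →* _).range.index := by
  rw [← relIndex_relD hK hpS]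
  exact (setup hK hpS).card_ker_infl (iota hK hζ) (iota_injective hK hζ) (smul_iota hK hζ)
    (fun w hw => exists_iota hK hζ hw) (iota_equivar hK hζ)

set_option linter.unusedSectionVars false

lemma map_selS (hK : K ≤ Omega S) :
    (Subgroup.toAddSubgroup (SUnits.selS (SK S K) (p : ℕ))).map (ofK hK) =
      Formal.sel (p : ℕ) (omU S K.fixingSubgroup) (dv S) := by
  ext w
  constructor
  · rintro ⟨x, hx, rfl⟩
    refine ⟨ofK_fixed hK x, ?_⟩
    have hx' : ∀ v ∉ SK S K, ((p : ℕ) : ℤ) ∣ SUnits.ord v x.toMul := hx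
    refine ⟨ofDiv hK (((SUnits.divOut (SK S K) x.toMul).toAdd).mapRange (fun a : ℤ => a / (p : ℕ))
      (Int.zero_ediv _)), ?_⟩
    rw [dv_ofK, ← map_nsmul]
    congr 1
    ext ⟨v, hv⟩
    rw [Finsupp.smul_apply, Finsupp.mapRange_apply, SUnits.divOut_apply, nsmul_eq_mul]
    exact (Int.mul_ediv_cancel' (hx' v hv)).symm
  · rintro ⟨hw, d, hd⟩
    obtain ⟨x, rfl⟩ := exists_ofK hK hw
    refine ⟨x, fun v hv => ?_, rfl⟩
    obtain ⟨P, rfl⟩ := exists_below_eq hv
    have h1 := congrArg (fun D : Dv S => D.1 P) hd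
    rw [dv_ofK] at h1
    change _ = (p : ℕ) • d.1 P at h1
    simp only [ofDiv_apply, SUnits.divOut_apply, nsmul_eq_mul] at h1
    exact ⟨d.1 P, h1⟩

lemma map_pow_range (hK : K ≤ Omega S) :
    (Subgroup.toAddSubgroup (powMonoidHom (p : ℕ) : Kˣ →* Kˣ).range).map (ofK hK) =
      Formal.pInv (p : ℕ) (omU S K.fixingSubgroup) := by
  ext w
  constructor
  · rintro ⟨x, ⟨y, hy⟩, rfl⟩
    refine ⟨ofK hK (Additive.ofMul y), ofK_fixed hK _, ?_⟩
    rw [← map_nsmul]
    congr 1
    have h1 : y ^ (p : ℕ) = x.toMul := hy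
    apply Additive.toMul.injective
    rw [← h1]
    rfl
  · rintro ⟨w, hw, rfl⟩
    obtain ⟨x, rfl⟩ := exists_ofK hK hw
    exact ⟨(p : ℕ) • x, ⟨x.toMul, rfl⟩, map_nsmul _ _ _⟩

/-- **`H¹(G_{K,S}, μ_p)` has the order of the `S`-Selmer group.** -/
theorem card_H1 (hK : K ≤ Omega S) (hpS : p ∈ S) {ζ : K} (hζ : IsPrimitiveRoot ζ (p : ℕ)) :
    Nat.card (H1 (levS S K) (triv (p : ℕ) K.fixingSubgroup)) =
      (powMonoidHom (p : ℕ) : Kˣ →* Kˣ).range.relIndex (SUnits.selS (SK S K) (p : ℕ)) := by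
  rw [(setup hK hpS).card_H1 (iota hK hζ) (iota_injective hK hζ) (smul_iota hK hζ)
    (fun w hw => exists_iota hK hζ hw) (iota_equivar hK hζ), ← map_selS hK, ← map_pow_range hK,
    AddSubgroup.relIndex_map_map_of_injective _ _ (ofK_injective hK)]
  exact Subgroup.relIndex_toAddSubgroup

end final

end Fermat.Agent.CFT.SKummer
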