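import Fermat.Agent.CFT.SKummer.Formal

/-!
# Formal part of `S`-level Kummer theory: lifting classes

* `Setup.exists_lift` : a class of `H²(𝓛S, W)` which is killed by `div` in `H²(𝓛S, D)` and by `p` in
  `H²(𝓛, E)` comes from `H²(𝓛S, μ_p)`.
* `Setup.exists_lift_of_res` : a class of `H²(𝓛, μ_p)` which is trivial on the kernel of a cyclic
  character of level in `𝓛S`, and satisfies a divisor condition, comes from `H²(𝓛S, μ_p)`.
-/

set_option autoImplicit false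
set_option linter.unusedSectionVars false

namespace Fermat.Agent.CFT.SKummer.Formal

open Fermat.Agent.PT

variable {G : Type*} [Group G] {𝓛 𝓛S : LevelSys G}
variable {E : Type*} [AddCommGroup E] {ρ : Representation ℤ G E}
variable {W : Type*} [AddCommGroup W] {ω : Representation ℤ G W}
variable {D : Type*} [AddCommGroup D] {δ : Representation ℤ G D}

namespace Setup

variable {p : ℕ} {j : W →ₗ[ℤ] E} {dv : W →ₗ[ℤ] D} (H : Setup p 𝓛 𝓛S ρ ω δ j dv)
include H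

/-- uniform version of capitulation for finitely many divisors. -/
lemma exists_uniform {s : Set D} (hs : s.Finite) : ∃ a : ℤ, ∀ d ∈ s, ∃ w : W,
    dv w = d + (p : ℤ) • a • d := by
  induction s, hs using Set.Finite.induction_on with
  | empty => exact ⟨0, fun d hd => absurd hd (Set.notMem_empty d)⟩
  | @insert d₀ s _ _ ih =>
    obtain ⟨a, ha⟩ := ih
    obtain ⟨b, w₀, hb⟩ := H.hF1 d₀
    refine ⟨a + b + (p : ℤ) * a * b, fun d hd => ?_⟩
    rcases Set.mem_insert_iff.1 hd with rfl | hd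
    · refine ⟨w₀ + (p : ℤ) • a • w₀, ?_⟩
      rw [map_add, map_zsmul, map_zsmul, hb]
      module
    · obtain ⟨w, hw⟩ := ha d hd
      refine ⟨w + (p : ℤ) • b • w, ?_⟩
      rw [map_add, map_zsmul, map_zsmul, hw]
      module

variable {k : Type*} [CommRing k] {M : Type*} [AddCommGroup M] [Module k M]
  {τ : Representation k G M} (ι : M →+ W) (hι : Function.Injective ι)
  (hιp : ∀ m, p • ι m = 0) (hιr : ∀ w : W, p • w = 0 → ∃ m, ι m = w)
  (hτ : ∀ g m, ι (τ g m) = ω g (ι m))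

include hι hιr hτ in
/-- **Lifting classes.** -/
theorem exists_lift {c : G × G → W} (hc : c ∈ Z2 𝓛S ω) {η : G → D} (hη : LC1 𝓛S η)
    (hcη : ∀ g h, dv (c (g, h)) = δ g (η h) - η (g * h) + η g) {ν : G → E} (hν : LC1 𝓛 ν)
    (hcν : ∀ g h, p • j (c (g, h)) = ρ g (ν h) - ν (g * h) + ν g) :
    ∃ c' ∈ Z2 𝓛S τ, ∃ μ : G → E, LC1 𝓛 μ ∧ ∀ g h,
      j (ι (c' (g, h))) = j (c (g, h)) + (ρ g (μ h) - μ (g * h) + μ g) := by
  classical
  -- Step 1 : make the divisor trivial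
  obtain ⟨a, ha⟩ := H.exists_uniform hη.finite_range
  have ha' : ∀ d : D, ∃ w : W, d ∈ Set.range η → dv w = d + (p : ℤ) • a • d := by
    intro d
    by_cases hd : d ∈ Set.range η
    · obtain ⟨w, hw⟩ := ha d hd
      exact ⟨w, fun _ => hw⟩
    · exact ⟨0, fun h => absurd h hd⟩
  choose F hF using ha'
  set Ψ : G → W := fun g => F (η g) with hΨ
  have hΨLC : LC1 𝓛S Ψ := hη.comp F
  have hΨd : ∀ g, dv (Ψ g) = η g + (p : ℤ) • a • η g := fun g => hF _ ⟨g, rfl⟩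
  set c₁ : G × G → W := c + (p : ℤ) • a • c - d12 ω Ψ with hc₁
  have hc₁Z : c₁ ∈ Z2 𝓛S ω := (Z2 𝓛S ω).sub_mem
    ((Z2 𝓛S ω).add_mem hc ((Z2 𝓛S ω).smul_mem _ ((Z2 𝓛S ω).smul_mem _ hc)))
    (d12_mem_Z2 H.hω hΨLC)
  have hc₁d : ∀ g h, dv (c₁ (g, h)) = 0 := by
    intro g h
    simp only [hc₁, Pi.sub_apply, Pi.add_apply, Pi.smul_apply, d12_apply, map_sub, map_add,
      map_zsmul, H.hde _ _, hΨd, hcη]
    simp only [smul_add, smul_sub]
    abel
  -- Step 2 : `p c₁` is a coboundary in `W`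
  have hpc₁ : (p : ℤ) • c₁ ∈ Z2 𝓛S ω := (Z2 𝓛S ω).smul_mem _ hc₁Z
  obtain ⟨l, hl, hcl⟩ := inflation_injective H.hω H.hje H.hj H.hjr H.hv hpc₁
    (φ := fun g => ν g + (p : ℤ) • a • ν g - (p : ℤ) • j (Ψ g))
    ((hν.prodMk ((LC1.of_le H.hle hΨLC))).comp
      (fun t => t.1 + (p : ℤ) • a • t.1 - (p : ℤ) • j t.2)) (fun g h => by
      have h1 := hcν g h
      have h2 : j (((p : ℤ) • c₁) (g, h)) = (p • j (c (g, h))) + (p : ℤ) • a • (p • j (c (g, h)))
          - (p : ℤ) • (ρ g (j (Ψ h)) - j (Ψ (g * h)) + j (Ψ g)) := by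
        simp only [hc₁, Pi.sub_apply, Pi.add_apply, Pi.smul_apply, d12_apply, map_sub, map_add,
          map_zsmul, H.hje _ _]
        module
      rw [h2, h1]
      simp only [map_sub, map_add, map_zsmul, smul_add, smul_sub]
      abel)
  have hcl' : ∀ g h, (p : ℤ) • c₁ (g, h) = ω g (l h) - l (g * h) + l g := hcl
  -- Step 3 : modify `l` by a coboundary
  obtain ⟨d, hd⟩ := H.hF2 (fun g => dv (l g)) (hl.comp dv) (fun g h => by
    have h1 := congrArg dv (hcl' g h)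
    simp only [map_zsmul, hc₁d, smul_zero, map_add, map_sub, H.hde _ _] at h1
    rw [eq_comm, sub_add_eq_add_sub, sub_eq_zero] at h1
    exact h1.symm)
  obtain ⟨b, γ, hγ⟩ := H.hF1 d
  have hex : ∀ g, ∃ w, p • w = l g + (p : ℤ) • b • l g - (ω g γ - γ) := by
    intro g
    apply H.exists_smul_eq
    refine ⟨0, ?_⟩
    have h1 : dv (l g) = δ g d - d := hd g
    simp only [map_sub, map_add, map_zsmul, H.hde _ _, hγ, h1, smul_zero, smul_sub]
    abel
  -- level-constant choice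
  have hlLC : LC1 𝓛S (fun g => l g + (p : ℤ) • b • l g - (ω g γ - γ)) :=
    (hl.prodMk (LC1.d01 H.hω γ)).comp (fun t => t.1 + (p : ℤ) • b • t.1 - t.2)
  let R : W → W := fun w => if h : ∃ z, p • z = w then h.choose else 0
  have hR : ∀ w : W, (∃ z, p • z = w) → p • R w = w := by
    intro w hw
    simp only [R, dif_pos hw]
    exact hw.choose_spec
  set κ : G → W := fun g => R (l g + (p : ℤ) • b • l g - (ω g γ - γ)) with hκ
  have hκLC : LC1 𝓛S κ := hlLC.comp R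
  have hκp : ∀ g, p • κ g = l g + (p : ℤ) • b • l g - (ω g γ - γ) := fun g => hR _ (hex g)
  have hexc : ∀ x : G × G, ∃ m, ι m = c₁ x + (p : ℤ) • b • c₁ x - d12 ω κ x := by
    rintro ⟨g, h⟩
    apply hιr
    have h1 := hcl' g h
    simp only [d12_apply, smul_sub, smul_add, ← map_nsmul, hκp]
    have h2 : p • c₁ (g, h) = ω g (l h) - l (g * h) + l g := by rw [← h1, natCast_zsmul]
    have h3 : p • (p : ℤ) • b • c₁ (g, h) = (p : ℤ) • b • (p • c₁ (g, h)) := by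
      rw [smul_comm p (p : ℤ), smul_comm p b]
    rw [h3, h2]
    simp only [map_sub, map_add, map_zsmul, smul_add, smul_sub, map_mul, Module.End.mul_apply]
    abel
  choose c' hc' using hexc
  have hc'Z : c' ∈ Z2 𝓛S τ := by
    have h1 : (c₁ + (p : ℤ) • b • c₁ - d12 ω κ) ∈ Z2 𝓛S ω := (Z2 𝓛S ω).sub_mem
      ((Z2 𝓛S ω).add_mem hc₁Z ((Z2 𝓛S ω).smul_mem _ ((Z2 𝓛S ω).smul_mem _ hc₁Z)))
      (d12_mem_Z2 H.hω hκLC)
    have h2 : ∀ x, ι (c' x) = (c₁ + (p : ℤ) • b • c₁ - d12 ω κ) x := hc'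
    obtain ⟨⟨V, hV, hV'⟩, h3⟩ := h1
    refine ⟨⟨V, hV, fun g g' s s' hs hs' => hι ?_⟩, fun g g' g'' => hι ?_⟩
    · rw [h2, h2]
      exact hV' g g' s s' hs hs'
    · simp only [map_add, hτ, h2]
      exact h3 g g' g''
  refine ⟨c', hc'Z, fun g => (a + b + (p : ℤ) * a * b) • ν g -
      (j (Ψ g) + (p : ℤ) • b • j (Ψ g)) - j (κ g), ?_, fun g h => ?_⟩
  · exact ((hν.prodMk ((LC1.of_le H.hle hΨLC).prodMk (LC1.of_le H.hle hκLC))).comp
      (fun t => (a + b + (p : ℤ) * a * b) • t.1 - (j t.2.1 + (p : ℤ) • b • j t.2.1) - j t.2.2))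
  · rw [hc']
    have h1 : (a + b + (p : ℤ) * a * b) • (p • j (c (g, h))) = (a + b + (p : ℤ) * a * b) •
      (ρ g (ν h) - ν (g * h) + ν g) := by rw [hcν]
    have h2 : (p : ℤ) • a • j (c (g, h)) + (p : ℤ) • b • j (c (g, h)) +
        (p : ℤ) • b • (p : ℤ) • a • j (c (g, h)) =
        (a + b + (p : ℤ) * a * b) • (p • j (c (g, h))) := by
      rw [← natCast_zsmul]
      simp only [smul_smul, ← add_smul]
      congr 1
      ring
    simp only [hc₁, Pi.sub_apply, Pi.add_apply, Pi.smul_apply, d12_apply, map_sub, map_add,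
      map_zsmul, H.hje _ _, smul_add, smul_sub]
    simp only [smul_add, smul_sub] at h1
    rw [h1] at h2
    have h3 : j (c (g, h)) + (p : ℤ) • a • j (c (g, h)) + ((p : ℤ) • b • j (c (g, h)) +
        (p : ℤ) • b • (p : ℤ) • a • j (c (g, h))) = j (c (g, h)) +
        ((a + b + (p : ℤ) * a * b) • ρ g (ν h) - (a + b + (p : ℤ) * a * b) • ν (g * h) +
          (a + b + (p : ℤ) * a * b) • ν g) := by
      rw [← h2]; abel
    have h4 : ∀ A B C A' B' C' K₁ K₂ K₃ X Y Z U V : E, X + Y + (Z + U) = V →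
        X + Y - (A - B + C) + (Z + U - (A' - B' + C')) - (K₁ - K₂ + K₃) =
        V - (A - B + C) - (A' - B' + C') - (K₁ - K₂ + K₃) := by
      intro A B C A' B' C' K₁ K₂ K₃ X Y Z U V h
      rw [← h]; abel
    rw [h4 _ _ _ _ _ _ _ _ _ _ _ _ _ _ h3]
    abel

include hι hιp hιr hτ in
/-- **Lifting classes which are trivial on the kernel of a cyclic character.** -/
theorem exists_lift_of_res {n : ℕ} [NeZero n] {χ : G →* Multiplicative (ZMod n)} {s : G}
    (hs : χ s = Multiplicative.ofAdd 1) (hχ : χ.ker ∈ 𝓛S) (c : ↥(Z2 𝓛 τ))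
    {e : χ.ker → M} (he : LC1 (𝓛.restrict χ.ker) e)
    (hce : ∀ u v : χ.ker, c.1 ((u : G), (v : G)) = τ u (e v) - e (u * v) + e u)
    (hloc : ∀ a : W, (∀ g, ω g a = a) → (∃ f : G → E, LC1 𝓛 f ∧ ∀ g h,
      j (ι (c.1 (g, h))) - carry χ (j a) (g, h) = ρ g (f h) - f (g * h) + f g) →
      ∃ b : D, (∀ u ∈ χ.ker, δ u b = b) ∧ dv a = pnorm δ s b n) :
    ∃ c' : ↥(Z2 𝓛S τ), infl2 H.hle τ (H2mk 𝓛S τ c') = H2mk 𝓛 τ c := by
  obtain ⟨c, hcZ⟩ := c
  have hjιZ : (fun x => j (ι (c x))) ∈ Z2 𝓛 ρ := by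
    refine ⟨hcZ.1.comp (fun x => j (ι x)), fun g h l => ?_⟩
    change j (ι _) + j (ι _) = ρ g (j (ι _)) + j (ι _)
    rw [← H.hje, ← hτ, ← map_add, ← map_add, hcZ.2 g h l, map_add, map_add]
  obtain ⟨a, ha, f, hf, hfa⟩ := exists_carry_of_res hs (H.hle _ hχ) H.hρ (H.hv _ hχ) hjιZ
    (e := fun u => j (ι (e u))) (he.comp (fun x => j (ι x))) (fun u v => by
      have h1 : c ((u : G), (v : G)) = τ u (e v) - e (u * v) + e u := hce u v
      change j (ι (c ((u : G), (v : G)))) = _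
      rw [h1]
      simp only [map_add, map_sub, hτ, H.hje _ _])
  have hfa' : ∀ g h, j (ι (c (g, h))) - carry χ a (g, h) = ρ g (f h) - f (g * h) + f g := hfa
  obtain ⟨a', rfl⟩ := H.hjr a ⟨⊤, 𝓛S.top_mem, fun g _ => ha g⟩
  have ha' : ∀ g, ω g a' = a' := fun g => H.hj (by rw [H.hje, ha])
  obtain ⟨b, hb, hab⟩ := hloc a' ha' ⟨f, hf, hfa'⟩
  have hjcar : ∀ x, j (carry χ a' x) = carry χ (j a') x := by
    intro x
    simp only [carry]
    split_ifs <;> simp
  have hdcar : ∀ x, dv (carry χ a' x) = carry χ (dv a') x := by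
    intro x
    simp only [carry]
    split_ifs <;> simp
  obtain ⟨hη, hcη⟩ := carry_coboundary_of_norm (ρ := δ) hs hχ hb
  have hpι : ∀ g h, p • j (ι (c (g, h))) = 0 := by
    intro g h
    rw [← map_nsmul, hιp, map_zero]
  obtain ⟨c', hc'Z, μ, hμ, hc'⟩ := H.exists_lift ι hι hιr hτ (carry_mem_Z2 hχ ha')
    (η := fun g => pnorm δ s b (cval χ g)) hη (fun g h => by rw [hdcar, hab, hcη g h])
    (ν := fun g => -(p • f g)) (hf.comp (fun x => -(p • x))) (fun g h => by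
      have h1 := congrArg (fun x => p • x) (hfa' g h)
      simp only [smul_sub, hpι, smul_add] at h1
      rw [hjcar]
      rw [zero_sub, neg_eq_iff_eq_neg] at h1
      rw [h1]
      simp only [map_neg, map_nsmul]
      abel)
  obtain ⟨b', hb', hbb'⟩ := H.coboundary_of_jι ι hι hιp hιr hτ (c := fun x => c' x - c x)
    (ν := fun g => μ g - f g) ((hμ.prodMk hf).comp (fun t => t.1 - t.2)) (fun g h => by
      have h1 := hfa' g h
      rw [sub_eq_iff_eq_add] at h1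
      simp only [map_sub, hc', hjcar, h1]
      abel)
  refine ⟨⟨c', hc'Z⟩, ?_⟩
  rw [← sub_eq_zero]
  have h1 : infl2 H.hle τ (H2mk 𝓛S τ ⟨c', hc'Z⟩) =
      H2mk 𝓛 τ ⟨c', ⟨LC2.of_le H.hle hc'Z.1, hc'Z.2⟩⟩ := rfl
  rw [h1, ← map_sub, H2mk_eq_zero]
  exact ⟨b', hb', hbb'⟩

end Setup

end Fermat.Agent.CFT.SKummer.Formal
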