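import Fermat.Agent.CFT.SKummer.Heights
import Fermat.Agent.CFT.Bridge.Levels
import Fermat.Agent.CFT.SKummer.Lift

/-!
# The level system of `Gal(Ω_S / ℚ)`, units of `Ω_S`, divisors of `Ω_S`

* `sLevels S` : level system of all `V ≥ F.fixingSubgroup`, `F` finite unramified outside `S`.
* `unitsOm S` : units of `Omega S` as a submodule of `Additive ℚ̄ˣ`, `omRep`.
* `Dv S` : divisors, `dvRep`, `dv : unitsOm S → Dv S`.
-/

set_option autoImplicit false

noncomputable section

namespace Fermat.Agent.CFT.SKummer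

open scoped Pointwise NumberField
open Fermat.Agent.Frob Fermat.Agent.Minkowski IsDedekindDomain
open Fermat.Agent.PT Fermat.Agent.CFT.Kum Fermat.Agent.CFT.Bridge

lemma normal_fixingSubgroup {k K : Type*} [Field k] [Field K] [Algebra k K] [IsGalois k K]
    (L : IntermediateField k K) (h : IsGalois k L) : L.fixingSubgroup.Normal :=
  IsGalois.fixingSubgroup_normal_of_isGalois L

lemma dvd_of_natCast_mem {F : Type*} [Field F] [NumberField F] {v : HeightOneSpectrum (𝓞 F)}
    {q : ℕ} (hq : q.Prime) (hqv : (q : 𝓞 F) ∈ v.asIdeal) : q ∣ Ideal.absNorm v.asIdeal := by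
  by_contra hnd
  have hcop : Nat.Coprime q (Ideal.absNorm v.asIdeal) :=
    (Nat.Prime.coprime_iff_not_dvd hq).mpr hnd
  obtain ⟨a, b, hab⟩ := Nat.isCoprime_iff_coprime.mpr hcop
  apply v.isPrime.ne_top
  rw [Ideal.eq_top_iff_one]
  have h7 : (1 : 𝓞 F) = (a : 𝓞 F) * (q : 𝓞 F) +
      (b : 𝓞 F) * ((Ideal.absNorm v.asIdeal : ℕ) : 𝓞 F) := by
    exact_mod_cast congrArg (fun z : ℤ => (z : 𝓞 F)) hab.symm
  rw [h7]
  exact v.asIdeal.add_mem (Ideal.mul_mem_left _ _ hqv)
    (Ideal.mul_mem_left _ _ (Ideal.absNorm_mem _))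

lemma exists_nat_of_finite {F : Type*} [Field F] [NumberField F]
    {s : Set (HeightOneSpectrum (𝓞 F))} (hs : s.Finite) : ∃ n : ℕ, n ≠ 0 ∧ ∀ v ∈ s, ∀ q : ℕ,
    q.Prime → (q : 𝓞 F) ∈ v.asIdeal → q ∣ n := by
  refine ⟨∏ v ∈ hs.toFinset, Ideal.absNorm v.asIdeal, ?_, fun v hv q hq hqv => ?_⟩
  · rw [Finset.prod_ne_zero_iff]
    intro v _
    rw [Ne, Ideal.absNorm_eq_zero_iff]
    exact v.ne_bot
  · have h8 : Ideal.absNorm v.asIdeal ∣ ∏ v ∈ hs.toFinset, Ideal.absNorm v.asIdeal :=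
      Finset.dvd_prod_of_mem (fun v : HeightOneSpectrum (𝓞 F) => Ideal.absNorm v.asIdeal)
        (hs.mem_toFinset.mpr hv)
    exact (dvd_of_natCast_mem hq hqv).trans h8

variable (S : Finset Nat.Primes)

/-- The level system of the Galois group of the maximal extension unramified outside `S`. -/
def sLevels : LevelSys GQ where
  carrier := {V | ∃ F : IntermediateField ℚ Qbar, F.IsUnramifiedOutside S ∧ F.fixingSubgroup ≤ V}
  top_mem' := ⟨⊥, IntermediateField.isUnramifiedOutside_bot S, le_top⟩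
  inf_mem' := by
    rintro U V ⟨E, hE, hEU⟩ ⟨E', hE', hEV⟩
    refine ⟨E ⊔ E', hE.sup hE', ?_⟩
    rw [IntermediateField.fixingSubgroup_sup]
    exact inf_le_inf hEU hEV
  mono' := by
    rintro U V ⟨E, hE, hEU⟩ h
    exact ⟨E, hE, hEU.trans h⟩
  exists_normal' := by
    rintro U ⟨E, hE, hEU⟩
    have : FiniteDimensional ℚ E := hE.1
    obtain ⟨L, h1, h2, h3, h4⟩ := exists_galois_of_le_Omega E (le_Omega hE)
    refine ⟨L.fixingSubgroup, ⟨L, isUnramifiedOutside_iff.mpr h4, le_rfl⟩,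
      (IntermediateField.fixingSubgroup_antitone h1).trans hEU, ?_⟩
    exact normal_fixingSubgroup L h3
  finiteIndex' := by
    rintro U ⟨E, hE, hEU⟩
    have : FiniteDimensional ℚ E := hE.1
    have h1 : E.fixingSubgroup.FiniteIndex := ⟨by
      rw [← IntermediateField.finrank_eq_fixingSubgroup_index]
      exact Module.finrank_pos.ne'⟩
    exact Subgroup.finiteIndex_of_le hEU

variable {S}

lemma mem_sLevels {V : Subgroup GQ} : V ∈ sLevels S ↔ ∃ F : IntermediateField ℚ Qbar,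
    F.IsUnramifiedOutside S ∧ F.fixingSubgroup ≤ V := Iff.rfl

lemma mem_sLevels' {V : Subgroup GQ} : V ∈ sLevels S ↔ ∃ F : IntermediateField ℚ Qbar,
    FiniteDimensional ℚ F ∧ IsGalois ℚ F ∧ F ≤ Omega S ∧ F.fixingSubgroup ≤ V := by
  constructor
  · rintro ⟨E, hE, hEU⟩
    have : FiniteDimensional ℚ E := hE.1
    obtain ⟨L, h1, h2, h3, h4⟩ := exists_galois_of_le_Omega E (le_Omega hE)
    exact ⟨L, h2, h3, h4, (IntermediateField.fixingSubgroup_antitone h1).trans hEU⟩
  · rintro ⟨F, h1, h2, h3, h4⟩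
    exact ⟨F, isUnramifiedOutside_iff.mpr h3, h4⟩

lemma fixingSubgroup_mem_sLevels {F : IntermediateField ℚ Qbar} [FiniteDimensional ℚ F]
    (hF : F ≤ Omega S) : F.fixingSubgroup ∈ sLevels S :=
  ⟨F, isUnramifiedOutside_iff.mpr hF, le_rfl⟩

lemma sLevels_le {V : Subgroup GQ} (hV : V ∈ sLevels S) : V ∈ galLevels ℚ Qbar := by
  obtain ⟨E, hE, hEU⟩ := hV
  exact ⟨E, hE.1, hEU⟩

variable (S) in
/-- units of `Omega S`. -/
def unitsOm : Submodule ℤ (Additive Qbarˣ) where
  carrier := {x | ((x.toMul : Qbarˣ) : Qbar) ∈ Omega S}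
  zero_mem' := (Omega S).one_mem
  add_mem' {x y} hx hy := (Omega S).mul_mem hx hy
  smul_mem' n x hx := by
    change (((n • x).toMul : Qbarˣ) : Qbar) ∈ Omega S
    rw [toMul_zsmul, Units.val_zpow_eq_zpow_val]
    exact zpow_mem hx n

lemma mem_unitsOm {x : Additive Qbarˣ} : x ∈ unitsOm S ↔ ((x.toMul : Qbarˣ) : Qbar) ∈ Omega S :=
  Iff.rfl

/-- the underlying element of `ℚ̄`. -/
abbrev uval (x : Additive Qbarˣ) : Qbar := ((x.toMul : Qbarˣ) : Qbar)

lemma uval_ne_zero (x : Additive Qbarˣ) : uval x ≠ 0 := Units.ne_zero _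

lemma uval_add (x y : Additive Qbarˣ) : uval (x + y) = uval x * uval y := rfl

lemma uval_zero : uval 0 = 1 := rfl

lemma uval_nsmul (n : ℕ) (x : Additive Qbarˣ) : uval (n • x) = uval x ^ n := rfl

lemma uval_zsmul (n : ℤ) (x : Additive Qbarˣ) : uval (n • x) = uval x ^ n := by
  rw [uval, toMul_zsmul, Units.val_zpow_eq_zpow_val]

lemma uval_injective : Function.Injective uval :=
  Units.val_injective.comp Additive.toMul.injective

lemma uval_unitsRep (g : GQ) (x : Additive Qbarˣ) : uval (unitsRep GQ Qbar g x) = g (uval x) := rfl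

/-- the representation of the Galois group on the units of `Omega S`. -/
def omRep (S : Finset Nat.Primes) : Representation ℤ GQ (unitsOm S) where
  toFun g := (unitsRep GQ Qbar g).restrict (p := unitsOm S) (q := unitsOm S)
    (fun x hx => map_mem_Omega g hx)
  map_one' := by
    apply LinearMap.ext
    intro x
    exact Subtype.ext (uval_injective rfl)
  map_mul' g h := by
    apply LinearMap.ext
    intro x
    exact Subtype.ext (uval_injective rfl)

lemma omRep_coe (g : GQ) (x : unitsOm S) : ((omRep S g x : unitsOm S) : Additive Qbarˣ) =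
    unitsRep GQ Qbar g x := rfl

lemma uval_omRep (g : GQ) (x : unitsOm S) : uval (omRep S g x : unitsOm S) = g (uval x) := rfl

section Dv

/-- boundedness of the support. -/
def SuppBdd (D : Place S → ℤ) : Prop := ∃ n : ℕ, n ≠ 0 ∧ ∀ P, D P ≠ 0 → (P.q : ℕ) ∣ n

/-- invariance under a level. -/
def LevInv (D : Place S → ℤ) : Prop := ∃ V ∈ sLevels S, ∀ g ∈ V, ∀ P, D (g • P) = D P

variable (S) in
/-- the group of divisors of `Omega S`. -/
def Dv : Submodule ℤ (Place S → ℤ) where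
  carrier := {D | SuppBdd D ∧ LevInv D}
  zero_mem' := ⟨⟨1, one_ne_zero, fun P h => absurd rfl h⟩, ⊤, (sLevels S).top_mem,
    fun _ _ _ => rfl⟩
  add_mem' := by
    rintro D D' ⟨⟨n, hn, h⟩, V, hV, hV'⟩ ⟨⟨n', hn', h'⟩, V₁, hV₁, hV₁'⟩
    refine ⟨⟨n * n', mul_ne_zero hn hn', fun P hP => ?_⟩, V ⊓ V₁, LevelSys.inf_mem hV hV₁,
      fun g hg P => ?_⟩
    · by_cases h0 : D P = 0
      · have h1 : D' P ≠ 0 := by
          intro h1
          apply hP
          change D P + D' P = 0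
          rw [h0, h1, add_zero]
        exact (h' P h1).mul_left _
      · exact (h P h0).mul_right _
    · change D (g • P) + D' (g • P) = D P + D' P
      rw [hV' g hg.1, hV₁' g hg.2]
  smul_mem' := by
    rintro c D ⟨⟨n, hn, h⟩, V, hV, hV'⟩
    refine ⟨⟨n, hn, fun P hP => h P ?_⟩, V, hV, fun g hg P => ?_⟩
    · intro h0
      apply hP
      change c • D P = 0
      rw [h0, smul_zero]
    · change c • D (g • P) = c • D P
      rw [hV' g hg]

lemma mem_Dv {D : Place S → ℤ} : D ∈ Dv S ↔ SuppBdd D ∧ LevInv D := Iff.rfl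

lemma smul_mem_Dv (g : GQ) {D : Place S → ℤ} (hD : D ∈ Dv S) :
    (fun P => D (g⁻¹ • P)) ∈ Dv S := by
  obtain ⟨⟨n, hn, h⟩, V, hV, hV'⟩ := hD
  obtain ⟨V₁, hV₁, hle, hnorm⟩ := LevelSys.exists_normal hV
  refine ⟨⟨n, hn, fun P hP => h (g⁻¹ • P) hP⟩, V₁, hV₁, fun s hs P => ?_⟩
  have h1 : g⁻¹ • s • P = (g⁻¹ * s * g) • (g⁻¹ • P) := by
    rw [← mul_smul, ← mul_smul]
    congr 1
    group
  change D (g⁻¹ • s • P) = D (g⁻¹ • P)
  rw [h1]
  exact hV' _ (hle (by simpa using hnorm.conj_mem s hs g⁻¹)) _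

variable (S) in
/-- the representation of the Galois group on divisors. -/
def dvRep : Representation ℤ GQ (Dv S) where
  toFun g :=
    { toFun := fun D => ⟨fun P => D.1 (g⁻¹ • P), smul_mem_Dv g D.2⟩
      map_add' := fun _ _ => rfl
      map_smul' := fun _ _ => rfl }
  map_one' := by
    ext D
    simp
  map_mul' g h := by
    ext D P
    simp [mul_smul]

@[simp] lemma dvRep_apply (g : GQ) (D : Dv S) (P : Place S) :
    (dvRep S g D : Dv S).1 P = D.1 (g⁻¹ • P) := rfl

variable (S) in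
lemma dvRep_discrete : Discrete (sLevels S) (dvRep S) := by
  rintro ⟨D, hb, V, hV, hV'⟩
  refine ⟨V, hV, fun s hs => ?_⟩
  apply Subtype.ext
  funext P
  exact hV' _ (V.inv_mem hs) P

variable (S) in
lemma omRep_discrete : Discrete (sLevels S) (omRep S) := by
  rintro ⟨x, hx⟩
  obtain ⟨F, h1, h2, h3, h4⟩ := exists_galois_of_mem_Omega hx
  refine ⟨F.fixingSubgroup, fixingSubgroup_mem_sLevels h4, fun s hs => ?_⟩
  apply Subtype.ext
  apply uval_injective
  rw [uval_omRep]
  exact (IntermediateField.mem_fixingSubgroup_iff F s).mp hs _ h1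

lemma suppBdd_ord {x : Qbar} (hx : x ∈ Omega S) (hx0 : x ≠ 0) :
    SuppBdd (fun P : Place S => ord P x) := by
  obtain ⟨F, h1, h2, h3, h4⟩ := exists_galois_of_mem_Omega hx
  have : NumberField F := ⟨⟩
  have hx0' : (⟨x, h1⟩ : F) ≠ 0 := fun h => hx0 (congrArg Subtype.val h)
  let y : Fˣ := Units.mk0 (⟨x, h1⟩ : F) hx0'
  have hfin := SUnits.finite_ord_ne_zero F (R := 𝓞 F) y
  obtain ⟨n, hn, h⟩ := exists_nat_of_finite hfin
  refine ⟨n, hn, fun P hP => h (P.below F) ?_ _ P.q.2 (natCast_mem_below P)⟩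
  change SUnits.ord (P.below F) y ≠ 0
  rw [ord_below h4 P y]
  exact hP

lemma levInv_ord {x : Qbar} (hx : x ∈ Omega S) (hx0 : x ≠ 0) :
    LevInv (fun P : Place S => ord P x) := by
  obtain ⟨F, h1, h2, h3, h4⟩ := exists_galois_of_mem_Omega hx
  refine ⟨F.fixingSubgroup, fixingSubgroup_mem_sLevels h4, fun g hg P => ?_⟩
  have h5 : g x = x := (IntermediateField.mem_fixingSubgroup_iff F g).mp hg x h1
  have h6 := ord_smul g P hx hx0
  rwa [h5] at h6

variable (S) in
/-- the divisor map. -/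
def dv : unitsOm S →ₗ[ℤ] Dv S :=
  AddMonoidHom.toIntLinearMap
    { toFun := fun x => ⟨fun P => ord P (uval x), suppBdd_ord x.2 (uval_ne_zero _),
        levInv_ord x.2 (uval_ne_zero _)⟩
      map_zero' := by
        apply Subtype.ext
        funext P
        exact ord_one P
      map_add' := fun x y => by
        apply Subtype.ext
        funext P
        exact ord_mul P x.2 (uval_ne_zero _) y.2 (uval_ne_zero _) }

@[simp] lemma dv_apply (x : unitsOm S) (P : Place S) : (dv S x).1 P = ord P (uval x) := rfl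

lemma dv_equivar : Equivar (omRep S) (dvRep S) (dv S) := by
  intro g x
  apply Subtype.ext
  funext P
  rw [dv_apply, uval_omRep, dvRep_apply, dv_apply]
  exact ord_map g P x.2 (uval_ne_zero _)

end Dv

end Fermat.Agent.CFT.SKummer
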