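import Fermat.Agent.CFT.SKummer.RootsLoc
import Fermat.Agent.CFT.SKummer.Levels
import Fermat.Agent.CFT.Local.Omega
import Mathlib.RingTheory.ZMod.UnitsCyclic

/-!
# The cyclotomic layer
-/

set_option autoImplicit false

noncomputable section

namespace Fermat.Agent.CFT.SKummer

open Fermat.Agent.Frob Fermat.Agent.Minkowski
open Fermat.Agent.PT Fermat.Agent.CFT.Kum Fermat.Agent.CFT.Bridge

variable {p : ℕ} [hp : Fact p.Prime]

/-- The cyclic character attached to a root of unity of `p`-power order. -/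
theorem exists_cyc_char (hp2 : p ≠ 2) (U : Subgroup GQ) {N : ℕ} {ξ : Qbar}
    (hξ : IsPrimitiveRoot ξ (p ^ N)) :
    ∃ (n : ℕ) (_ : NeZero n) (χ : U →* Multiplicative (ZMod n)) (s : U),
      χ s = Multiplicative.ofAdd 1 ∧ ∀ g, g ∈ χ.ker ↔ (g : GQ) ξ = ξ := by
  have : NeZero (p ^ N) := ⟨pow_ne_zero _ hp.out.ne_zero⟩
  let f : U →* (ZMod (p ^ N))ˣ := (hξ.autToPow ℚ).comp U.subtype
  have hcyc : IsCyclic (ZMod (p ^ N))ˣ := ZMod.isCyclic_units_of_prime_pow p hp.out hp2 N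
  have hc : IsCyclic f.range := inferInstance
  let e : Multiplicative (ZMod (Nat.card f.range)) ≃* f.range := zmodCyclicMulEquiv hc
  have hn : NeZero (Nat.card f.range) := ⟨Nat.card_pos.ne'⟩
  obtain ⟨s, hs⟩ := f.rangeRestrict_surjective (e (Multiplicative.ofAdd 1))
  refine ⟨Nat.card f.range, hn, e.symm.toMonoidHom.comp f.rangeRestrict, s, ?_, fun g => ?_⟩
  · change e.symm (f.rangeRestrict s) = _
    rw [hs, MulEquiv.symm_apply_apply]
  · rw [MonoidHom.mem_ker]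
    change e.symm (f.rangeRestrict g) = 1 ↔ _
    rw [MulEquiv.map_eq_one_iff, ← MonoidHom.mem_ker, MonoidHom.ker_rangeRestrict,
      MonoidHom.mem_ker]
    change hξ.autToPow ℚ (g : GQ) = 1 ↔ _
    have h1 := hξ.autToPow_spec ℚ (g : GQ)
    constructor
    · intro h
      rw [h] at h1
      rw [← h1, Units.val_one]
      rcases Nat.eq_zero_or_pos N with rfl | hN
      · rw [pow_zero, IsPrimitiveRoot.one_right_iff] at hξ
        rw [hξ, one_pow]
      · have : Fact (1 < p ^ N) := ⟨Nat.one_lt_pow hN.ne' hp.out.one_lt⟩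
        rw [ZMod.val_one, pow_one]
    · intro h
      rw [h] at h1
      have h2 : (hξ.autToPow ℚ (g : GQ) : ZMod (p ^ N)).val ≡ 1 [MOD p ^ N] := by
        have h3 : ξ ^ (((hξ.autToPow ℚ (g : GQ) : ZMod (p ^ N)).val : ℤ) - 1) = 1 := by
          rw [zpow_sub_one₀ (hξ.ne_zero this.out), zpow_natCast, h1,
            mul_inv_cancel₀ (hξ.ne_zero this.out)]
        rw [hξ.zpow_eq_one_iff_dvd] at h3
        exact ((Nat.modEq_iff_dvd).mpr (by push_cast at h3 ⊢; exact h3)).symm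
      rw [← ZMod.natCast_eq_natCast_iff, ZMod.natCast_zmod_val, Nat.cast_one] at h2
      exact Units.ext h2

/-- Elements fixing `μ_p` act on the roots of unity of order `p ^ N` through a `p`-group. -/
lemma pow_smul_root {N : ℕ} {ξ : Qbar} (hξ : IsPrimitiveRoot ξ (p ^ N)) {ζ : Qbar}
    (hζ : IsPrimitiveRoot ζ p) {g : GQ} (hg : g ζ = ζ) : (g ^ p ^ (N - 1)) ξ = ξ := by
  have : NeZero (p ^ N) := ⟨pow_ne_zero _ hp.out.ne_zero⟩
  have hp0 : p ≠ 0 := hp.out.ne_zero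
  rcases Nat.eq_zero_or_pos N with rfl | hN
  · rw [pow_zero, IsPrimitiveRoot.one_right_iff] at hξ
    rw [hξ, map_one]
  set a : ℕ := (hξ.autToPow ℚ g : ZMod (p ^ N)).val with ha
  have h1 : ξ ^ a = g ξ := hξ.autToPow_spec ℚ g
  have h2 : ∀ m : ℕ, (g ^ m) ξ = ξ ^ a ^ m := by
    intro m
    induction m with
    | zero => simp
    | succ m ih => rw [pow_succ', AlgEquiv.mul_apply, ih, map_pow, ← h1, ← pow_mul, pow_succ' a]
  rw [h2]
  have hη : IsPrimitiveRoot (ξ ^ p ^ (N - 1)) p := by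
    refine hξ.pow (pow_pos hp.out.pos _) ?_
    rw [← pow_succ]
    congr 1
    omega
  obtain ⟨i, -, hi⟩ := hζ.eq_pow_of_pow_eq_one hη.pow_eq_one
  have h3 : g (ξ ^ p ^ (N - 1)) = ξ ^ p ^ (N - 1) := by rw [← hi, map_pow, hg]
  have h3' : (ξ ^ p ^ (N - 1)) ^ a = ξ ^ p ^ (N - 1) := by
    rw [← pow_mul, mul_comm, pow_mul, h1, ← map_pow, h3]
  have h4 : (ξ ^ p ^ (N - 1)) ^ ((a : ℤ) - 1) = 1 := by
    rw [zpow_sub_one₀ (hη.ne_zero hp0), zpow_natCast, h3', mul_inv_cancel₀ (hη.ne_zero hp0)]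
  rw [hη.zpow_eq_one_iff_dvd] at h4
  have h5 := dvd_sub_pow_of_dvd_sub (R := ℤ) (p := p) (a := a) (b := 1) (by exact_mod_cast h4)
    (N - 1)
  rw [one_pow, Nat.sub_add_cancel hN] at h5
  have h6 : ξ ^ (((a ^ p ^ (N - 1) : ℕ) : ℤ) - 1) = 1 := by
    rw [hξ.zpow_eq_one_iff_dvd]
    exact_mod_cast h5
  rw [zpow_sub_one₀ (hξ.ne_zero this.out), zpow_natCast] at h6
  exact (mul_inv_eq_one₀ (hξ.ne_zero this.out)).mp h6

/-- A group acting nontrivially on `μ_{p^N}` and trivially on `μ_p` has a nontrivial character to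
`ZMod p`, trivial on the elements acting trivially on `μ_{p^N}`. -/
theorem exists_char_of_ne {D : Type*} [Group D] (u : D →* GQ) {N : ℕ} {ξ : Qbar}
    (hξ : IsPrimitiveRoot ξ (p ^ N)) {ζ : Qbar} (hζ : IsPrimitiveRoot ζ p)
    (hu : ∀ d, u d ζ = ζ) {d₀ : D} (hd₀ : u d₀ ξ ≠ ξ) :
    ∃ χ : D →* Multiplicative (ZMod p), χ ≠ 1 ∧ ∀ d, u d ξ = ξ → χ d = 1 := by
  have : NeZero (p ^ N) := ⟨pow_ne_zero _ hp.out.ne_zero⟩
  let f : D →* (ZMod (p ^ N))ˣ := (hξ.autToPow ℚ).comp u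
  have hker : ∀ d, d ∈ f.ker ↔ u d ξ = ξ := by
    intro d
    rw [MonoidHom.mem_ker]
    change hξ.autToPow ℚ (u d) = 1 ↔ _
    have h1 := hξ.autToPow_spec ℚ (u d)
    constructor
    · intro h
      rw [h] at h1
      rw [← h1, Units.val_one]
      rcases Nat.eq_zero_or_pos N with rfl | hN
      · rw [pow_zero, IsPrimitiveRoot.one_right_iff] at hξ
        rw [hξ, one_pow]
      · have : Fact (1 < p ^ N) := ⟨Nat.one_lt_pow hN.ne' hp.out.one_lt⟩
        rw [ZMod.val_one, pow_one]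
    · intro h
      rw [h] at h1
      have h2 : (hξ.autToPow ℚ (u d) : ZMod (p ^ N)).val ≡ 1 [MOD p ^ N] := by
        have h3 : ξ ^ (((hξ.autToPow ℚ (u d) : ZMod (p ^ N)).val : ℤ) - 1) = 1 := by
          rw [zpow_sub_one₀ (hξ.ne_zero this.out), zpow_natCast, h1,
            mul_inv_cancel₀ (hξ.ne_zero this.out)]
        rw [hξ.zpow_eq_one_iff_dvd] at h3
        exact ((Nat.modEq_iff_dvd).mpr (by push_cast at h3 ⊢; exact h3)).symm
      rw [← ZMod.natCast_eq_natCast_iff, ZMod.natCast_zmod_val, Nat.cast_one] at h2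
      exact Units.ext h2
  have hidx : f.ker.index = Nat.card f.range := by
    rw [Subgroup.index_ker]
  have h0 : f.ker.index ≠ 0 := by
    rw [hidx]
    exact Nat.card_pos.ne'
  have hc : ∀ x y : D, (x * y)⁻¹ * (y * x) ∈ f.ker := by
    intro x y
    rw [MonoidHom.mem_ker, map_mul, map_inv, map_mul, map_mul, mul_comm (f y), inv_mul_cancel]
  have hfd : f d₀ ≠ 1 := fun h => hd₀ ((hker d₀).mp (MonoidHom.mem_ker.mpr h))
  have hpow : f d₀ ^ p ^ (N - 1) = 1 := by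
    rw [← map_pow, ← MonoidHom.mem_ker, hker, map_pow]
    exact pow_smul_root hξ hζ (hu d₀)
  have hpd : p ∣ f.ker.index := by
    obtain ⟨k, hk, hk'⟩ := (Nat.dvd_prime_pow hp.out).mp (orderOf_dvd_of_pow_eq_one hpow)
    have hk0 : k ≠ 0 := by
      rintro rfl
      rw [pow_zero, orderOf_eq_one_iff] at hk'
      exact hfd hk'
    have h1 : p ∣ orderOf (f d₀) := by
      rw [hk']
      exact dvd_pow_self p hk0
    refine h1.trans ?_
    rw [hidx]
    have h2 : orderOf (f.rangeRestrict d₀) ∣ Nat.card f.range := orderOf_dvd_natCard _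
    rwa [← Subgroup.orderOf_coe] at h2
  obtain ⟨χ, hχ, hle⟩ := CFTLocal.exists_char_of_comm f.ker h0 hc hpd
  exact ⟨χ, hχ, fun d hd => hle ((hker d).mpr hd)⟩

end Fermat.Agent.CFT.SKummer
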