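import Fermat.Agent.CFT.SKummer.Lifting
import Fermat.Agent.CFT.SKummer.CycLayer
import Fermat.Agent.CFT.Local.LocH2
import Fermat.Agent.CFT.Bridge.UnramRes
import Fermat.Agent.CFT.Global.Hasse

/-!
# Final lifting theorem

A class of `H²(G_K, μ_p)` which is trivial at all places outside `S` comes from
`H²(G_{K,S}, μ_p)`.
-/

set_option autoImplicit false

noncomputable section

namespace Fermat.Agent.CFT.SKummer

open scoped Pointwise NumberField
open Fermat.Agent.Frob Fermat.Agent.Minkowski IsDedekindDomain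
open Fermat.Agent.PT Fermat.Agent.CFT.Kum Fermat.Agent.CFT.Kum.KumSet Fermat.Agent.CFT.Bridge
open Fermat.Agent.CFT.Global

section kill

/-- If `H²` injects into `ZMod p` through `inv` and `inv (X ∪ Y) ≠ 0` then each class is a multiple
of `X ∪ Y`. -/
lemma exists_multiple {p : ℕ} [hp : Fact p.Prime] {G : Type*} [Group G] {𝓛 : LevelSys G}
    {inv : H2 𝓛 (triv p G) →+ ZMod p} (hinv : Function.Injective inv) {X Y : Xp 𝓛 p}
    (h1 : inv (cupX X Y) ≠ 0) (c : ↥(Z2 𝓛 (triv p G))) :
    ∃ (t : ℕ) (e : G → ZMod p), LC1 𝓛 e ∧ ∀ g h, c.1 (g, h) =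
      t • (X.1 g * Y.1 h) + (e h - e (g * h) + e g) := by
  set t : ZMod p := inv (H2mk 𝓛 (triv p G) c) / inv (cupX X Y) with ht
  have h2 : H2mk 𝓛 (triv p G) c = t.val • cupX X Y := by
    apply hinv
    rw [map_nsmul, nsmul_eq_mul, ZMod.natCast_zmod_val, ht, div_mul_cancel₀ _ h1]
  rw [cupX_apply, ← map_nsmul, ← sub_eq_zero, ← map_sub, H2mk_triv_eq_zero_iff] at h2
  obtain ⟨e, he, hce⟩ := h2
  refine ⟨t.val, e, he, fun g h => ?_⟩
  have h3 := hce g h
  change c.1 (g, h) - t.val • (X.1 g * Y.1 h) = _ at h3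
  rw [← h3, add_sub_cancel]

variable {p : ℕ} [hp : Fact p.Prime] {q : ℕ} [hq : Fact q.Prime]

/-- Nondegeneracy: each nonzero character has a nonzero cup product with some character. -/
theorem exists_cupX_ne (hp2 : p ≠ 2) (l : IntermediateField ℚ_[q] (PadicAlgCl q))
    [FiniteDimensional ℚ_[q] l] {ξ : l} (hξ : IsPrimitiveRoot ξ p)
    (inv : H2 (lev l) (triv p l.fixingSubgroup) →+ ZMod p) (hinv : Function.Injective inv)
    {X : Xp (lev l) p} (hX : X ≠ 0) : ∃ Y : Xp (lev l) p, inv (cupX X Y) ≠ 0 := by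
  obtain ⟨b, hb⟩ := kumF_surjective (kumOf l hξ) (isFixed_fixingSubgroup l)
    (Multiplicative.ofAdd X)
  have hbp : ¬ ∃ b' : l, b' ^ p = (b : l) := by
    rw [exists_unit_pow_iff, ← kumF_eq_one_iff (kumOf l hξ) (isFixed_fixingSubgroup l), hb]
    intro h
    exact hX (Multiplicative.ofAdd.injective h)
  rw [(locSymOf l hp2 hξ inv hinv).mem_pow_iff] at hbp
  push Not at hbp
  obtain ⟨y, hy⟩ := hbp
  rw [locSymOf_sym, symF_apply, hb, toAdd_ofAdd] at hy
  exact ⟨(kumF (kumOf l hξ) (isFixed_fixingSubgroup l) y).toAdd, fun h => hy (by rw [h]; rfl)⟩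

/-- Restriction to the kernel of a nonzero character kills `H²` of a local field. -/
theorem isCob_of_char (hp2 : p ≠ 2) (l : IntermediateField ℚ_[q] (PadicAlgCl q))
    [FiniteDimensional ℚ_[q] l] {ξ : l} (hξ : IsPrimitiveRoot ξ p)
    {D : Subgroup (LocG q)} (hD : l.fixingSubgroup = D) (c : D × D → ZMod p)
    (hcl : LC2 ((levLoc q).restrict D) c) (hc : IsCocy c)
    {χ : D →* Multiplicative (ZMod p)} (hχ1 : χ ≠ 1) (hχ : χ.ker ∈ (levLoc q).restrict D)
    (D' : Subgroup (LocG q)) (hD' : D' ≤ D) (hχD' : ∀ d (hd : d ∈ D'), χ ⟨d, hD' hd⟩ = 1) :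
    IsCob ((levLoc q).restrict D')
      (fun w : D' × D' => c (Subgroup.inclusion hD' w.1, Subgroup.inclusion hD' w.2)) := by
  subst hD
  obtain ⟨inv, hinv⟩ := (CFTLocal.locH2 hp2).exists_inv q l hξ
  have hX : (Xp.ofHom χ hχ : Xp (lev l) p) ≠ 0 := by
    intro h
    apply hχ1
    ext d
    exact congrFun (congrArg Subtype.val h) d
  obtain ⟨Y, hY⟩ := exists_cupX_ne hp2 l hξ inv hinv.1 hX
  obtain ⟨t, e, he, hce⟩ := exists_multiple hinv.1 hY ⟨c, hcl, fun g h j => hc g h j⟩
  refine ⟨fun d => e (Subgroup.inclusion hD' d), ?_, fun g h => ?_⟩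
  · exact he.precomp (u := Subgroup.inclusion hD') (compat_comap_of_comp _ rfl)
  · have h3 := hce (Subgroup.inclusion hD' g) (Subgroup.inclusion hD' h)
    have h4 : (χ (Subgroup.inclusion hD' g)).toAdd = 0 := by
      have h5 : χ (Subgroup.inclusion hD' g) = 1 := hχD' g g.2
      rw [h5]
      rfl
    rw [Xp.ofHom_apply, h4, zero_mul, smul_zero, zero_add] at h3
    exact h3

end kill

section hasse

variable {p : ℕ} [hp : Fact p.Prime]

/-- The Hasse principle, in terms of subgroups. -/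
theorem hasse_subgroup (hp2 : p ≠ 2) {ζ : Qbar} (hζ : IsPrimitiveRoot ζ p) {H : Subgroup GamQ}
    (hH : H ∈ levQ) (hHζ : ∀ g ∈ H, g ζ = ζ) (c : H × H → ZMod p)
    (hcl : LC2 (levQ.restrict H) c) (hc : IsCocy c) (hloc : LocTriv PlL plPhi c) :
    IsCob (levQ.restrict H) c := by
  obtain ⟨F, hFfin, rfl⟩ : ∃ F : IntermediateField ℚ (AlgebraicClosure ℚ),
      FiniteDimensional ℚ F ∧ F.fixingSubgroup = H :=
    ⟨IntermediateField.fixedField H, fixedField_finite_of_mem hH,
      fixingSubgroup_fixedField_of_mem hH⟩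
  have hζF : ζ ∈ F := by
    have h1 := (isFixed_fixingSubgroup F ζ).1 fun g => hHζ g.1 g.2
    obtain ⟨y, hy⟩ := h1
    rw [← hy]
    exact y.2
  have hζ2 : IsPrimitiveRoot (⟨ζ, hζF⟩ : F) p :=
    IsPrimitiveRoot.of_map_of_injective (f := algebraMap F (AlgebraicClosure ℚ)) hζ
      (algebraMap F (AlgebraicClosure ℚ)).injective
  let c' : ↥(Z2 (lev F) (triv p F.fixingSubgroup)) := ⟨c, hcl, fun g h j => hc g h j⟩
  exact (H2mk_triv_eq_zero_iff c').mp (hasse_principle hp2 (CFTLocal.locH2 hp2) F hζ2 _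
    ((locTriv_iff_resW F c').mp hloc))

end hasse

section stab

variable {S : Finset Nat.Primes} {K : IntermediateField ℚ Qbar} {p : ℕ} [hp : Fact p.Prime]
  {q : ℕ} [hq : Fact q.Prime]

/-- The local group of a place as its stabiliser in `G_K`. -/
def toStab (g : GamQ) {P : Place S} (hP : P.A = placeW q g) :
    (K.fixingSubgroup.comap (phiLoc q g)) →* stabU K P where
  toFun h := ⟨⟨phiLoc q g h.1, h.2⟩, by
    rw [mem_stabU]
    apply Place.ext'
    change phiLoc q g h.1 • P.A = P.A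
    rw [hP]
    have h1 : phiLoc q g h.1 ∈ (placeW q g).decompositionSubgroup ℚ := by
      rw [mem_decompositionSubgroup_placeW, phiLoc_apply]
      exact ⟨h.1, by group⟩
    exact h1⟩
  map_one' := by
    apply Subtype.ext
    apply Subtype.ext
    exact map_one (phiLoc q g)
  map_mul' a b := by
    apply Subtype.ext
    apply Subtype.ext
    exact map_mul (phiLoc q g) a.1 b.1

lemma coe_toStab (g : GamQ) {P : Place S} (hP : P.A = placeW q g)
    (h : K.fixingSubgroup.comap (phiLoc q g)) :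
    (((toStab g hP h : stabU K P) : K.fixingSubgroup) : GQ) = g⁻¹ * localGaloisToGlobal q h * g :=
  rfl

lemma toStab_bijective (g : GamQ) {P : Place S} (hP : P.A = placeW q g) :
    Function.Bijective (toStab (K := K) g hP) := by
  constructor
  · intro a b hab
    have h1 := congrArg (fun t : stabU K P => ((t : K.fixingSubgroup) : GQ)) hab
    simp only [coe_toStab] at h1
    apply Subtype.ext
    apply localGaloisToGlobal_injective
    exact mul_left_cancel (mul_right_cancel h1)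
  · intro τ
    have h1 : ((τ : K.fixingSubgroup) : GQ) ∈ (placeW q g).decompositionSubgroup ℚ := by
      have h2 := congrArg Place.A (mem_stabU.mp τ.2)
      change ((τ : K.fixingSubgroup) : GQ) • P.A = P.A at h2
      rw [hP] at h2
      exact h2
    rw [mem_decompositionSubgroup_placeW] at h1
    obtain ⟨h, hh⟩ := h1
    have h3 : phiLoc q g h = ((τ : K.fixingSubgroup) : GQ) := by
      rw [phiLoc_apply, hh]
      group
    refine ⟨⟨h, ?_⟩, ?_⟩
    · rw [Subgroup.mem_comap, h3]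
      exact (τ : K.fixingSubgroup).2
    · apply Subtype.ext
      apply Subtype.ext
      exact h3

/-- Transport of local triviality to stabilisers. -/
theorem isCob_stabU (c : K.fixingSubgroup × K.fixingSubgroup → ZMod p) (g : GamQ) {P : Place S}
    (hP : P.A = placeW q g)
    (hc : IsCob ((levLoc q).restrict (K.fixingSubgroup.comap (phiLoc q g)))
      (fun w => c (⟨phiLoc q g w.1, w.1.2⟩, ⟨phiLoc q g w.2, w.2.2⟩))) :
    IsCob ((lev K).restrict (stabU K P)) (fun w => c (w.1, w.2)) := by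
  let e := MulEquiv.ofBijective _ (toStab_bijective (K := K) g hP)
  have he : ∀ τ : stabU K P, phiLoc q g (e.symm τ) = ((τ : K.fixingSubgroup) : GQ) := by
    intro τ
    have h1 := congrArg (fun t : stabU K P => ((t : K.fixingSubgroup) : GQ)) (e.apply_symm_apply τ)
    exact h1
  have hcomp : ((levLoc q).restrict (K.fixingSubgroup.comap (phiLoc q g))).Compat
      e.symm.toMonoidHom ((lev K).restrict (stabU K P)) := by
    rintro W ⟨V, hV, hVW⟩
    have hV2 := hV
    rw [levLoc, ← comap_localGaloisToGlobal_galLevels q] at hV2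
    obtain ⟨V', hV', hVV'⟩ := hV2
    refine ⟨(V'.comap (MulAut.conj g).toMonoidHom).comap K.fixingSubgroup.subtype,
      LevelSys.comap_mem_comap _ (comap_conj_mem g hV'), fun τ hτ => ?_⟩
    rw [Subgroup.mem_comap]
    apply hVW
    rw [Subgroup.mem_comap]
    apply hVV'
    rw [Subgroup.mem_comap]
    have h1 : g * ((τ : K.fixingSubgroup) : GQ) * g⁻¹ ∈ V' := hτ
    rw [← he τ, phiLoc_apply] at h1
    have h2 : g * (g⁻¹ * (localGaloisToGlobal q) ↑(e.symm τ) * g) * g⁻¹ =
        localGaloisToGlobal q (e.symm τ) := by group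
    rw [h2] at h1
    exact h1
  have h2 := hc.precomp hcomp
  have h3 : (fun w : stabU K P × stabU K P => c (⟨phiLoc q g (e.symm w.1), (e.symm w.1).2⟩,
      ⟨phiLoc q g (e.symm w.2), (e.symm w.2).2⟩)) = fun w => c (w.1, w.2) := by
    funext w
    congr 2
    · exact Subtype.ext (he w.1)
    · exact Subtype.ext (he w.2)
  rw [← h3]
  exact h2

end stab

section main

variable {S : Finset Nat.Primes} {K : IntermediateField ℚ Qbar} {p : ℕ} [hp : Fact p.Prime]

/-- Transport between a subgroup of `G_K` and its image in `G_ℚ`. -/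
lemma isCob_of_map (T : Subgroup K.fixingSubgroup) (c : K.fixingSubgroup × K.fixingSubgroup → ZMod p)
    {H : Subgroup GQ} (hHT : ∀ t : T, ((t : K.fixingSubgroup) : GQ) ∈ H)
    (hH : H ≤ K.fixingSubgroup)
    (hc : IsCob (levQ.restrict H)
      (fun w => c (Subgroup.inclusion hH w.1, Subgroup.inclusion hH w.2))) :
    IsCob ((lev K).restrict T) (fun w => c (w.1, w.2)) := by
  let u : T →* H :=
    { toFun := fun t => ⟨((t : K.fixingSubgroup) : GQ), hHT t⟩
      map_one' := rfl
      map_mul' := fun a b => rfl }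
  have hu : (levQ.restrict H).Compat u ((lev K).restrict T) := by
    rintro W ⟨V, hV, hVW⟩
    refine ⟨V.comap K.fixingSubgroup.subtype, LevelSys.comap_mem_comap _ hV, fun t ht => ?_⟩
    rw [Subgroup.mem_comap]
    apply hVW
    exact ht
  exact hc.precomp hu

/-- The local triviality of the restriction of `c` to the cyclotomic layer at a place above `S`. -/
lemma isCob_above [FiniteDimensional ℚ K] (hp2 : p ≠ 2) {ζ : K} (hζ : IsPrimitiveRoot ζ p)
    (c : K.fixingSubgroup × K.fixingSubgroup → ZMod p) (hcl : LC2 (lev K) c) (hcc : IsCocy c)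
    {N : ℕ} {ξ : Qbar} (hξ : IsPrimitiveRoot ξ (p ^ N)) {H : Subgroup GQ}
    (hH : H ≤ K.fixingSubgroup) (hHξ : ∀ g ∈ H, g ξ = ξ) (i : Pl)
    (hi : ∃ h : (locField (emb K i.q i.g)).fixingSubgroup,
      ((jw K i.q i.g h : K.fixingSubgroup) : GQ) ξ ≠ ξ) :
    IsCob ((levLoc i.q).restrict (H.comap (phiLoc i.q i.g)))
      (locRes plPhi (fun w : H × H => c (Subgroup.inclusion hH w.1, Subgroup.inclusion hH w.2))
        i) := by
  have hζ1 : IsPrimitiveRoot (ζ : Qbar) p :=
    hζ.map_of_injective (algebraMap K (AlgebraicClosure ℚ)).injective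
  let D : Subgroup (LocG i.q) := K.fixingSubgroup.comap (phiLoc i.q i.g)
  let r : D →* K.fixingSubgroup := (phiLoc i.q i.g).subgroupComap K.fixingSubgroup
  have hr : (lev K).Compat r ((levLoc i.q).restrict D) := by
    rintro W ⟨V, hV, hVW⟩
    refine ⟨V.comap (phiLoc i.q i.g), compat_phiLoc i.q i.g V hV, fun d hd => ?_⟩
    rw [Subgroup.mem_comap]
    apply hVW
    exact hd
  obtain ⟨h₀, hh₀⟩ := hi
  have hd₀ : (h₀ : LocG i.q) ∈ D := by
    have h1 := comap_phiLoc_eq i.q K i.g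
    change (h₀ : LocG i.q) ∈ K.fixingSubgroup.comap (phiLoc i.q i.g)
    rw [h1]
    exact h₀.2
  obtain ⟨χ, hχ1, hχ⟩ := exists_char_of_ne (p := p) (K.fixingSubgroup.subtype.comp r) hξ hζ1
    (fun d => (IntermediateField.mem_fixingSubgroup_iff _ _).mp (r d).2 _ ζ.2)
    (d₀ := ⟨h₀, hd₀⟩) hh₀
  have hker : χ.ker ∈ (levLoc i.q).restrict D := by
    have hfin : FiniteDimensional ℚ (IntermediateField.adjoin ℚ ({ξ} : Set Qbar)) :=
      IntermediateField.adjoin.finiteDimensional (Algebra.IsIntegral.isIntegral ξ)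
    refine ⟨(IntermediateField.adjoin ℚ ({ξ} : Set Qbar)).fixingSubgroup.comap (phiLoc i.q i.g),
      compat_phiLoc i.q i.g _ (fixingSubgroup_mem_galLevels _), fun d hd => ?_⟩
    rw [MonoidHom.mem_ker]
    apply hχ
    exact (IntermediateField.mem_fixingSubgroup_iff _ _).mp hd ξ
      (IntermediateField.mem_adjoin_simple_self ℚ ξ)
  have key := isCob_of_char hp2 (locField (emb K i.q i.g)) (primitiveRoot_toLoc K i.q i.g hζ)
    (D := D) (comap_phiLoc_eq i.q K i.g).symm (fun w => c (r w.1, r w.2))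
    (hcl.precomp hr) (hcc.precomp r) hχ1 hker (H.comap (phiLoc i.q i.g))
    (Subgroup.comap_mono hH) (fun d hd => hχ _ (hHξ _ hd))
  exact key

/-- **Final lifting**: a class in `H²(G_K, μ_p)` which is trivial at the places outside `S` comes
from `H²(G_{K,S}, μ_p)`. -/
theorem liftS [FiniteDimensional ℚ K] (hp2 : p ≠ 2) (hpS : (⟨p, hp.out⟩ : Nat.Primes) ∈ S)
    (hK : K ≤ Omega S) {ζ : K} (hζ : IsPrimitiveRoot ζ p)
    (x : H2 (lev K) (triv p K.fixingSubgroup))
    (hx : ∀ (q : ℕ) [hq : Fact q.Prime], (⟨q, hq.out⟩ : Nat.Primes) ∉ S →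
      ∀ g, resW K q g x = 0) :
    x ∈ LinearMap.range (Formal.infl2 (levS_le_lev (S := S) (K := K))
      (triv p K.fixingSubgroup)) := by
  obtain ⟨c, rfl⟩ := H2mk_surjective x
  have hζ1 : IsPrimitiveRoot (ζ : Qbar) p :=
    hζ.map_of_injective (algebraMap K (AlgebraicClosure ℚ)).injective
  have hcc : IsCocy c.1 := fun g h j => c.2.2 g h j
  -- local triviality outside `S`
  have hout : ∀ (q : ℕ) [hq : Fact q.Prime], (⟨q, hq.out⟩ : Nat.Primes) ∉ S → ∀ g,
      IsCob ((levLoc q).restrict (K.fixingSubgroup.comap (phiLoc q g)))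
        (fun w => c.1 (⟨phiLoc q g w.1, w.1.2⟩, ⟨phiLoc q g w.2, w.2.2⟩)) := by
    intro q hq hqS g
    have h1 := hx q hqS g
    rw [resW, resT_mk, H2mk_triv_eq_zero_iff] at h1
    rw [isCob_transport (comap_phiLoc_eq q K g)]
    exact h1
  obtain ⟨N, hN⟩ := exists_jw_ne K hp.out S
  have : NeZero (p ^ N) := ⟨pow_ne_zero _ hp.out.ne_zero⟩
  obtain ⟨ξ, hξ⟩ : ∃ ξ : Qbar, IsPrimitiveRoot ξ (p ^ N) :=
    HasEnoughRootsOfUnity.exists_primitiveRoot Qbar (p ^ N)
  obtain ⟨n, hn, χ, s, hs, hker⟩ := exists_cyc_char hp2 K.fixingSubgroup hξ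
  have hfin : FiniteDimensional ℚ (IntermediateField.adjoin ℚ ({ξ} : Set Qbar)) :=
    IntermediateField.adjoin.finiteDimensional (Algebra.IsIntegral.isIntegral ξ)
  have hadj : ∀ g : GQ, g ∈ (IntermediateField.adjoin ℚ ({ξ} : Set Qbar)).fixingSubgroup →
      g ξ = ξ := fun g hg => (IntermediateField.mem_fixingSubgroup_iff _ _).mp hg ξ
      (IntermediateField.mem_adjoin_simple_self ℚ ξ)
  have hχ : χ.ker ∈ levS S K := by
    refine ⟨(IntermediateField.adjoin ℚ ({ξ} : Set Qbar)).fixingSubgroup,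
      fixingSubgroup_mem_sLevels ?_, fun g hg => ?_⟩
    · rw [IntermediateField.adjoin_simple_le_iff]
      exact rootOfUnity_mem_Omega hpS hξ.pow_eq_one
    · rw [hker]
      exact hadj _ hg
  refine mem_range_inflK (p := ⟨p, hp.out⟩) hK hpS hζ hs hχ _ ?_ ?_
  · -- global triviality on the cyclotomic layer
    rw [resT_mk, H2mk_triv_eq_zero_iff]
    let H : Subgroup GQ := χ.ker.map K.fixingSubgroup.subtype
    have hHK : H ≤ K.fixingSubgroup := by
      rintro _ ⟨t, -, rfl⟩
      exact t.2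
    have hHξ : ∀ g ∈ H, g ξ = ξ := by
      rintro _ ⟨t, ht, rfl⟩
      exact (hker t).mp ht
    have hHlev : H ∈ levQ := by
      refine LevelSys.mono (LevelSys.inf_mem (fixingSubgroup_mem_galLevels K)
        (fixingSubgroup_mem_galLevels (IntermediateField.adjoin ℚ ({ξ} : Set Qbar)))) ?_
      rintro g ⟨h1, h2⟩
      exact ⟨⟨g, h1⟩, (hker _).mpr (hadj g h2), rfl⟩
    have hincl : (lev K).Compat (Subgroup.inclusion hHK) (levQ.restrict H) :=
      compat_comap_of_comp _ rfl
    refine isCob_of_map χ.ker c.1 (H := H) (fun t => ⟨t.1, t.2, rfl⟩) hHK ?_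
    refine hasse_subgroup hp2 hζ1 hHlev
      (fun g hg => (IntermediateField.mem_fixingSubgroup_iff _ _).mp (hHK hg) _ ζ.2) _
      (c.2.1.precomp hincl) (hcc.precomp _) fun i => ?_
    by_cases hi : (⟨i.q, i.hq.out⟩ : Nat.Primes) ∈ S
    · exact isCob_above hp2 hζ c.1 c.2.1 hcc hξ hHK hHξ i (hN ξ hξ i.q hi i.g)
    · have h1 := hout i.q hi i.g
      have hle : H.comap (phiLoc i.q i.g) ≤ K.fixingSubgroup.comap (phiLoc i.q i.g) :=
        Subgroup.comap_mono hHK
      exact h1.precomp (u := Subgroup.inclusion hle) (compat_comap_of_comp _ rfl)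
  · -- local triviality at the places outside `S`
    intro P
    rw [resT_mk, H2mk_triv_eq_zero_iff]
    have : Fact ((P.q : ℕ)).Prime := ⟨P.q.2⟩
    obtain ⟨g, hg⟩ := exists_smul_padicPlace (q := (P.q : ℕ)) P.hA
    exact isCob_stabU c.1 g⁻¹ (P := P) (by rw [placeW, inv_inv, hg])
      (hout (P.q : ℕ) P.hq g⁻¹)

end main

end Fermat.Agent.CFT.SKummer
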