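import Fermat.Agent.PT.Cyclic

/-!
# Formal part of `S`-level Kummer theory

`G` a group with two level systems `𝓛S ⊆ 𝓛`, `E` a discrete `𝓛`-module with vanishing `H¹`,
`W ⊆ E` the submodule of elements fixed by a level of `𝓛S`, `div : W → D` an equivariant map to a
torsion-free module `D` which is discrete for `𝓛S`.

* `inflation_injective` : `H²(𝓛S, W) → H²(𝓛, E)` is injective.
* `card_ker_eq_relIndex` : `ker (H²(𝓛S, μ_p) → H²(𝓛, μ_p)) ≅ D^G / (p D + div W^G)`.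
* `exists_lift` : a class of `H²(𝓛S, W)` which is killed by `div` and by `p` in `H²(𝓛, E)` comes
  from `H²(𝓛S, μ_p)`.
-/

set_option autoImplicit false
set_option linter.unusedSectionVars false

namespace Fermat.Agent.CFT.SKummer.Formal

open Fermat.Agent.PT

variable {G : Type*} [Group G] {𝓛 𝓛S : LevelSys G}
variable {E : Type*} [AddCommGroup E] {ρ : Representation ℤ G E}
variable {W : Type*} [AddCommGroup W] {ω : Representation ℤ G W}
variable {D : Type*} [AddCommGroup D] {δ : Representation ℤ G D}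

lemma LC1.of_le (hle : ∀ V ∈ 𝓛S, V ∈ 𝓛) {X : Type*} {f : G → X} (hf : LC1 𝓛S f) :
    LC1 𝓛 f := by
  obtain ⟨U, hU, h⟩ := hf
  exact ⟨U, hle U hU, h⟩

lemma LC2.of_le (hle : ∀ V ∈ 𝓛S, V ∈ 𝓛) {X : Type*} {f : G × G → X} (hf : LC2 𝓛S f) :
    LC2 𝓛 f := by
  obtain ⟨U, hU, h⟩ := hf
  exact ⟨U, hle U hU, h⟩

lemma compat_of_le (hle : ∀ V ∈ 𝓛S, V ∈ 𝓛) : 𝓛S.Compat (MonoidHom.id G) 𝓛 := fun W hW => by
  simpa using hle W hW

/-- The inflation map `H²(𝓛S, -) → H²(𝓛, -)`. -/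
abbrev infl2 (hle : ∀ V ∈ 𝓛S, V ∈ 𝓛) {k : Type*} [CommRing k] {M : Type*} [AddCommGroup M]
    [Module k M] (τ : Representation k G M) : H2 𝓛S τ →ₗ[k] H2 𝓛 τ :=
  H2map (MonoidHom.id G) (compat_of_le hle) LinearMap.id (fun _ _ => rfl)

lemma infl2_mk_eq_zero (hle : ∀ V ∈ 𝓛S, V ∈ 𝓛) {k : Type*} [CommRing k] {M : Type*}
    [AddCommGroup M] [Module k M] {τ : Representation k G M} (c : ↥(Z2 𝓛S τ)) :
    infl2 hle τ (H2mk 𝓛S τ c) = 0 ↔ ∃ b : G → M, LC1 𝓛 b ∧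
      ∀ g h, (c : G × G → M) (g, h) = τ g (b h) - b (g * h) + b g := by
  rw [infl2, H2map_mk, H2mk_eq_zero]
  rfl

section

variable {j : W →ₗ[ℤ] E}

/-- **Injectivity of inflation.** -/
theorem inflation_injective (hω : Discrete 𝓛S ω)
    (hje : Equivar ω ρ j) (hj : Function.Injective j)
    (hjr : ∀ e : E, (∃ V ∈ 𝓛S, ∀ s ∈ V, ρ s e = e) → ∃ w, j w = e)
    (hv : ∀ V ∈ 𝓛S, H1Van 𝓛 ρ V) {c : G × G → W} (hc : c ∈ Z2 𝓛S ω) {φ : G → E}
    (hφ : LC1 𝓛 φ) (hcφ : ∀ g h, j (c (g, h)) = ρ g (φ h) - φ (g * h) + φ g) :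
    ∃ ψ : G → W, LC1 𝓛S ψ ∧ ∀ g h, c (g, h) = ω g (ψ h) - ψ (g * h) + ψ g := by
  classical
  have hcc := hc.2
  have h11 : ∀ u, c (1, u) = c (1, 1) := by
    intro u
    have h1 := hcc 1 1 u
    simp only [one_mul, mul_one, map_one, Module.End.one_apply] at h1
    exact (add_left_cancel h1).symm
  have hg1 : ∀ g, c (g, 1) = ω g (c (1, 1)) := by
    intro g
    have h1 := hcc g 1 1
    simp only [mul_one] at h1
    exact add_right_cancel h1
  -- a level for everything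
  obtain ⟨V₁, hV₁, hV₁'⟩ := hc.1
  obtain ⟨V₂, hV₂, hV₂'⟩ := hω (c (1, 1))
  obtain ⟨V, hV, hVle, hVn⟩ := LevelSys.exists_normal (LevelSys.inf_mem hV₁ hV₂)
  have hV1 : ∀ s ∈ V, s ∈ V₁ := fun s hs => (hVle hs).1
  have hcs : ∀ g, ∀ s ∈ V, c (g, s) = ω g (c (1, 1)) := by
    intro g s hs
    rw [← hg1 g]
    have := hV₁' g 1 1 s V₁.one_mem (hV1 s hs)
    simpa using this
  have hsc : ∀ g, ∀ s ∈ V, c (s, g) = c (1, 1) := by
    intro g s hs
    rw [← h11 g]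
    have := hV₁' 1 g s 1 (hV1 s hs) V₁.one_mem
    simpa using this
  -- normalise
  set φ₁ : G → E := fun g => φ g - j (c (1, 1)) with hφ₁
  have hfix : ∀ s ∈ V, ρ s (j (c (1, 1))) = j (c (1, 1)) := by
    intro s hs
    rw [← hje, hV₂' s (hVle hs).2]
  have hcφ₁ : ∀ g h, j (c (g, h)) - ρ g (j (c (1, 1))) = ρ g (φ₁ h) - φ₁ (g * h) + φ₁ g := by
    intro g h
    rw [hcφ, hφ₁]
    simp only [map_sub]
    abel
  have hφ₁LC : LC1 𝓛 φ₁ := hφ.comp (fun x => x - j (c (1, 1)))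
  obtain ⟨m, hm⟩ := hv V hV (fun u => φ₁ u) (hφ₁LC.restrict _) (fun u v => by
    have h1 := hcφ₁ u v
    rw [hcs _ _ v.2, hje, sub_self, sub_add_eq_add_sub, eq_comm, sub_eq_zero] at h1
    exact h1.symm)
  set φ₂ : G → E := fun g => φ₁ g - (ρ g m - m) with hφ₂
  have hcφ₂ : ∀ g h, j (c (g, h)) - ρ g (j (c (1, 1))) = ρ g (φ₂ h) - φ₂ (g * h) + φ₂ g := by
    intro g h
    rw [hcφ₁, hφ₂]
    simp only [map_sub, map_mul, Module.End.mul_apply]
    abel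
  have hφ₂V : ∀ s ∈ V, φ₂ s = 0 := by
    intro s hs
    have := hm ⟨s, hs⟩
    simp only [hφ₂] at this ⊢
    rw [this, sub_self]
  have hr : ∀ g, ∀ s ∈ V, φ₂ (g * s) = φ₂ g := by
    intro g s hs
    have h1 := hcφ₂ g s
    rw [hcs g s hs, hje, sub_self, hφ₂V s hs, map_zero, zero_sub, eq_comm, neg_add_eq_zero] at h1
    exact h1
  have hl : ∀ g, ∀ s ∈ V, φ₂ (s * g) = ρ s (φ₂ g) := by
    intro g s hs
    have h1 := hcφ₂ s g
    rw [hsc g s hs, hfix s hs, sub_self, hφ₂V s hs, add_zero, eq_comm, sub_eq_zero] at h1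
    exact h1.symm
  have hfixφ : ∀ g, ∀ s ∈ V, ρ s (φ₂ g) = φ₂ g := by
    intro g s hs
    rw [← hl g s hs]
    have h1 : s * g = g * (g⁻¹ * s * g) := by group
    rw [h1]
    exact hr _ _ (by simpa using hVn.conj_mem s hs g⁻¹)
  have hex : ∀ g, ∃ w, j w = φ₂ g := fun g => hjr _ ⟨V, hV, hfixφ g⟩
  choose ψ₀ hψ₀ using hex
  refine ⟨fun g => ψ₀ g + c (1, 1), ⟨V, hV, fun g s hs => ?_⟩, fun g h => ?_⟩
  · have : ψ₀ (g * s) = ψ₀ g := hj (by rw [hψ₀, hψ₀, hr g s hs])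
    simp only [this]
  · apply hj
    have h1 := hcφ₂ g h
    simp only [map_add, map_sub, hje _ _, hψ₀]
    rw [sub_eq_iff_eq_add.1 h1]
    abel

/-- `H¹(𝓛S, W) = 0`. -/
theorem h1_W (hj : Function.Injective j) (hje : Equivar ω ρ j)
    (hle : ∀ V ∈ 𝓛S, V ∈ 𝓛)
    (hjr : ∀ e : E, (∃ V ∈ 𝓛S, ∀ s ∈ V, ρ s e = e) → ∃ w, j w = e)
    (hv : ∀ V ∈ 𝓛S, H1Van 𝓛 ρ V) {z : G → W} (hz : LC1 𝓛S z)
    (hzc : ∀ g h, z (g * h) = ω g (z h) + z g) : ∃ w : W, ∀ g, z g = ω g w - w := by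
  obtain ⟨m, hm⟩ := hv ⊤ 𝓛S.top_mem (fun u => j (z u))
    (((LC1.of_le hle hz).comp j).restrict _) (fun u v => by
      have : z ((u : G) * v) = ω u (z v) + z u := hzc _ _
      change j (z ((u : G) * v)) = _
      rw [this, map_add, hje])
  have hm' : ∀ g, j (z g) = ρ g m - m := fun g => hm ⟨g, trivial⟩
  obtain ⟨V, hV, hV'⟩ := hz
  have hz1 : z 1 = 0 := by
    have := hzc 1 1
    simpa using this
  obtain ⟨w, hw⟩ := hjr m ⟨V, hV, fun s hs => by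
    have h1 := hm' s
    have h2 : z s = 0 := by
      have := hV' 1 s hs
      rw [one_mul] at this
      rw [this, hz1]
    rw [h2, map_zero, eq_comm, sub_eq_zero] at h1
    exact h1⟩
  refine ⟨w, fun g => hj ?_⟩
  rw [hm' g, map_sub, hje, hw]

end

section Kernel

variable (p : ℕ) {k : Type*} [CommRing k] {M : Type*} [AddCommGroup M] [Module k M]
  {τ : Representation k G M}

/-- pairs `(y, φ)` with `p φ = d y`. -/
def pairs (𝓛S : LevelSys G) (ω : Representation ℤ G W) : AddSubgroup (W × (G → W)) where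
  carrier := {t | LC1 𝓛S t.2 ∧ ∀ g, p • t.2 g = ω g t.1 - t.1}
  zero_mem' := ⟨LC1.const 0, fun g => by simp⟩
  add_mem' := by
    rintro ⟨y, φ⟩ ⟨y', φ'⟩ ⟨h1, h2⟩ ⟨h1', h2'⟩
    refine ⟨(h1.prodMk h1').comp (fun t => t.1 + t.2), fun g => ?_⟩
    change p • (φ g + φ' g) = ω g (y + y') - (y + y')
    have e1 : p • φ g = ω g y - y := h2 g
    have e2 : p • φ' g = ω g y' - y' := h2' g
    rw [smul_add, e1, e2, map_add]
    abel
  neg_mem' := by
    rintro ⟨y, φ⟩ ⟨h1, h2⟩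
    refine ⟨h1.comp (fun t => -t), fun g => ?_⟩
    change p • (-φ g) = ω g (-y) - (-y)
    have e1 : p • φ g = ω g y - y := h2 g
    rw [smul_neg, e1, map_neg]
    abel

variable {p}

lemma pairs_smul_d12 {t : W × (G → W)} (ht : t ∈ pairs p 𝓛S ω) (x : G × G) :
    p • (ω x.1 (t.2 x.2) - t.2 (x.1 * x.2) + t.2 x.1) = 0 := by
  obtain ⟨g, h⟩ := x
  obtain ⟨y, φ⟩ := t
  have e : ∀ g, p • φ g = ω g y - y := ht.2
  change p • (ω g (φ h) - φ (g * h) + φ g) = 0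
  rw [smul_add, smul_sub, ← map_nsmul, e, e, e, map_sub, map_mul, Module.End.mul_apply]
  abel

variable (ι : M →+ W) (hι : Function.Injective ι) (hιr : ∀ w : W, p • w = 0 → ∃ m, ι m = w)
  (hτ : ∀ g m, ι (τ g m) = ω g (ι m)) (hω : Discrete 𝓛S ω)

include hιr in
lemma exists_cocycle (t : ↥(pairs p 𝓛S ω)) (x : G × G) :
    ∃ m, ι m = ω x.1 (t.1.2 x.2) - t.1.2 (x.1 * x.2) + t.1.2 x.1 :=
  hιr _ (pairs_smul_d12 t.2 x)

/-- The 2-cocycle of a pair. -/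
noncomputable def cocy (t : ↥(pairs p 𝓛S ω)) (x : G × G) : M :=
  (exists_cocycle ι hιr t x).choose

lemma ι_cocy (t : ↥(pairs p 𝓛S ω)) (x : G × G) :
    ι (cocy ι hιr t x) = ω x.1 (t.1.2 x.2) - t.1.2 (x.1 * x.2) + t.1.2 x.1 :=
  (exists_cocycle ι hιr t x).choose_spec

include hι hτ hω in
lemma mem_Z2_of_ι {c : G × G → M} {φ : G → W} (hφ : LC1 𝓛S φ)
    (h : ∀ x : G × G, ι (c x) = ω x.1 (φ x.2) - φ (x.1 * x.2) + φ x.1) : c ∈ Z2 𝓛S τ := by
  have hZ := d12_mem_Z2 hω hφ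
  obtain ⟨⟨V, hV, hV'⟩, hc⟩ := hZ
  have h' : ∀ x, ι (c x) = d12 ω φ x := h
  refine ⟨⟨V, hV, fun g g' s s' hs hs' => hι ?_⟩, fun g g' g'' => hι ?_⟩
  · rw [h', h']
    exact hV' g g' s s' hs hs'
  · simp only [map_add, hτ, h']
    exact hc g g' g''

/-- The class in `H²(𝓛S, μ_p)` of a pair. -/
noncomputable def pairsTo : ↥(pairs p 𝓛S ω) →+ H2 𝓛S τ where
  toFun t := H2mk 𝓛S τ ⟨cocy ι hιr t, mem_Z2_of_ι ι hι hτ hω t.2.1 (ι_cocy ι hιr t)⟩
  map_zero' := by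
    have : (⟨cocy ι hιr (0 : ↥(pairs p 𝓛S ω)), mem_Z2_of_ι ι hι hτ hω
        (0 : ↥(pairs p 𝓛S ω)).2.1 (ι_cocy ι hιr 0)⟩ : ↥(Z2 𝓛S τ)) = 0 := by
      apply Subtype.ext
      funext x
      apply hι
      change ι (cocy ι hιr 0 x) = ι 0
      rw [ι_cocy]
      simp
    rw [this, map_zero]
  map_add' t t' := by
    rw [← map_add]
    congr 1
    apply Subtype.ext
    funext x
    apply hι
    change ι (cocy ι hιr (t + t') x) = ι (cocy ι hιr t x + cocy ι hιr t' x)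
    rw [map_add, ι_cocy, ι_cocy, ι_cocy]
    simp only [AddSubgroup.coe_add, Prod.snd_add, Pi.add_apply, map_add]
    abel

lemma pairsTo_eq_zero_iff (t : ↥(pairs p 𝓛S ω)) : pairsTo ι hι hιr hτ hω t = 0 ↔
    ∃ b : G → M, LC1 𝓛S b ∧ ∀ g h, ω g (t.1.2 h) - t.1.2 (g * h) + t.1.2 g =
      ω g (ι (b h)) - ι (b (g * h)) + ι (b g) := by
  change H2mk 𝓛S τ _ = 0 ↔ _
  rw [H2mk_eq_zero]
  refine exists_congr fun b => and_congr Iff.rfl (forall_congr' fun g => forall_congr' fun h => ?_)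
  change cocy ι hιr t (g, h) = _ ↔ _
  rw [← hι.eq_iff, ι_cocy]
  simp only [map_add, map_sub, hτ]

end Kernel

section Count

/-- The hypotheses on the `S`-Kummer situation. -/
structure Setup (p : ℕ) (𝓛 𝓛S : LevelSys G) (ρ : Representation ℤ G E) (ω : Representation ℤ G W)
    (δ : Representation ℤ G D) (j : W →ₗ[ℤ] E) (dv : W →ₗ[ℤ] D) : Prop where
  hle : ∀ V ∈ 𝓛S, V ∈ 𝓛
  hρ : Discrete 𝓛 ρ
  hω : Discrete 𝓛S ω
  hδ : Discrete 𝓛S δ
  hje : Equivar ω ρ j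
  hde : Equivar ω δ dv
  hj : Function.Injective j
  /-- elements of `E` fixed by a level of `𝓛S` are in `W`. -/
  hjr : ∀ e : E, (∃ V ∈ 𝓛S, ∀ s ∈ V, ρ s e = e) → ∃ w, j w = e
  /-- Hilbert 90 -/
  hv : ∀ V ∈ 𝓛S, H1Van 𝓛 ρ V
  /-- `E` is `p`-divisible -/
  hdivp : ∀ e : E, ∃ e', p • e' = e
  /-- Kummer criterion -/
  hK : ∀ (e : E) (w : W), p • e = j w → (∃ d : D, dv w = p • d) → ∃ w', j w' = e
  /-- classes of `p`-power order capitulate -/
  hF1 : ∀ d : D, ∃ a : ℤ, ∃ w : W, dv w = d + (p : ℤ) • a • d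
  /-- `H¹(D) = 0` -/
  hF2 : ∀ z : G → D, LC1 𝓛S z → (∀ g h, z (g * h) = δ g (z h) + z g) → ∃ d, ∀ g, z g = δ g d - d
  /-- `D` has no `p`-torsion -/
  htf : ∀ d : D, p • d = 0 → d = 0
  /-- `D^G → (D / p)^G` is onto -/
  hD6 : ∀ d : D, (∀ g, ∃ d', δ g d - d = p • d') →
    ∃ d₀, (∀ g, δ g d₀ = d₀) ∧ ∃ d', d = d₀ + p • d'

namespace Setup

variable {p : ℕ} {j : W →ₗ[ℤ] E} {dv : W →ₗ[ℤ] D} (H : Setup p 𝓛 𝓛S ρ ω δ j dv)
include H

/-- if `div w` is divisible by `p` then `w` is. -/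
lemma exists_smul_eq {w : W} (hw : ∃ d : D, dv w = p • d) : ∃ w', p • w' = w := by
  obtain ⟨e, he⟩ := H.hdivp (j w)
  obtain ⟨w', hw'⟩ := H.hK e w he hw
  refine ⟨w', H.hj ?_⟩
  rw [map_nsmul, hw', he]

/-- `H¹(𝓛, E) = 0` and `H¹(𝓛S, W) = 0` -/
lemma h1E {z : G → E} (hz : LC1 𝓛 z) (hzc : ∀ g h, z (g * h) = ρ g (z h) + z g) :
    ∃ e : E, ∀ g, z g = ρ g e - e := by
  obtain ⟨m, hm⟩ := H.hv ⊤ 𝓛S.top_mem (fun u => z u) (hz.restrict _) (fun u v => hzc _ _)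
  exact ⟨m, fun g => hm ⟨g, trivial⟩⟩

lemma h1W {z : G → W} (hz : LC1 𝓛S z) (hzc : ∀ g h, z (g * h) = ω g (z h) + z g) :
    ∃ w : W, ∀ g, z g = ω g w - w :=
  h1_W H.hj H.hje H.hle H.hjr H.hv hz hzc

variable {k : Type*} [CommRing k] {M : Type*} [AddCommGroup M] [Module k M]
  {τ : Representation k G M} (ι : M →+ W) (hι : Function.Injective ι)
  (hιp : ∀ m, p • ι m = 0) (hιr : ∀ w : W, p • w = 0 → ∃ m, ι m = w)
  (hτ : ∀ g m, ι (τ g m) = ω g (ι m))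

include hιr in
lemma exists_jι_eq {e : E} (he : p • e = 0) : ∃ m, j (ι m) = e := by
  obtain ⟨w, hw⟩ := H.hK e 0 (by rw [he, map_zero]) ⟨0, by simp⟩
  obtain ⟨m, hm⟩ := hιr w (H.hj (by rw [map_nsmul, hw, he, map_zero]))
  exact ⟨m, by rw [hm, hw]⟩

include hι hιp hιr hτ in
/-- `H²(𝓛, μ_p) → H²(𝓛, E)` is injective. -/
lemma coboundary_of_jι {c : G × G → M} {ν : G → E} (hν : LC1 𝓛 ν)
    (hcν : ∀ g h, j (ι (c (g, h))) = ρ g (ν h) - ν (g * h) + ν g) :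
    ∃ b : G → M, LC1 𝓛 b ∧ ∀ g h, c (g, h) = τ g (b h) - b (g * h) + b g := by
  obtain ⟨e, he⟩ := H.h1E (z := fun g => p • ν g) (hν.comp (fun x => p • x)) (fun g h => by
    have h1 := congrArg (fun x => p • x) (hcν g h)
    have h2 : p • j (ι (c (g, h))) = 0 := by rw [← map_nsmul, hιp, map_zero]
    simp only [h2, smul_add, smul_sub] at h1
    simp only [map_nsmul]
    rw [eq_comm, sub_add_eq_add_sub, sub_eq_zero] at h1
    exact h1.symm)
  obtain ⟨e', he'⟩ := H.hdivp e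
  have hex : ∀ g, ∃ m, j (ι m) = ν g - (ρ g e' - e') := by
    intro g
    apply H.exists_jι_eq ι hιr
    rw [smul_sub, smul_sub, ← map_nsmul, he']
    rw [he g, sub_self]
  choose b hb using hex
  have hjι : Function.Injective (fun m => j (ι m)) := H.hj.comp hι
  have hLC : LC1 𝓛 (fun g => ν g - (ρ g e' - e')) :=
    (hν.prodMk (LC1.d01 H.hρ e')).comp (fun t => t.1 - t.2)
  obtain ⟨V, hV, hV'⟩ := hLC
  refine ⟨b, ⟨V, hV, fun g s hs => hjι ?_⟩, fun g h => hjι ?_⟩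
  · simp only [hb]
    exact hV' g s hs
  · have h1 : j (ι (τ g (b h) - b (g * h) + b g)) = ρ g (j (ι (b h))) - j (ι (b (g * h))) +
        j (ι (b g)) := by
      simp only [map_add, map_sub, hτ, H.hje _ _]
    simp only [h1, hb, hcν, map_sub, map_mul, Module.End.mul_apply]
    abel

include hι hιp hιr hτ in
/-- the range of `pairsTo` is the kernel of inflation. -/
theorem range_pairsTo : (pairsTo (p := p) ι hι hιr hτ H.hω).range =
    (LinearMap.ker (infl2 H.hle τ)).toAddSubgroup := by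
  classical
  ext x
  constructor
  · rintro ⟨⟨⟨y, φ⟩, ht1, ht2⟩, rfl⟩
    change infl2 H.hle τ (H2mk 𝓛S τ _) = 0
    rw [infl2_mk_eq_zero]
    obtain ⟨z, hz⟩ := H.hdivp (j y)
    set t : ↥(pairs p 𝓛S ω) := ⟨(y, φ), ht1, ht2⟩ with htdef
    refine H.coboundary_of_jι ι hι hιp hιr hτ (ν := fun g => j (φ g) - (ρ g z - z)) ?_ ?_
    · exact (((LC1.of_le H.hle ht1).comp j).prodMk (LC1.d01 H.hρ z)).comp (fun t => t.1 - t.2)
    · intro g h
      have h1 := ι_cocy ι hιr t (g, h)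
      change ι (cocy ι hιr t (g, h)) = ω g (φ h) - φ (g * h) + φ g at h1
      rw [h1]
      simp only [map_add, map_sub, H.hje _ _, map_mul, Module.End.mul_apply]
      abel
  · intro hx
    obtain ⟨⟨c, hcZ⟩, rfl⟩ := H2mk_surjective x
    change infl2 H.hle τ (H2mk 𝓛S τ _) = 0 at hx
    rw [infl2_mk_eq_zero] at hx
    obtain ⟨b, hb, hcb⟩ := hx
    have hιcZ : (fun x => ι (c x)) ∈ Z2 𝓛S ω := by
      refine ⟨hcZ.1.comp ι, fun g h l => ?_⟩
      change ι _ + ι _ = ω g (ι _) + ι _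
      rw [← map_add, hcZ.2 g h l, map_add, hτ]
    obtain ⟨φ, hφ, hcφ⟩ := inflation_injective H.hω H.hje H.hj H.hjr H.hv hιcZ
      (φ := fun g => j (ι (b g))) (hb.comp (fun x => j (ι x))) (fun g h => by
        have h1 : c (g, h) = τ g (b h) - b (g * h) + b g := hcb g h
        change j (ι (c (g, h))) = _
        rw [h1]
        simp only [map_add, map_sub, hτ, H.hje _ _])
    have hcφ' : ∀ g h, ι (c (g, h)) = ω g (φ h) - φ (g * h) + φ g := hcφ
    obtain ⟨y, hy⟩ := H.h1W (z := fun g => p • φ g) (hφ.comp (fun x => p • x)) (fun g h => by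
      have h1 := congrArg (fun x => p • x) (hcφ' g h)
      simp only [hιp, smul_add, smul_sub] at h1
      simp only [map_nsmul]
      rw [eq_comm, sub_add_eq_add_sub, sub_eq_zero] at h1
      exact h1.symm)
    refine ⟨⟨(y, φ), hφ, hy⟩, ?_⟩
    change H2mk 𝓛S τ _ = _
    congr 1
    apply Subtype.ext
    funext x
    apply hι
    change ι (cocy ι hιr _ x) = ι (c x)
    rw [ι_cocy, hcφ' x.1 x.2]

/-- the subgroup `p D + div (W^G)`. -/
def relD (p : ℕ) (ω : Representation ℤ G W) (dv : W →ₗ[ℤ] D) : AddSubgroup D where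
  carrier := {x | ∃ w : W, (∀ g, ω g w = w) ∧ ∃ d : D, x = dv w + p • d}
  zero_mem' := ⟨0, fun g => map_zero _, 0, by simp⟩
  add_mem' := by
    rintro _ _ ⟨w, hw, d, rfl⟩ ⟨w', hw', d', rfl⟩
    exact ⟨w + w', fun g => by rw [map_add, hw, hw'], d + d', by rw [map_add, smul_add]; abel⟩
  neg_mem' := by
    rintro _ ⟨w, hw, d, rfl⟩
    exact ⟨-w, fun g => by rw [map_neg, hw], -d, by rw [map_neg, smul_neg]; abel⟩

/-- the subgroup `D^G`. -/
def invD (δ : Representation ℤ G D) : AddSubgroup D where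
  carrier := {x | ∀ g, δ g x = x}
  zero_mem' := fun g => map_zero _
  add_mem' := fun {x y} hx hy g => by rw [map_add, hx, hy]
  neg_mem' := fun {x} hx g => by rw [map_neg, hx]

omit H in
/-- the map from pairs to `D / (p D + div W^G)` -/
def pairsToD (𝓛S : LevelSys G) (p : ℕ) (ω : Representation ℤ G W) (dv : W →ₗ[ℤ] D) :
    ↥(pairs p 𝓛S ω) →+ D ⧸ relD p ω dv :=
  (QuotientAddGroup.mk' (relD p ω dv)).comp (dv.toAddMonoidHom.comp
    ((AddMonoidHom.fst W (G → W)).comp (AddSubgroup.subtype _)))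

lemma range_pairsToD : (pairsToD 𝓛S p ω dv).range =
    (invD δ).map (QuotientAddGroup.mk' (relD p ω dv)) := by
  classical
  ext x
  constructor
  · rintro ⟨⟨⟨y, φ⟩, ht1, ht2⟩, rfl⟩
    obtain ⟨d₀, hd₀, d', hd'⟩ := H.hD6 (dv y) (fun g => ⟨dv (φ g), by
      have h1 : p • φ g = ω g y - y := ht2 g
      rw [← H.hde, ← map_sub, ← h1, map_nsmul]⟩)
    refine ⟨d₀, hd₀, ?_⟩
    change QuotientAddGroup.mk' _ d₀ = QuotientAddGroup.mk' _ (dv y)
    rw [hd', QuotientAddGroup.mk'_eq_mk']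
    exact ⟨p • d', ⟨0, fun g => map_zero _, d', by simp⟩, rfl⟩
  · rintro ⟨d, hd, rfl⟩
    obtain ⟨a, y, hy⟩ := H.hF1 d
    let F : W → W := fun w => if h : ∃ z, p • z = w - y then h.choose else 0
    have hF : ∀ w : W, (∃ z, p • z = w - y) → p • F w = w - y := by
      intro w hw
      simp only [F, dif_pos hw]
      exact hw.choose_spec
    have hex : ∀ g, ∃ z, p • z = ω g y - y := by
      intro g
      apply H.exists_smul_eq
      refine ⟨0, ?_⟩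
      rw [map_sub, H.hde, hy, smul_zero]
      simp only [map_add, map_zsmul, hd g, sub_self]
    refine ⟨⟨(y, fun g => F (ω g y)), ?_, fun g => hF _ (hex g)⟩, ?_⟩
    · have h1 : LC1 𝓛S (fun g => ω g y) := by
        obtain ⟨U, hU, h⟩ := H.hω y
        refine ⟨U, hU, fun g s hs => ?_⟩
        change ω (g * s) y = ω g y
        rw [map_mul, Module.End.mul_apply, h s hs]
      exact h1.comp F
    · change QuotientAddGroup.mk' _ (dv y) = QuotientAddGroup.mk' _ d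
      rw [eq_comm, hy, QuotientAddGroup.mk'_eq_mk']
      exact ⟨p • a • d, ⟨0, fun g => map_zero _, a • d, by simp⟩, by rw [natCast_zsmul]⟩

include hι hιp hιr hτ in
lemma ker_pairsTo : (pairsTo (p := p) ι hι hιr hτ H.hω).ker = (pairsToD 𝓛S p ω dv).ker := by
  ext t
  rw [AddMonoidHom.mem_ker, AddMonoidHom.mem_ker, pairsTo_eq_zero_iff]
  obtain ⟨⟨y, φ⟩, ht1, ht2⟩ := t
  change (∃ b : G → M, LC1 𝓛S b ∧ ∀ g h, ω g (φ h) - φ (g * h) + φ g =
      ω g (ι (b h)) - ι (b (g * h)) + ι (b g)) ↔ QuotientAddGroup.mk' _ (dv y) = 0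
  rw [QuotientAddGroup.mk'_apply, QuotientAddGroup.eq_zero_iff]
  constructor
  · rintro ⟨b, hb, hbφ⟩
    obtain ⟨z, hz⟩ := H.h1W (z := fun g => φ g - ι (b g))
      ((ht1.prodMk (hb.comp ι)).comp (fun t => t.1 - t.2)) (fun g h => by
        have h1 := hbφ g h
        simp only [map_sub]
        rw [sub_add_eq_add_sub, sub_add_eq_add_sub, sub_eq_sub_iff_add_eq_add] at h1
        rw [sub_eq_iff_eq_add]
        have h2 : φ (g * h) = ω g (φ h) + φ g + ι (b (g * h)) - (ω g (ι (b h)) + ι (b g)) := by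
          rw [h1]; abel
        rw [h2]
        abel)
    refine ⟨y - p • z, fun g => ?_, dv z, by rw [map_sub, map_nsmul]; abel⟩
    have h1 : p • φ g = ω g y - y := ht2 g
    have h2 := congrArg (fun x => p • x) (hz g)
    simp only [smul_sub, hιp, sub_zero, h1] at h2
    rw [map_sub, map_nsmul, sub_eq_sub_iff_sub_eq_sub]
    exact h2
  · rintro ⟨w, hw, d, hd⟩
    obtain ⟨z, hz⟩ := H.exists_smul_eq (w := y - w) ⟨d, by rw [map_sub, hd]; abel⟩
    have hex : ∀ g, ∃ m, ι m = φ g - (ω g z - z) := by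
      intro g
      apply hιr
      have h1 : p • φ g = ω g y - y := ht2 g
      rw [smul_sub, smul_sub, ← map_nsmul, hz, h1, map_sub, hw]
      abel
    choose b hb using hex
    have hLC : LC1 𝓛S (fun g => φ g - (ω g z - z)) :=
      (LC1.prodMk ht1 (LC1.d01 H.hω z)).comp (fun t => t.1 - t.2)
    obtain ⟨V, hV, hV'⟩ := hLC
    refine ⟨b, ⟨V, hV, fun g s hs => hι ?_⟩, fun g h => ?_⟩
    · rw [hb, hb]
      exact hV' g s hs
    · rw [hb, hb, hb]
      simp only [map_sub, map_mul, Module.End.mul_apply]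
      abel

include hι hιp hιr hτ in
/-- **Counting the kernel of inflation.** -/
theorem card_ker_infl : Nat.card ↥(LinearMap.ker (infl2 H.hle τ)) =
    (relD p ω dv).relIndex (invD δ) := by
  have h1 : Nat.card ↥(LinearMap.ker (infl2 H.hle τ)) =
      Nat.card ↥((pairsTo (p := p) ι hι hιr hτ H.hω).range) := by
    rw [H.range_pairsTo ι hι hιp hιr hτ]
    rfl
  rw [h1, ← AddSubgroup.index_ker, H.ker_pairsTo ι hι hιp hιr hτ, AddSubgroup.index_ker,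
    H.range_pairsToD, ← AddSubgroup.relIndex_ker, QuotientAddGroup.ker_mk']

end Setup

end Count

end Fermat.Agent.CFT.SKummer.Formal
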