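import Fermat.Agent.CFT.SKummer.Ord
import Fermat.Agent.CFT.SUnits

/-!
# Places of `ℚ̄` above a prime versus height one primes of a finite subfield
-/

set_option autoImplicit false

noncomputable section

namespace Fermat.Agent.CFT.SKummer

open scoped Pointwise NumberField
open Fermat.Agent.Frob Fermat.Agent.Minkowski IsDedekindDomain

section below

variable (K : IntermediateField ℚ Qbar) [NumberField K]

set_option linter.unusedSectionVars false

/-- the prime of `K` below the place `A`. -/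
def belowOf {A : ValuationSubring Qbar} {q : ℕ} (hq : q.Prime) (hA : A.LiesOverPrime q) :
    HeightOneSpectrum (𝓞 K) where
  asIdeal := (centre A).comap (incl K)
  isPrime := Ideal.comap_isPrime _ _
  ne_bot := by
    intro h
    have h1 : ((q : ℕ) : 𝓞 K) ∈ (centre A).comap (incl K) := by
      rw [Ideal.mem_comap, map_natCast]
      exact natCast_mem_centre hA
    rw [h, Ideal.mem_bot] at h1
    exact hq.ne_zero (by exact_mod_cast h1)

variable {K}

lemma mem_belowOf_iff {A : ValuationSubring Qbar} {q : ℕ} (hq : q.Prime)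
    (hA : A.LiesOverPrime q) (x : 𝓞 K) :
    x ∈ (belowOf K hq hA).asIdeal ↔ ((x : K) : Qbar) ∈ A.nonunits := by
  change incl K x ∈ centre A ↔ _
  rw [mem_centre_iff]
  rfl

lemma natCast_mem_belowOf {A : ValuationSubring Qbar} {q : ℕ} (hq : q.Prime)
    (hA : A.LiesOverPrime q) : ((q : ℕ) : 𝓞 K) ∈ (belowOf K hq hA).asIdeal := by
  rw [mem_belowOf_iff]
  have : (((q : 𝓞 K) : K) : Qbar) = (q : Qbar) := by simp
  rw [this]
  exact hA

lemma valuation_coe_eq_one_of_notMem {A : ValuationSubring Qbar} {q : ℕ} (hq : q.Prime)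
    (hA : A.LiesOverPrime q) {x : 𝓞 K} (hx : x ∉ (belowOf K hq hA).asIdeal) :
    A.valuation ((x : K) : Qbar) = 1 := by
  rw [mem_belowOf_iff, ValuationSubring.mem_nonunits_iff, not_lt] at hx
  exact le_antisymm ((A.valuation_le_one_iff _).mpr (mem_of_mem_Zbar A (incl K x))) hx

lemma mem_of_valuation_belowOf_le_one {A : ValuationSubring Qbar} {q : ℕ} (hq : q.Prime)
    (hA : A.LiesOverPrime q) {x : K} (hx : (belowOf K hq hA).valuation K x ≤ 1) :
    (x : Qbar) ∈ A := by
  obtain ⟨n, ⟨d, hd⟩, h⟩ := (belowOf K hq hA).exists_primeCompl_mul_eq_of_integer x hx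
  have h1 : (x : Qbar) * ((d : K) : Qbar) = ((n : K) : Qbar) :=
    congrArg (fun y : K => (y : Qbar)) h
  have hd1 : A.valuation ((d : K) : Qbar) = 1 := valuation_coe_eq_one_of_notMem hq hA hd
  rw [← ValuationSubring.valuation_le_one_iff]
  have h2 := congrArg A.valuation h1
  rw [map_mul, hd1, mul_one] at h2
  rw [h2]
  exact (A.valuation_le_one_iff _).mpr (mem_of_mem_Zbar A (incl K n))

lemma mem_nonunits_of_valuation_belowOf_lt_one {A : ValuationSubring Qbar} {q : ℕ} (hq : q.Prime)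
    (hA : A.LiesOverPrime q) {x : K} (hx : (belowOf K hq hA).valuation K x < 1) :
    (x : Qbar) ∈ A.nonunits := by
  obtain ⟨n, ⟨d, hd⟩, h⟩ := (belowOf K hq hA).exists_primeCompl_mul_eq_of_integer x hx.le
  have h1 : (x : Qbar) * ((d : K) : Qbar) = ((n : K) : Qbar) :=
    congrArg (fun y : K => (y : Qbar)) h
  have hd1 : A.valuation ((d : K) : Qbar) = 1 := valuation_coe_eq_one_of_notMem hq hA hd
  have hn : n ∈ (belowOf K hq hA).asIdeal := by
    have h3 := congrArg ((belowOf K hq hA).valuation K) h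
    have h4 : (belowOf K hq hA).valuation K (algebraMap (𝓞 K) K d) = 1 := by
      rw [HeightOneSpectrum.valuation_of_algebraMap,
        HeightOneSpectrum.intValuation_eq_one_iff_mem_primeCompl]
      exact hd
    rw [map_mul] at h3
    change _ * (belowOf K hq hA).valuation K (algebraMap (𝓞 K) K d) = _ at h3
    rw [h4, mul_one] at h3
    rw [h3, HeightOneSpectrum.valuation_lt_one_iff_mem] at hx
    exact hx
  rw [mem_belowOf_iff] at hn
  rw [ValuationSubring.mem_nonunits_iff] at hn ⊢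
  have h2 := congrArg A.valuation h1
  rw [map_mul, hd1, mul_one] at h2
  rw [h2]
  exact hn

/-- comparison of integrality. -/
lemma valuation_belowOf_le_one_iff {A : ValuationSubring Qbar} {q : ℕ} (hq : q.Prime)
    (hA : A.LiesOverPrime q) (x : K) :
    (belowOf K hq hA).valuation K x ≤ 1 ↔ (x : Qbar) ∈ A := by
  constructor
  · exact mem_of_valuation_belowOf_le_one hq hA
  · intro h
    by_contra hlt
    rw [not_le] at hlt
    have h1 : (belowOf K hq hA).valuation K x⁻¹ < 1 := by
      rw [map_inv₀]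
      exact inv_lt_one_of_one_lt₀ hlt
    have h2 := mem_nonunits_of_valuation_belowOf_lt_one hq hA h1
    rw [ValuationSubring.mem_nonunits_iff] at h2
    have h3 : A.valuation (x : Qbar) ≤ 1 := (A.valuation_le_one_iff _).mpr h
    have hx0 : (x : Qbar) ≠ 0 := by
      intro h0
      have : x = 0 := by exact_mod_cast h0
      rw [this, map_zero] at hlt
      exact absurd hlt (not_lt.mpr zero_le_one)
    have h4 : ((x⁻¹ : K) : Qbar) = (x : Qbar)⁻¹ := rfl
    rw [h4, map_inv₀] at h2
    have h5 : (1 : A.ValueGroup) ≤ (A.valuation (x : Qbar))⁻¹ :=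
      (one_le_inv₀ (zero_lt_iff.mpr (by rwa [Ne, Valuation.zero_iff]))).mpr h3
    exact absurd h2 (not_lt.mpr h5)

lemma valuation_belowOf_lt_one_iff {A : ValuationSubring Qbar} {q : ℕ} (hq : q.Prime)
    (hA : A.LiesOverPrime q) (x : K) :
    (belowOf K hq hA).valuation K x < 1 ↔ (x : Qbar) ∈ A.nonunits := by
  constructor
  · exact mem_nonunits_of_valuation_belowOf_lt_one hq hA
  · intro h
    by_contra hlt
    rw [not_lt] at hlt
    rcases eq_or_ne x 0 with rfl | hx
    · rw [map_zero] at hlt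
      exact absurd hlt (not_le.mpr zero_lt_one)
    have h1 : (belowOf K hq hA).valuation K x⁻¹ ≤ 1 := by
      rw [map_inv₀]
      exact inv_le_one_of_one_le₀ hlt
    have h2 := mem_of_valuation_belowOf_le_one hq hA h1
    have hx0 : (x : Qbar) ≠ 0 := by
      intro h0
      exact hx (by exact_mod_cast h0)
    rw [ValuationSubring.mem_nonunits_iff] at h
    rw [← ValuationSubring.valuation_le_one_iff] at h2
    have h4 : ((x⁻¹ : K) : Qbar) = (x : Qbar)⁻¹ := rfl
    rw [h4, map_inv₀] at h2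
    have h5 : (1 : A.ValueGroup) < (A.valuation (x : Qbar))⁻¹ :=
      (one_lt_inv₀ (zero_lt_iff.mpr (by rwa [Ne, Valuation.zero_iff]))).mpr h
    exact absurd h2 (not_le.mpr h5)

lemma valuation_belowOf_eq_one_iff {A : ValuationSubring Qbar} {q : ℕ} (hq : q.Prime)
    (hA : A.LiesOverPrime q) (x : K) :
    (belowOf K hq hA).valuation K x = 1 ↔ A.valuation (x : Qbar) = 1 := by
  rw [eq_comm, eq_iff_le_not_lt, not_lt, eq_comm, eq_iff_le_not_lt, not_lt,
    and_comm, valuation_belowOf_le_one_iff, and_comm (a := 1 ≤ _),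
    ValuationSubring.valuation_le_one_iff, ← not_lt, valuation_belowOf_lt_one_iff,
    ValuationSubring.mem_nonunits_iff, not_lt]

/-- every prime of `K` above `q` comes from a place. -/
lemma exists_belowOf_eq (v : HeightOneSpectrum (𝓞 K)) {q : ℕ} (hq : q.Prime)
    (hqv : ((q : ℕ) : 𝓞 K) ∈ v.asIdeal) :
    ∃ (A : ValuationSubring Qbar) (hA : A.LiesOverPrime q), belowOf K hq hA = v := by
  let f : 𝓞 K →+* Qbar := (algebraMap K Qbar).comp (algebraMap (𝓞 K) K)
  have hf : ∀ x, f x = ((x : K) : Qbar) := fun x => rfl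
  have hfinj : Function.Injective f :=
    (algebraMap K Qbar).injective.comp (IsFractionRing.injective (𝓞 K) K)
  have hI : v.asIdeal.map f.rangeRestrict ≠ ⊤ := by
    intro h
    have h1 := Ideal.comap_map_of_surjective f.rangeRestrict f.rangeRestrict_surjective v.asIdeal
    rw [h, Ideal.comap_top, eq_comm, sup_eq_left.mpr] at h1
    · exact v.isPrime.ne_top h1
    · intro x hx
      rw [Ideal.mem_comap, Ideal.mem_bot] at hx
      have h2 : f x = 0 := congrArg Subtype.val hx
      have h3 : x = 0 := hfinj (by rw [h2, map_zero])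
      rw [h3]
      exact v.asIdeal.zero_mem
  obtain ⟨B, hB, hB2⟩ := Ideal.image_subset_nonunits_valuationSubring
    (A := f.range) (v.asIdeal.map f.rangeRestrict) hI
  have h3 : ∀ x ∈ v.asIdeal, f x ∈ B.nonunits := by
    intro x hx
    apply hB2
    exact ⟨f.rangeRestrict x, Ideal.mem_map_of_mem _ hx, rfl⟩
  have hBq : B.LiesOverPrime q := by
    have := h3 _ hqv
    rwa [map_natCast] at this
  refine ⟨B, hBq, ?_⟩
  apply HeightOneSpectrum.ext
  symm
  refine v.isMaximal.eq_of_le (belowOf K hq hBq).isPrime.ne_top ?_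
  intro x hx
  rw [mem_belowOf_iff]
  exact h3 x hx

/-- discrete topology on the algebraic integers (local use only) -/
local instance topZbar3 : TopologicalSpace Zbar := ⊥
local instance discZbar3 : DiscreteTopology Zbar := ⟨rfl⟩

local instance contSMulZbar3 : ContinuousSMul GQ Zbar := by
  rw [continuousSMul_iff_stabilizer_isOpen]
  intro x
  have h := stabilizer_isOpen_of_isIntegral (K := ℚ) (L := AlgebraicClosure ℚ)
    (x : AlgebraicClosure ℚ)
  convert h using 1
  ext g
  constructor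
  · intro hg
    exact congrArg (fun x : Zbar => (x : AlgebraicClosure ℚ)) hg
  · intro hg
    exact Subtype.ext hg

/-- Two places with the same prime of `K` below are conjugate under the Galois group of `K`. -/
lemma exists_smul_of_belowOf_eq {A A' : ValuationSubring Qbar} {q q' : ℕ}
    (hq : q.Prime) (hA : A.LiesOverPrime q) (hq' : q'.Prime) (hA' : A'.LiesOverPrime q')
    (h : belowOf K hq hA = belowOf K hq' hA') : ∃ g ∈ K.fixingSubgroup, g • A = A' := by
  have hqA' : A'.LiesOverPrime q := by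
    have h1 : ((q : ℕ) : 𝓞 K) ∈ (belowOf K hq' hA').asIdeal := by
      rw [← h]
      exact natCast_mem_belowOf hq hA
    rw [mem_belowOf_iff] at h1
    have : (((q : 𝓞 K) : K) : Qbar) = (q : Qbar) := by simp
    rw [this] at h1
    exact h1
  let H : Subgroup GQ := K.fixingSubgroup
  have hfd : FiniteDimensional ℚ K := inferInstance
  have hHo : IsOpen (H : Set GQ) := IntermediateField.fixingSubgroup_isOpen K
  have hHc : IsClosed (H : Set GQ) := H.isClosed_of_isOpen hHo
  have : CompactSpace H := isCompact_iff_compactSpace.mp hHc.isCompact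
  let algR : Algebra (𝓞 K) Zbar := (incl K).toAlgebra
  have hsm : ∀ (r : 𝓞 K) (x : Zbar), r • x = incl K r * x := fun r x => rfl
  have hcomm : SMulCommClass H (𝓞 K) Zbar := by
    constructor
    rintro ⟨h, hh⟩ r x
    apply Subtype.ext
    change h (((r : K) : AlgebraicClosure ℚ) * (x : AlgebraicClosure ℚ)) =
      ((r : K) : AlgebraicClosure ℚ) * h (x : AlgebraicClosure ℚ)
    have h1 : h ((r : K) : AlgebraicClosure ℚ) = ((r : K) : AlgebraicClosure ℚ) := hh (r : K)
    rw [map_mul, h1]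
  have hcont : ContinuousSMul H Zbar := inferInstance
  have hinv : Algebra.IsInvariant (𝓞 K) Zbar H := by
    constructor
    intro b hb
    have h1 : (b : AlgebraicClosure ℚ) ∈ K := by
      rw [← InfiniteGalois.fixedField_fixingSubgroup K, IntermediateField.mem_fixedField_iff]
      intro g hg
      exact congrArg (fun x : Zbar => (x : AlgebraicClosure ℚ)) (hb ⟨g, hg⟩)
    have h2 : IsIntegral ℤ (⟨(b : AlgebraicClosure ℚ), h1⟩ : K) := by
      have : IsIntegral ℤ (b : AlgebraicClosure ℚ) := b.2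
      rw [← isIntegral_algebraMap_iff (A := K) (B := AlgebraicClosure ℚ)
        (FaithfulSMul.algebraMap_injective _ _)]
      exact this
    exact ⟨⟨⟨(b : AlgebraicClosure ℚ), h1⟩, h2⟩, rfl⟩
  have hPQ : (centre A).under (𝓞 K) = (centre A').under (𝓞 K) := congrArg HeightOneSpectrum.asIdeal h
  obtain ⟨⟨g, hg⟩, hg2⟩ := Algebra.IsInvariant.exists_smul_of_under_eq_of_profinite (A := 𝓞 K)
    (B := Zbar) (G := H) (centre A) (centre A') hPQ
  exact ⟨g, hg, smul_eq_of_smul_centre_eq hq hA hqA' hg2⟩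

end below

section ordComparison

set_option linter.unusedSectionVars false

variable {S : Finset Nat.Primes} {K : IntermediateField ℚ Qbar} [NumberField K]

lemma ord_nonneg_iff (P : Place S) {x : Qbar} (hx : x ∈ Omega S) (hx0 : x ≠ 0) :
    0 ≤ ord P x ↔ x ∈ P.A := by
  rw [← ValuationSubring.valuation_le_one_iff, ord_spec P hx hx0,
    zpow_le_one_iff_right_of_lt_one₀ (zero_lt_iff.mpr P.valuation_q_ne_zero) P.valuation_q_lt_one]

variable (K) in
/-- the prime of `K` below a place outside `S`. -/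
def Place.below (P : Place S) : HeightOneSpectrum (𝓞 K) := belowOf K P.q.2 P.hA

lemma natCast_mem_below (P : Place S) : ((P.q : ℕ) : 𝓞 K) ∈ (P.below K).asIdeal :=
  natCast_mem_belowOf P.q.2 P.hA

lemma sunits_ord_nonneg_iff (hK : K ≤ Omega S) (P : Place S) (x : Kˣ) :
    0 ≤ SUnits.ord (P.below K) x ↔ 0 ≤ ord P ((x : K) : Qbar) := by
  rw [SUnits.ord_nonneg_iff, ord_nonneg_iff P (hK (x : K).2)
    (by exact_mod_cast x.ne_zero), Place.below, valuation_belowOf_le_one_iff]

/-- the normalised valuations agree. -/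
theorem ord_below (hK : K ≤ Omega S) (P : Place S) (x : Kˣ) :
    SUnits.ord (P.below K) x = ord P ((x : K) : Qbar) := by
  have hne : ∀ y : Kˣ, ((y : K) : Qbar) ≠ 0 := fun y => by exact_mod_cast y.ne_zero
  have hmem : ∀ y : Kˣ, ((y : K) : Qbar) ∈ Omega S := fun y => hK (y : K).2
  have h0 : ∀ y : Kˣ, ord P ((y : K) : Qbar) = 0 → SUnits.ord (P.below K) y = 0 := by
    intro y hy
    have h1 := (sunits_ord_nonneg_iff hK P y).mpr hy.ge
    have h2 := (sunits_ord_nonneg_iff hK P y⁻¹).mpr (by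
      have : (((y⁻¹ : Kˣ) : K) : Qbar) = ((y : K) : Qbar)⁻¹ := by
        rw [Units.val_inv_eq_inv_val]; rfl
      rw [this, ord_inv P (hmem y) (hne y), hy, neg_zero])
    rw [SUnits.ord_inv] at h2
    omega
  have hq0 : (((P.q : ℕ) : K)) ≠ 0 := by exact_mod_cast P.q.2.ne_zero
  let π : Kˣ := Units.mk0 ((P.q : ℕ) : K) hq0
  have hπ : ord P ((π : K) : Qbar) = 1 := by
    have : ((π : K) : Qbar) = ((P.q : ℕ) : Qbar) := by simp [π]
    rw [this, ord_q]
  have hπz : ∀ n : ℤ, (((π ^ n : Kˣ) : K) : Qbar) = ((π : K) : Qbar) ^ n := by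
    intro n
    rw [Units.val_zpow_eq_zpow_val]
    exact map_zpow₀ (algebraMap K Qbar) _ _
  have hlin : ∀ y : Kˣ, SUnits.ord (P.below K) y =
      ord P ((y : K) : Qbar) * SUnits.ord (P.below K) π := by
    intro y
    set n := ord P ((y : K) : Qbar) with hn
    have h1 : ord P (((y * (π ^ n)⁻¹ : Kˣ) : K) : Qbar) = 0 := by
      have : (((y * (π ^ n)⁻¹ : Kˣ) : K) : Qbar) = ((y : K) : Qbar) / ((π : K) : Qbar) ^ n := by
        rw [← hπz, div_eq_mul_inv]
        simp
      rw [this, ord_div P (hmem y) (hne y) (zpow_mem (hmem π) n)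
        (zpow_ne_zero _ (hne π)), ord_zpow P (hmem π) (hne π), hπ, ← hn]
      ring
    have h2 := h0 _ h1
    have h3 : SUnits.ord (P.below K) (π ^ n) = n * SUnits.ord (P.below K) π := by
      simp only [SUnits.ord, map_zpow, toAdd_zpow]
      simp
    rw [SUnits.ord_mul, SUnits.ord_inv, h3] at h2
    linarith
  obtain ⟨ϖ, hϖ⟩ := (P.below K).valuation_exists_uniformizer K
  have hϖ0 : ϖ ≠ 0 := by
    rintro rfl
    rw [map_zero] at hϖ
    exact WithZero.exp_ne_zero hϖ.symm
  have h1 : SUnits.ord (P.below K) (Units.mk0 ϖ hϖ0) = 1 := by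
    have h2 := SUnits.valuation_eq_exp_neg_ord K (P.below K) (Units.mk0 ϖ hϖ0)
    rw [Units.val_mk0, hϖ, WithZero.exp_inj] at h2
    omega
  have h2 := hlin (Units.mk0 ϖ hϖ0)
  rw [h1] at h2
  have h3 : 0 ≤ SUnits.ord (P.below K) π := by
    rw [sunits_ord_nonneg_iff hK, hπ]
    exact zero_le_one
  have h4 : SUnits.ord (P.below K) π = 1 := by
    have := Int.isUnit_iff.mp (IsUnit.of_mul_eq_one_right _ h2.symm)
    omega
  rw [hlin x, h4, mul_one]

/-- the places of `K` above `S`. -/
def SK (S : Finset Nat.Primes) (K : IntermediateField ℚ Qbar) [NumberField K] :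
    Set (HeightOneSpectrum (𝓞 K)) :=
  {v | ∃ q ∈ S, ((q : ℕ) : 𝓞 K) ∈ v.asIdeal}

lemma prime_unique_of_mem {v : HeightOneSpectrum (𝓞 K)} {q q' : Nat.Primes}
    (h : ((q : ℕ) : 𝓞 K) ∈ v.asIdeal) (h' : ((q' : ℕ) : 𝓞 K) ∈ v.asIdeal) : q = q' := by
  by_contra hne
  have hne' : (q : ℕ) ≠ q' := fun h => hne (Subtype.ext h)
  have hcop : Nat.Coprime (q : ℕ) (q' : ℕ) := (Nat.coprime_primes q.2 q'.2).mpr hne'
  have h1 := Nat.isCoprime_iff_coprime.mpr hcop
  obtain ⟨a, b, hab⟩ := h1
  apply v.isPrime.ne_top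
  rw [Ideal.eq_top_iff_one]
  have h2 : (1 : 𝓞 K) = (a : 𝓞 K) * ((q : ℕ) : 𝓞 K) + (b : 𝓞 K) * ((q' : ℕ) : 𝓞 K) := by
    exact_mod_cast congrArg (fun z : ℤ => (z : 𝓞 K)) hab.symm
  rw [h2]
  exact v.asIdeal.add_mem (v.asIdeal.mul_mem_left _ h) (v.asIdeal.mul_mem_left _ h')

lemma exists_prime_mem (v : HeightOneSpectrum (𝓞 K)) : ∃ q : Nat.Primes,
    ((q : ℕ) : 𝓞 K) ∈ v.asIdeal := by
  have h0 : Ideal.absNorm v.asIdeal ≠ 0 := by
    rw [Ne, Ideal.absNorm_eq_zero_iff]
    exact v.ne_bot
  have h1 : ((Ideal.absNorm v.asIdeal : ℕ) : 𝓞 K) ∈ v.asIdeal := Ideal.absNorm_mem _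
  have key : ∀ n : ℕ, n ≠ 0 → ((n : ℕ) : 𝓞 K) ∈ v.asIdeal → ∃ q : Nat.Primes,
      ((q : ℕ) : 𝓞 K) ∈ v.asIdeal := by
    intro n
    induction n using Nat.recOnMul with
    | zero => intro h; exact absurd rfl h
    | one =>
      intro _ h
      exfalso
      apply v.isPrime.ne_top
      rw [Ideal.eq_top_iff_one]
      simpa using h
    | prime p hp => intro _ h; exact ⟨⟨p, hp⟩, h⟩
    | mul a b iha ihb =>
      intro hab h
      rw [Nat.cast_mul] at h
      rcases v.isPrime.mem_or_mem h with h | h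
      · exact iha (left_ne_zero_of_mul hab) h
      · exact ihb (right_ne_zero_of_mul hab) h
  exact key _ h0 h1

lemma below_notMem_SK (P : Place S) : P.below K ∉ SK S K := by
  rintro ⟨q, hq, hqv⟩
  have := prime_unique_of_mem hqv (natCast_mem_below P)
  rw [this] at hq
  exact P.hq hq

lemma exists_below_eq {v : HeightOneSpectrum (𝓞 K)} (hv : v ∉ SK S K) :
    ∃ P : Place S, P.below K = v := by
  obtain ⟨q, hq⟩ := exists_prime_mem v
  have hqS : q ∉ S := fun h => hv ⟨q, h, hq⟩
  obtain ⟨A, hA, h⟩ := exists_belowOf_eq v q.2 hq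
  exact ⟨⟨A, q, hqS, hA⟩, h⟩

lemma exists_smul_of_below_eq {P P' : Place S} (h : P.below K = P'.below K) :
    ∃ g ∈ K.fixingSubgroup, g • P = P' := by
  obtain ⟨g, hg, hg2⟩ := exists_smul_of_belowOf_eq P.q.2 P.hA P'.q.2 P'.hA h
  exact ⟨g, hg, Place.ext' hg2⟩

lemma below_smul {g : GQ} (hg : g ∈ K.fixingSubgroup) (P : Place S) :
    (g • P).below K = P.below K := by
  apply HeightOneSpectrum.ext
  ext x
  have h1 : ((x : K) : Qbar) ∈ (g • P.A).nonunits ↔ ((x : K) : Qbar) ∈ P.A.nonunits := by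
    have h2 : g ((x : K) : Qbar) = ((x : K) : Qbar) := hg (x : K)
    conv_lhs => rw [← h2]
    exact Fermat.Agent.FrobDensity.mem_nonunits_smul_iff
  change x ∈ (belowOf K P.q.2 _).asIdeal ↔ x ∈ (belowOf K P.q.2 P.hA).asIdeal
  rw [mem_belowOf_iff, mem_belowOf_iff]
  exact h1

lemma below_eq_iff {P P' : Place S} : P.below K = P'.below K ↔
    ∃ g ∈ K.fixingSubgroup, g • P = P' := by
  constructor
  · exact exists_smul_of_below_eq
  · rintro ⟨g, hg, rfl⟩
    exact (below_smul hg P).symm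

end ordComparison

end Fermat.Agent.CFT.SKummer
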