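import Fermat.Agent.CFT.SKummer.Capit

/-!
# The `S`-Kummer setup for a number field `K ≤ Omega S`
-/

set_option autoImplicit false

noncomputable section

namespace Fermat.Agent.CFT.SKummer

open scoped Pointwise NumberField
open Fermat.Agent.Frob Fermat.Agent.Minkowski IsDedekindDomain
open Fermat.Agent.PT Fermat.Agent.CFT.Kum Fermat.Agent.CFT.Bridge

variable {S : Finset Nat.Primes}

section orbit

variable (U : Subgroup GQ)

/-- a representative of the `U`-orbit of a place -/
def orep (P : Place S) : Place S := (Quotient.mk (MulAction.orbitRel U (Place S)) P).out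

lemma orep_spec (P : Place S) : ∃ u : U, (u : GQ) • orep U P = P := by
  have h : (MulAction.orbitRel U (Place S)).r P (orep U P) :=
    Quotient.exact (Quotient.out_eq (Quotient.mk (MulAction.orbitRel U (Place S)) P)).symm
  obtain ⟨u, hu⟩ := h
  exact ⟨u, hu⟩

/-- an element of `U` moving the representative to `P`. -/
def oelt (P : Place S) : U := (orep_spec U P).choose

lemma oelt_smul (P : Place S) : (oelt U P : GQ) • orep U P = P := (orep_spec U P).choose_spec

lemma orep_smul (u : U) (P : Place S) : orep U ((u : GQ) • P) = orep U P := by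
  have h : Quotient.mk (MulAction.orbitRel U (Place S)) ((u : GQ) • P) =
      Quotient.mk (MulAction.orbitRel U (Place S)) P := Quotient.sound ⟨u, rfl⟩
  rw [orep, h, orep]

lemma orep_q (P : Place S) : (orep U P).q = P.q := by
  conv_rhs => rw [← oelt_smul U P]
  rfl

end orbit

variable (U : Subgroup GQ)

/-- the restricted representation on divisors. -/
abbrev dvU (S : Finset Nat.Primes) (U : Subgroup GQ) : Representation ℤ U (Dv S) :=
  (dvRep S).comp U.subtype

/-- the restricted representation on units. -/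
abbrev omU (S : Finset Nat.Primes) (U : Subgroup GQ) : Representation ℤ U (unitsOm S) :=
  (omRep S).comp U.subtype

lemma dvU_apply (g : U) (D : Dv S) (P : Place S) :
    (dvU S U g D : Dv S).1 P = D.1 ((g : GQ)⁻¹ • P) := rfl

/-- `H¹(U, Div) = 0`. -/
theorem h1_dv (hU : U ∈ sLevels S) (z : U → Dv S) (hz : LC1 ((sLevels S).restrict U) z)
    (hzc : ∀ g h, z (g * h) = dvU S U g (z h) + z g) : ∃ d, ∀ g, z g = dvU S U g d - d := by
  classical
  have hz1 : z 1 = 0 := by
    have := hzc 1 1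
    simpa using this
  have hfin := hz.finite_range
  obtain ⟨W, ⟨V, hV, hVW⟩, hW⟩ := hz
  have hzW : ∀ s ∈ W, z s = 0 := by
    intro s hs
    have := hW 1 s hs
    rwa [one_mul, hz1] at this
  have hWfin : W.FiniteIndex := LevelSys.finiteIndex (𝓛 := (sLevels S).restrict U) ⟨V, hV, hVW⟩
  -- vanishing on stabilisers
  have hstab : ∀ (P : Place S) (h : U), (h : GQ) • P = P → (z h).1 P = 0 := by
    intro P h hP
    have hpow : ∀ n : ℕ, (z (h ^ n)).1 P = n * (z h).1 P := by
      intro n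
      induction n with
      | zero => rw [pow_zero, hz1]; simp
      | succ n ih =>
        rw [pow_succ, hzc]
        change (z h).1 (((h ^ n : U) : GQ)⁻¹ • P) + (z (h ^ n)).1 P = _
        have h1 : (((h ^ n : U) : GQ))⁻¹ • P = P := by
          rw [inv_smul_eq_iff]
          have : ∀ m : ℕ, P = ((h ^ m : U) : GQ) • P := by
            intro m
            induction m with
            | zero => simp
            | succ m ihm => rw [pow_succ, Subgroup.coe_mul, mul_smul, hP, ← ihm]
          exact this n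
        rw [h1, ih]
        push_cast
        ring
    obtain ⟨n, hn, _, hn2⟩ := Subgroup.exists_pow_mem_of_index_ne_zero hWfin.index_ne_zero h
    have h2 := hpow n
    rw [hzW _ hn2] at h2
    have h3 : (n : ℤ) * (z h).1 P = 0 := h2.symm
    rcases mul_eq_zero.mp h3 with h4 | h4
    · exact absurd (by exact_mod_cast h4) (Nat.pos_iff_ne_zero.mp hn)
    · exact h4
  -- the divisor
  let 𝔞 : Place S → ℤ := fun P => - (z (oelt U P)).1 P
  have h𝔞 : ∀ (g : U) (P : Place S), 𝔞 ((g : GQ) • orep U P) = - (z g).1 ((g : GQ) • orep U P) := by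
    intro g P
    have e1 : orep U ((g : GQ) • orep U P) = orep U P := by
      rw [orep_smul]
      have : orep U P = ((oelt U P)⁻¹ : U) • P := by
        rw [Subgroup.smul_def, Subgroup.coe_inv, eq_inv_smul_iff]
        exact oelt_smul U P
      rw [this]
      exact (orep_smul U (oelt U P)⁻¹ P).trans this
    set h := g⁻¹ * oelt U ((g : GQ) • orep U P) with hh
    have h2 : (h : GQ) • orep U P = orep U P := by
      have h3 := oelt_smul U ((g : GQ) • orep U P)
      rw [e1] at h3
      rw [hh, Subgroup.coe_mul, mul_smul, h3, Subgroup.coe_inv, inv_smul_smul]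
    have h4 : oelt U ((g : GQ) • orep U P) = g * h := by rw [hh, mul_inv_cancel_left]
    simp only [𝔞]
    rw [h4, hzc]
    change - ((z h).1 ((g : GQ)⁻¹ • ((g : GQ) • orep U P)) + (z g).1 ((g : GQ) • orep U P)) = _
    rw [inv_smul_smul, hstab _ h h2, zero_add]
  have h𝔞' : ∀ (g : U) (P : Place S), (z g).1 P = 𝔞 ((g : GQ)⁻¹ • P) - 𝔞 P := by
    intro g P
    have h1 : (g : GQ)⁻¹ • P = ((g⁻¹ * oelt U P : U) : GQ) • orep U P := by
      rw [Subgroup.coe_mul, mul_smul, oelt_smul, Subgroup.coe_inv]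
    have h2 : 𝔞 P = - (z (oelt U P)).1 P := rfl
    rw [h2, h1, h𝔞, ← h1, hzc]
    change _ = -((z (oelt U P)).1 (((g⁻¹ : U) : GQ)⁻¹ • ((g : GQ)⁻¹ • P)) +
      (z g⁻¹).1 ((g : GQ)⁻¹ • P)) - _
    have h3 : (((g⁻¹ : U) : GQ)⁻¹ • ((g : GQ)⁻¹ • P)) = P := by
      rw [Subgroup.coe_inv, inv_inv, smul_inv_smul]
    rw [h3]
    have h4 := congrArg (fun d : Dv S => d.1 P) (hzc g g⁻¹)
    rw [mul_inv_cancel, hz1] at h4
    have h5 : (0 : ℤ) = (z g⁻¹).1 ((g : GQ)⁻¹ • P) + (z g).1 P := h4
    omega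
  have hmem : 𝔞 ∈ Dv S := by
    constructor
    · -- support
      have hb : ∀ s : Set (Dv S), s.Finite → ∃ n : ℕ, n ≠ 0 ∧ ∀ d ∈ s, ∀ P, d.1 P ≠ 0 →
          (P.q : ℕ) ∣ n := by
        intro s hs
        induction s, hs using Set.Finite.induction_on with
        | empty => exact ⟨1, one_ne_zero, fun d hd => absurd hd (Set.notMem_empty d)⟩
        | @insert d₀ s _ _ ih =>
          obtain ⟨n, hn, h⟩ := ih
          obtain ⟨m, hm, h'⟩ := d₀.2.1
          refine ⟨n * m, mul_ne_zero hn hm, fun d hd P hP => ?_⟩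
          rcases Set.mem_insert_iff.1 hd with rfl | hd
          · exact (h' P hP).mul_left _
          · exact (h d hd P hP).mul_right _
      obtain ⟨n, hn, h⟩ := hb _ hfin
      refine ⟨n, hn, fun P hP => h _ ⟨oelt U P, rfl⟩ P ?_⟩
      intro h0
      apply hP
      simp only [𝔞, h0, neg_zero]
    · refine ⟨V ⊓ U, LevelSys.inf_mem hV hU, fun g hg P => ?_⟩
      have h1 := h𝔞' ⟨g, hg.2⟩ (g • P)
      rw [hzW ⟨g, hg.2⟩ (hVW hg.1)] at h1
      have h2 : (0 : ℤ) = 𝔞 (g⁻¹ • (g • P)) - 𝔞 (g • P) := h1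
      rw [inv_smul_smul] at h2
      omega
  refine ⟨⟨𝔞, hmem⟩, fun g => ?_⟩
  apply Subtype.ext
  funext P
  exact h𝔞' g P

/-- `D^U → (D / p)^U` is onto. -/
theorem dv_mod_invariants (p : ℕ) (hp : p ≠ 0) (d : Dv S)
    (hd : ∀ g : U, ∃ d' : Dv S, dvU S U g d - d = p • d') :
    ∃ d₀ : Dv S, (∀ g, dvU S U g d₀ = d₀) ∧ ∃ d' : Dv S, d = d₀ + p • d' := by
  obtain ⟨D, ⟨n, hn, hn'⟩, V, hV, hV'⟩ := d
  have hp' : (p : ℤ) ≠ 0 := by exact_mod_cast hp
  have h0 : (fun P => D P % p) ∈ Dv S :=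
    ⟨⟨n, hn, fun P hP => hn' P (fun h => hP (by simp [h]))⟩, V, hV,
      fun g hg P => by simp only [hV' g hg]⟩
  have h1 : (fun P => D P / p) ∈ Dv S :=
    ⟨⟨n, hn, fun P hP => hn' P (fun h => hP (by simp [h]))⟩, V, hV,
      fun g hg P => by simp only [hV' g hg]⟩
  refine ⟨⟨_, h0⟩, fun g => ?_, ⟨_, h1⟩, ?_⟩
  · apply Subtype.ext
    funext P
    obtain ⟨d', hd'⟩ := hd g
    have h2 := congrArg (fun d : Dv S => d.1 P) hd'
    have h3 : D ((g : GQ)⁻¹ • P) - D P = p • d'.1 P := h2
    change D ((g : GQ)⁻¹ • P) % p = D P % p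
    apply Int.emod_emod_of_dvd _ (dvd_refl _) |>.symm.trans
    rw [Int.emod_emod_of_dvd _ (dvd_refl _)]
    apply Int.emod_eq_emod_iff_emod_sub_eq_zero.mpr
    rw [h3, nsmul_eq_mul]
    exact Int.mul_emod_right _ _
  · apply Subtype.ext
    funext P
    change D P = D P % p + p • (D P / p)
    rw [nsmul_eq_mul]
    exact (Int.emod_add_mul_ediv (D P) p).symm

/-- **The `S`-Kummer setup.** -/
theorem setup {K : IntermediateField ℚ Qbar} [FiniteDimensional ℚ K] (hK : K ≤ Omega S)
    {p : Nat.Primes} (hpS : p ∈ S) :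
    Formal.Setup (p : ℕ) ((galLevels ℚ Qbar).restrict K.fixingSubgroup)
      ((sLevels S).restrict K.fixingSubgroup) (unitsRep K.fixingSubgroup Qbar)
      (omU S K.fixingSubgroup) (dvU S K.fixingSubgroup) (unitsOm S).subtype (dv S) where
  hle := by
    rintro V ⟨W, hW, h⟩
    exact ⟨W, sLevels_le hW, h⟩
  hρ := ((fieldLevel_galLevels ℚ Qbar).restrict K.fixingSubgroup).discrete
  hω := by
    intro x
    obtain ⟨V, hV, h⟩ := omRep_discrete S x
    exact ⟨V.comap K.fixingSubgroup.subtype, LevelSys.comap_mem_comap _ hV,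
      fun s hs => h s hs⟩
  hδ := by
    intro x
    obtain ⟨V, hV, h⟩ := dvRep_discrete S x
    exact ⟨V.comap K.fixingSubgroup.subtype, LevelSys.comap_mem_comap _ hV,
      fun s hs => h s hs⟩
  hje := fun g m => rfl
  hde := fun g m => dv_equivar (g : GQ) m
  hj := Subtype.val_injective
  hjr := by
    rintro e ⟨V, ⟨W, ⟨F, hF, hFW⟩, hWV⟩, he⟩
    have : FiniteDimensional ℚ F := hF.1
    have hmem : uval e ∈ F ⊔ K := by
      rw [← InfiniteGalois.fixedField_fixingSubgroup (F ⊔ K), IntermediateField.mem_fixedField_iff]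
      intro g hg
      rw [IntermediateField.fixingSubgroup_sup] at hg
      have h1 := he ⟨g, hg.2⟩ (hWV (hFW hg.1))
      exact congrArg uval h1
    exact ⟨⟨e, (sup_le (le_Omega hF) hK) hmem⟩, rfl⟩
  hv := fun V _ => h1van_units ((fieldLevel_galLevels ℚ Qbar).restrict K.fixingSubgroup) V
  hdivp := by
    intro e
    obtain ⟨z, hz⟩ := IsAlgClosed.exists_pow_nat_eq (uval e) p.2.pos
    have hz0 : z ≠ 0 := by
      rintro rfl
      rw [zero_pow p.2.ne_zero] at hz
      exact uval_ne_zero e hz.symm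
    refine ⟨Additive.ofMul (Units.mk0 z hz0), uval_injective ?_⟩
    rw [uval_nsmul]
    exact hz
  hK := by
    rintro e w he ⟨d, hd⟩
    have h1 : uval e ^ (p : ℕ) = uval (w : Additive Qbarˣ) := by
      rw [← uval_nsmul, he]
      rfl
    refine ⟨⟨e, mem_Omega_of_pow hpS (by rw [h1]; exact w.2) fun P => ?_⟩, rfl⟩
    rw [h1, ← dv_apply, hd]
    change _ ∣ (p : ℕ) • d.1 P
    rw [nsmul_eq_mul]
    exact Dvd.intro _ rfl
  hF1 := exists_dv_eq hpS
  hF2 := h1_dv _ (fixingSubgroup_mem_sLevels hK)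
  htf := by
    intro d hd
    apply Subtype.ext
    funext P
    have h1 : (p : ℕ) • d.1 P = 0 := congrArg (fun d : Dv S => d.1 P) hd
    rw [nsmul_eq_mul] at h1
    rcases mul_eq_zero.mp h1 with h2 | h2
    · exact absurd (by exact_mod_cast h2) p.2.ne_zero
    · exact h2
  hD6 := dv_mod_invariants _ _ p.2.ne_zero

end Fermat.Agent.CFT.SKummer
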