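import Fermat.Agent.CFT.SKummer.LocalCond
import Fermat.Agent.CFT.Bridge.GlobPlace

/-!
# Lifting classes of `H²(G_K, μ_p)` to `H²(G_{K,S}, μ_p)`
-/

set_option autoImplicit false

noncomputable section

namespace Fermat.Agent.CFT.SKummer

open scoped Pointwise NumberField
open Fermat.Agent.Frob Fermat.Agent.Minkowski IsDedekindDomain
open Fermat.Agent.PT Fermat.Agent.CFT.Kum Fermat.Agent.CFT.Bridge

variable {S : Finset Nat.Primes} {K : IntermediateField ℚ Qbar} [FiniteDimensional ℚ K]
  {p : Nat.Primes}

local instance : Fact ((p : ℕ).Prime) := ⟨p.2⟩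

/-- inflation `H²(G_{K,S}, μ_p) → H²(G_K, μ_p)`. -/
abbrev inflK (S : Finset Nat.Primes) (K : IntermediateField ℚ Qbar) (p : ℕ) :
    H2 (levS S K) (triv p K.fixingSubgroup) →ₗ[ZMod p] H2 (lev K) (triv p K.fixingSubgroup) :=
  Formal.infl2 (levS_le_lev (S := S) (K := K)) (triv p K.fixingSubgroup)

/-- **Lifting.** A class in `H²(G_K, μ_p)`, trivial at all places outside `S` and killed by a
cyclic layer inside `Omega S`, comes from `H²(G_{K,S}, μ_p)`. -/
theorem mem_range_inflK (hK : K ≤ Omega S) (hpS : p ∈ S) {ζ : K}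
    (hζ : IsPrimitiveRoot ζ (p : ℕ)) {n : ℕ} [NeZero n]
    {χ : K.fixingSubgroup →* Multiplicative (ZMod n)} {s : K.fixingSubgroup}
    (hs : χ s = Multiplicative.ofAdd 1) (hχ : χ.ker ∈ levS S K)
    (x : H2 (lev K) (triv (p : ℕ) K.fixingSubgroup))
    (hres : resT χ.ker.subtype (LevelSys.compat_comap (𝓛 := lev K) χ.ker.subtype) x = 0)
    (hloc : ∀ P : Place S, resT (stabU K P).subtype
      (LevelSys.compat_comap (𝓛 := lev K) (stabU K P).subtype) x = 0) :
    x ∈ LinearMap.range (inflK S K (p : ℕ)) := by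
  obtain ⟨c, rfl⟩ := H2mk_surjective x
  rw [resT_mk, H2mk_triv_eq_zero_iff] at hres
  obtain ⟨e, he, hce⟩ := hres
  obtain ⟨c', hc'⟩ := (setup hK hpS).exists_lift_of_res (iota hK hζ) (iota_injective hK hζ)
    (smul_iota hK hζ) (fun w hw => exists_iota hK hζ hw) (iota_equivar hK hζ) hs hχ c (e := e) he
    (fun u v => hce u v) (by
      rintro a ha ⟨f, hf, hfa⟩
      refine exists_norm_divisor χ hK hχ hs (D := dv S a) (fun g => by
        have h1 := dv_equivar (S := S) (g : GQ) a
        have h2 : omRep S (g : GQ) a = a := ha g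
        rw [h2] at h1
        exact h1.symm) (fun P => ?_)
      rw [dv_apply]
      have hl := hloc P
      rw [resT_mk, H2mk_triv_eq_zero_iff] at hl
      obtain ⟨η, hη, hcη⟩ := hl
      refine card_imgX_dvd_ord hK hχ P ha
        (e := fun g => ((iota hK hζ (η g) : unitsOm S) : Additive Qbarˣ) - f g) ?_ ?_
      · have h1 : LC1 ((lev K).restrict (stabU K P)) (fun g : stabU K P => f g) :=
          hf.restrict _
        exact (hη.prodMk h1).comp (fun t => ((iota hK hζ t.1 : unitsOm S) : Additive Qbarˣ) - t.2)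
      · intro g h
        have h1 := hfa g h
        have h2 : c.1 ((g : K.fixingSubgroup), (h : K.fixingSubgroup)) =
            η h - η (g * h) + η g := hcη g h
        have h3 : ∀ (t : K.fixingSubgroup) (i : ZMod (p : ℕ)),
            unitsRep K.fixingSubgroup Qbar t ((iota hK hζ i : unitsOm S) : Additive Qbarˣ) =
              ((iota hK hζ i : unitsOm S) : Additive Qbarˣ) := by
          intro t i
          exact (congrArg (fun y : unitsOm S => (y : Additive Qbarˣ))
            (iota_equivar hK hζ t i)).symm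
        rw [h2, map_add, map_sub, sub_eq_iff_eq_add] at h1
        change ((iota hK hζ (η h) : unitsOm S) : Additive Qbarˣ) -
          ((iota hK hζ (η (g * h)) : unitsOm S) : Additive Qbarˣ) +
          ((iota hK hζ (η g) : unitsOm S) : Additive Qbarˣ) = _ + carry χ _ _ at h1
        have h4 : carry χ (a : Additive Qbarˣ) ((g : K.fixingSubgroup), (h : K.fixingSubgroup)) =
          ((iota hK hζ (η h) : unitsOm S) : Additive Qbarˣ) -
          ((iota hK hζ (η (g * h)) : unitsOm S) : Additive Qbarˣ) +
          ((iota hK hζ (η g) : unitsOm S) : Additive Qbarˣ) -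
          (unitsRep K.fixingSubgroup Qbar g (f h) - f (g * h) + f g) := by
          rw [h1]
          exact (add_sub_cancel_left _ _).symm
        rw [h4, map_sub, h3]
        have h5 : f ((g * h : stabU K P) : K.fixingSubgroup) =
            f ((g : K.fixingSubgroup) * (h : K.fixingSubgroup)) := rfl
        rw [h5]
        abel)
  exact ⟨_, hc'⟩

end Fermat.Agent.CFT.SKummer
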