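import Fermat.Agent.CFT.SKummer.Count
import Fermat.Agent.TW.InertiaField

/-!
# The local condition outside `S` and lifting of classes
-/

set_option autoImplicit false

noncomputable section

namespace Fermat.Agent.CFT.SKummer

open scoped Pointwise NumberField
open Fermat.Agent.Frob Fermat.Agent.Minkowski IsDedekindDomain
open Fermat.Agent.PT Fermat.Agent.CFT.Kum Fermat.Agent.CFT.Bridge

set_option linter.unusedSectionVars false

section reduce

variable {H : Type*} [Group H] {n : ℕ} [NeZero n]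

/-- the image of a character. -/
def imgX (χ : H →* Multiplicative (ZMod n)) (T : Subgroup H) : AddSubgroup (ZMod n) where
  carrier := {x | ∃ g ∈ T, (χ g).toAdd = x}
  zero_mem' := ⟨1, T.one_mem, by rw [map_one, toAdd_one]⟩
  add_mem' := by
    rintro _ _ ⟨g, hg, rfl⟩ ⟨h, hh, rfl⟩
    exact ⟨g * h, T.mul_mem hg hh, by rw [map_mul, toAdd_mul]⟩
  neg_mem' := by
    rintro _ ⟨g, hg, rfl⟩
    exact ⟨g⁻¹, T.inv_mem hg, by rw [map_inv, toAdd_inv]⟩

lemma mem_imgX {χ : H →* Multiplicative (ZMod n)} {T : Subgroup H} {x : ZMod n} :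
    x ∈ imgX χ T ↔ ∃ g ∈ T, (χ g).toAdd = x := Iff.rfl

/-- reduce a character to a surjective one with the same carry cocycles. -/
lemma exists_reduced (χ : H →* Multiplicative (ZMod n)) :
    ∃ (f m : ℕ) (_ : NeZero f), n = m * f ∧ 0 < m ∧ Nat.card (imgX χ ⊤) = f ∧
      ∃ (χ' : H →* Multiplicative (ZMod f)) (s : H), χ' s = Multiplicative.ofAdd 1 ∧
        (∀ h, cval χ h = m * cval χ' h) := by
  classical
  set R := imgX χ ⊤ with hR
  set f := Nat.card R with hf
  have hn : 0 < n := Nat.pos_of_neZero n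
  have hf0 : f ≠ 0 := Nat.card_pos.ne'
  have hdvd : f ∣ n := by
    have := AddSubgroup.card_addSubgroup_dvd_card R
    rwa [Nat.card_zmod] at this
  obtain ⟨m, hm⟩ := hdvd
  have hm' : n = m * f := by rw [hm, mul_comm]
  have hmpos : 0 < m := by
    rcases Nat.eq_zero_or_pos m with h | h
    · rw [h, zero_mul] at hm'; omega
    · exact h
  have hNf : NeZero f := ⟨hf0⟩
  have hval : ∀ h : H, m ∣ cval χ h := by
    intro h
    have h1 : f • (χ h).toAdd = 0 := by
      have h2 : f • (⟨(χ h).toAdd, h, trivial, rfl⟩ : R) = 0 := card_nsmul_eq_zero'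
      exact congrArg Subtype.val h2
    have h3 : ((f * cval χ h : ℕ) : ZMod n) = 0 := by
      rw [Nat.cast_mul, cval, ZMod.natCast_val, ZMod.cast_id]
      rw [← h1, nsmul_eq_mul]
    rw [ZMod.natCast_eq_zero_iff] at h3
    have h4 : f * m ∣ f * cval χ h := (dvd_of_eq hm.symm).trans h3
    exact Nat.dvd_of_mul_dvd_mul_left (Nat.pos_of_ne_zero hf0) h4
  let χ' : H →* Multiplicative (ZMod f) :=
    { toFun := fun h => Multiplicative.ofAdd ((cval χ h / m : ℕ) : ZMod f)
      map_one' := by
        rw [cval_one, Nat.zero_div, Nat.cast_zero, ofAdd_zero]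
      map_mul' := fun g h => by
        rw [← ofAdd_add, ← Nat.cast_add]
        congr 1
        rw [ZMod.natCast_eq_natCast_iff]
        obtain ⟨x, hx⟩ := hval g
        obtain ⟨y, hy⟩ := hval h
        have h1 := cval_add_add χ g h
        obtain ⟨z, hz⟩ := hval (g * h)
        rw [hx, hy, hz, Nat.mul_div_cancel_left _ hmpos, Nat.mul_div_cancel_left _ hmpos,
          Nat.mul_div_cancel_left _ hmpos]
        rw [hx, hy, hz] at h1
        have h2 : x + y = z + if n ≤ m * x + m * y then f else 0 := by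
          apply Nat.eq_of_mul_eq_mul_left hmpos
          by_cases hc : n ≤ m * x + m * y
          · rw [if_pos hc] at h1 ⊢
            rw [mul_add, mul_add, h1, ← hm']
          · rw [if_neg hc] at h1 ⊢
            rw [mul_add, h1, add_zero, add_zero]
        rw [h2]
        split_ifs
        · exact (Nat.add_modEq_right).symm
        · rfl }
  have hχ' : ∀ h, cval χ h = m * cval χ' h := by
    intro h
    obtain ⟨x, hx⟩ := hval h
    have h1 : cval χ' h = x := by
      change ZMod.val (((cval χ h / m : ℕ) : ZMod f)) = x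
      rw [hx, Nat.mul_div_cancel_left _ hmpos, ZMod.val_natCast, Nat.mod_eq_of_lt]
      have h2 := cval_lt χ h
      rw [hx, hm'] at h2
      exact Nat.lt_of_mul_lt_mul_left h2
    rw [h1, hx]
  -- surjectivity
  let φ : R → ZMod f := fun x => ((ZMod.val x.1 / m : ℕ) : ZMod f)
  have hφ : Function.Injective φ := by
    rintro ⟨_, g, _, rfl⟩ ⟨_, h, _, rfl⟩ hgh
    have h1 : χ' g = χ' h := congrArg Multiplicative.ofAdd hgh
    have h2 : cval χ g = cval χ h := by rw [hχ', hχ', cval, cval, h1]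
    apply Subtype.ext
    exact ZMod.val_injective n h2
  have hcard : Nat.card R = Nat.card (ZMod f) := by rw [Nat.card_zmod]
  have hsurj : Function.Surjective φ := by
    have hfin : Finite R := inferInstance
    exact (Function.Injective.bijective_of_nat_card_le hφ hcard.ge).2
  obtain ⟨⟨_, s, _, rfl⟩, hs⟩ := hsurj 1
  exact ⟨f, m, hNf, hm', hmpos, rfl, χ', s, congrArg Multiplicative.ofAdd hs, hχ'⟩

lemma carry_eq_carry {M : Type*} [AddCommGroup M] {χ : H →* Multiplicative (ZMod n)} {f m : ℕ}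
    [NeZero f] (hm : n = m * f) (hm0 : 0 < m) {χ' : H →* Multiplicative (ZMod f)}
    (h : ∀ h, cval χ h = m * cval χ' h) (a : M) (x : H × H) : carry χ a x = carry χ' a x := by
  obtain ⟨g, g'⟩ := x
  rw [carry_apply, carry_apply, h, h, hm, ← mul_add]
  simp only [Nat.mul_le_mul_left_iff hm0]

end reduce

variable {S : Finset Nat.Primes} {K : IntermediateField ℚ Qbar}

/-- the stabiliser of a place in `G_K`. -/
def stabU (K : IntermediateField ℚ Qbar) (P : Place S) : Subgroup K.fixingSubgroup where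
  carrier := {g | (g : GQ) • P = P}
  one_mem' := one_smul _ _
  mul_mem' {a b} ha hb := by
    change ((a * b : K.fixingSubgroup) : GQ) • P = P
    rw [Subgroup.coe_mul, mul_smul, hb, ha]
  inv_mem' {a} ha := by
    change ((a⁻¹ : K.fixingSubgroup) : GQ) • P = P
    rw [Subgroup.coe_inv, inv_smul_eq_iff]
    exact ha.symm

lemma mem_stabU {P : Place S} {g : K.fixingSubgroup} : g ∈ stabU K P ↔ (g : GQ) • P = P := Iff.rfl

lemma inertia_le_stab {A : ValuationSubring Qbar} {σ : GQ} (hσ : σ ∈ A.inertiaSubgroupIn ℚ) :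
    σ • A = A := by
  obtain ⟨τ, hτ, rfl⟩ := hσ
  exact τ.2

/-- **The local condition**: the order of the image of the decomposition group divides the
valuation. -/
theorem card_imgX_dvd_ord (hK : K ≤ Omega S) {n : ℕ} [NeZero n]
    {χ : K.fixingSubgroup →* Multiplicative (ZMod n)} (hχ : χ.ker ∈ levS S K) (P : Place S)
    {a : unitsOm S} (ha : ∀ g, omU S K.fixingSubgroup g a = a)
    {e : stabU K P → Additive Qbarˣ} (he : LC1 ((lev K).restrict (stabU K P)) e)
    (hae : ∀ g h : stabU K P, carry χ (a : Additive Qbarˣ) ((g : K.fixingSubgroup), (h : _)) =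
      unitsRep K.fixingSubgroup Qbar g (e h) - e (g * h) + e g) :
    ((Nat.card (imgX χ (stabU K P)) : ℕ) : ℤ) ∣ ord P (uval (a : Additive Qbarˣ)) := by
  set T := stabU K P with hT
  obtain ⟨f, m, hf, hn, hm0, hcard, χ', s, hs, hχ'⟩ := exists_reduced (χ.comp T.subtype)
  have himg : imgX (χ.comp T.subtype) ⊤ = imgX χ T := by
    ext x
    constructor
    · rintro ⟨g, _, rfl⟩
      exact ⟨g, g.2, rfl⟩
    · rintro ⟨g, hg, rfl⟩
      exact ⟨⟨g, hg⟩, trivial, rfl⟩
  rw [himg] at hcard
  rw [hcard]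
  have hFL : FieldLevel ((lev K).restrict T) Qbar :=
    ((fieldLevel_galLevels ℚ Qbar).restrict K.fixingSubgroup).restrict T
  obtain ⟨b, hb, hab⟩ := norm_of_carry_coboundary (ρ := unitsRep T Qbar) hs
    (h1van_units hFL χ'.ker) (a := (a : Additive Qbarˣ))
    (fun g => congrArg Subtype.val (ha g)) he (fun g h => by
      rw [← carry_eq_carry hn hm0 hχ']
      exact hae g h)
  -- `b` is fixed by inertia
  have hbI : ∀ σ ∈ P.A.inertiaSubgroupIn ℚ, σ (uval b) = uval b := by
    intro σ hσ
    have hσU : σ ∈ K.fixingSubgroup := by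
      rw [IntermediateField.mem_fixingSubgroup_iff]
      intro x hx
      exact hK hx P.q P.hq P.A P.hA σ hσ
    have hσT : (⟨σ, hσU⟩ : K.fixingSubgroup) ∈ T := Place.ext' (inertia_le_stab hσ)
    have hσχ : χ ⟨σ, hσU⟩ = 1 := by
      obtain ⟨W, ⟨F, hF, hFW⟩, hW⟩ := hχ
      have : FiniteDimensional ℚ F := hF.1
      exact hW (hFW (hF.2 P.q P.hq P.A P.hA hσ))
    have hσ' : (⟨⟨σ, hσU⟩, hσT⟩ : T) ∈ χ'.ker := by
      rw [← cval_eq_zero_iff]
      have h1 := hχ' ⟨⟨σ, hσU⟩, hσT⟩
      have h2 : cval (χ.comp T.subtype) ⟨⟨σ, hσU⟩, hσT⟩ = 0 := by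
        rw [cval_eq_zero_iff]
        exact hσχ
      rw [h2] at h1
      rcases Nat.mul_eq_zero.mp h1.symm with h3 | h3
      · omega
      · exact h3
    exact congrArg uval (hb _ hσ')
  obtain ⟨k, hk⟩ := Fermat.Agent.TW.exists_valuation_eq_zpow_of_fixed P.q.2 P.hA hbI
    (uval_ne_zero b)
  -- the valuation of the norm
  have hact : ∀ (t : T), P.A.valuation (uval (unitsRep T Qbar t b)) =
      P.A.valuation ((P.q : ℕ) : Qbar) ^ k := by
    intro t
    have h1 : P.A.valuation (uval b) = P.A.valuation (((P.q : ℕ) : Qbar) ^ k) := by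
      rw [map_zpow₀, hk]
    have h2 := (valuation_smul P.A ((t : K.fixingSubgroup) : GQ) _ _).mpr h1
    have h3 : ((t : K.fixingSubgroup) : GQ) • P.A = P.A := congrArg Place.A t.2
    rw [h3, map_zpow₀, map_zpow₀, map_natCast] at h2
    exact h2
  have hpn : ∀ i : ℕ, P.A.valuation (uval (pnorm (unitsRep T Qbar) s b i)) =
      P.A.valuation ((P.q : ℕ) : Qbar) ^ ((i : ℤ) * k) := by
    intro i
    induction i with
    | zero =>
      rw [pnorm_zero, uval_zero, map_one]
      simp
    | succ i ih =>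
      rw [pnorm_succ, uval_add, map_mul, ih, hact, ← zpow_add₀ P.valuation_q_ne_zero]
      congr 1
      push_cast
      ring
  have hfin : ord P (uval (a : Additive Qbarˣ)) = (f : ℤ) * k := by
    apply ord_eq_of
    rw [hab]
    exact hpn f
  rw [hfin]
  exact Dvd.intro _ rfl

section norm

variable {n : ℕ} [NeZero n] (χ : K.fixingSubgroup →* Multiplicative (ZMod n))

lemma oelt_orbit (u : K.fixingSubgroup) (P : Place S) :
    (χ (oelt K.fixingSubgroup ((u : GQ) • P))).toAdd - ((χ u).toAdd +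
      (χ (oelt K.fixingSubgroup P)).toAdd) ∈ imgX χ (stabU K (orep K.fixingSubgroup P)) := by
  refine ⟨(u * oelt K.fixingSubgroup P)⁻¹ * oelt K.fixingSubgroup ((u : GQ) • P), ?_, ?_⟩
  · rw [mem_stabU]
    have h1 := oelt_smul K.fixingSubgroup ((u : GQ) • P)
    rw [orep_smul] at h1
    rw [Subgroup.coe_mul, mul_smul, h1, Subgroup.coe_inv, inv_smul_eq_iff, Subgroup.coe_mul,
      mul_smul, oelt_smul]
  · have h1 : χ ((u * oelt K.fixingSubgroup P)⁻¹ * oelt K.fixingSubgroup ((u : GQ) • P)) =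
        (χ u * χ (oelt K.fixingSubgroup P))⁻¹ * χ (oelt K.fixingSubgroup ((u : GQ) • P)) := by
      rw [map_mul, map_inv, map_mul]
    rw [h1, toAdd_mul, toAdd_inv, toAdd_mul]
    abel

lemma stabU_conj (u : K.fixingSubgroup) (P : Place S) :
    imgX χ (stabU K ((u : GQ) • P)) = imgX χ (stabU K P) := by
  have key : ∀ (u : K.fixingSubgroup) (P : Place S),
      imgX χ (stabU K P) ≤ imgX χ (stabU K ((u : GQ) • P)) := by
    rintro u P _ ⟨g, hg, rfl⟩
    refine ⟨u * g * u⁻¹, ?_, ?_⟩
    · rw [mem_stabU] at hg ⊢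
      rw [Subgroup.coe_mul, Subgroup.coe_mul, Subgroup.coe_inv, mul_smul, mul_smul,
        inv_smul_smul, hg]
    · have h1 : χ (u * g * u⁻¹) = χ g := by
        rw [map_mul, map_mul, map_inv, mul_comm, inv_mul_cancel_left]
      rw [h1]
  apply le_antisymm _ (key u P)
  have h1 := key u⁻¹ ((u : GQ) • P)
  rwa [Subgroup.coe_inv, inv_smul_smul] at h1

/-- **The divisor is a norm.** -/
theorem exists_norm_divisor (hK : K ≤ Omega S) [FiniteDimensional ℚ K] (hχ : χ.ker ∈ levS S K)
    {s : K.fixingSubgroup} (hs : χ s = Multiplicative.ofAdd 1)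
    {D : Dv S} (hD : ∀ g, dvU S K.fixingSubgroup g D = D)
    (hdvd : ∀ P : Place S, ((Nat.card (imgX χ (stabU K P)) : ℕ) : ℤ) ∣ D.1 P) :
    ∃ b : Dv S, (∀ u ∈ χ.ker, dvU S K.fixingSubgroup u b = b) ∧
      D = pnorm (dvU S K.fixingSubgroup) s b n := by
  classical
  have hDinv : ∀ (u : K.fixingSubgroup) (P : Place S), D.1 ((u : GQ) • P) = D.1 P := by
    intro u P
    have h1 := congrArg (fun D : Dv S => D.1 P) (hD u⁻¹)
    have h2 : D.1 (((u⁻¹ : K.fixingSubgroup) : GQ)⁻¹ • P) = D.1 P := h1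
    rwa [Subgroup.coe_inv, inv_inv] at h2
  let R : Place S → AddSubgroup (ZMod n) := fun P => imgX χ (stabU K P)
  have hR : ∀ (u : K.fixingSubgroup) (P : Place S), R ((u : GQ) • P) = R P := fun u P => stabU_conj χ u P
  have hRo : ∀ P : Place S, R (orep K.fixingSubgroup P) = R P := by
    intro P
    have := hR (oelt K.fixingSubgroup P) (orep K.fixingSubgroup P)
    rw [oelt_smul] at this
    exact this.symm
  let B : Place S → ℤ := fun P =>
    if (χ (oelt K.fixingSubgroup P)).toAdd ∈ R P then D.1 P / (Nat.card (R P) : ℕ) else 0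
  have hB : ∀ (u : K.fixingSubgroup) (P : Place S), B ((u : GQ) • P) =
      if (χ u).toAdd + (χ (oelt K.fixingSubgroup P)).toAdd ∈ R P then D.1 P / (Nat.card (R P) : ℕ) else 0 := by
    intro u P
    simp only [B]
    rw [hR, hDinv]
    have h1 := oelt_orbit χ u P
    have h2 : imgX χ (stabU K (orep K.fixingSubgroup P)) = R P := hRo P
    rw [h2] at h1
    congr 1
    apply propext
    constructor
    · intro h3
      have := (R P).sub_mem h3 h1
      simpa using this
    · intro h3
      have := (R P).add_mem h1 h3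
      simpa using this
  have hBker : ∀ (u : K.fixingSubgroup), u ∈ χ.ker → ∀ P : Place S, B ((u : GQ) • P) = B P := by
    intro u hu P
    rw [hB, MonoidHom.mem_ker.mp hu, toAdd_one, zero_add]
  have hBmem : B ∈ Dv S := by
    constructor
    · obtain ⟨m, hm, h⟩ := D.2.1
      refine ⟨m, hm, fun P hP => h P ?_⟩
      intro h0
      apply hP
      simp only [B, h0, Int.zero_ediv, ite_self]
    · obtain ⟨W, hW, hWχ⟩ := hχ
      refine ⟨W ⊓ K.fixingSubgroup, LevelSys.inf_mem hW (fixingSubgroup_mem_sLevels hK), fun g hg P => ?_⟩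
      exact hBker ⟨g, hg.2⟩ (hWχ hg.1) P
  have hspow : ∀ l : ℕ, (χ (s ^ l)).toAdd = (l : ZMod n) := by
    intro l
    rw [map_pow, hs, toAdd_pow, toAdd_ofAdd, nsmul_one]
  refine ⟨⟨B, hBmem⟩, fun u hu => ?_, ?_⟩
  · apply Subtype.ext
    funext P
    exact hBker u⁻¹ (χ.ker.inv_mem hu) P
  · apply Subtype.ext
    funext P
    have h1 : (pnorm (dvU S K.fixingSubgroup) s (⟨B, hBmem⟩ : Dv S) n).1 P =
        ∑ l ∈ Finset.range n, B ((((s ^ l)⁻¹ : K.fixingSubgroup) : GQ) • P) := by
      rw [pnorm]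
      have : ∀ t : Finset ℕ, (∑ l ∈ t, dvU S K.fixingSubgroup (s ^ l) (⟨B, hBmem⟩ : Dv S)).1 P =
          ∑ l ∈ t, B ((((s ^ l)⁻¹ : K.fixingSubgroup) : GQ) • P) := by
        intro t
        induction t using Finset.induction_on with
        | empty => rfl
        | insert x t hx ih =>
          rw [Finset.sum_insert hx, Finset.sum_insert hx, ← ih]
          rfl
      exact this _
    rw [h1]
    have h2 : ∀ l : ℕ, B ((((s ^ l)⁻¹ : K.fixingSubgroup) : GQ) • P) =
        if (-(l : ZMod n)) + (χ (oelt K.fixingSubgroup P)).toAdd ∈ R P then D.1 P / (Nat.card (R P) : ℕ)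
        else 0 := by
      intro l
      rw [hB, map_inv, toAdd_inv, hspow]
    simp only [h2]
    rw [← Finset.sum_filter, Finset.sum_const, nsmul_eq_mul]
    have h3 : ((Finset.range n).filter
        (fun l : ℕ => (-(l : ZMod n)) + (χ (oelt K.fixingSubgroup P)).toAdd ∈ R P)).card = Nat.card (R P) := by
      rw [Nat.card_eq_fintype_card, ← Finset.card_univ]
      refine Finset.card_bij'
        (fun l hl => (⟨(-(l : ZMod n)) + (χ (oelt K.fixingSubgroup P)).toAdd, (Finset.mem_filter.mp hl).2⟩ : R P))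
        (fun x _ => ((χ (oelt K.fixingSubgroup P)).toAdd - x.1).val) ?_ ?_ ?_ ?_
      · intro l _
        exact Finset.mem_univ _
      · intro x _
        rw [Finset.mem_filter, Finset.mem_range]
        refine ⟨ZMod.val_lt _, ?_⟩
        rw [ZMod.natCast_val, ZMod.cast_id]
        simp
      · intro l hl
        rw [Finset.mem_filter, Finset.mem_range] at hl
        simp only
        have : (χ (oelt K.fixingSubgroup P)).toAdd - (-(l : ZMod n) + (χ (oelt K.fixingSubgroup P)).toAdd) = (l : ZMod n) := by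
          abel
        rw [this, ZMod.val_natCast, Nat.mod_eq_of_lt hl.1]
      · intro x _
        apply Subtype.ext
        simp only
        rw [ZMod.natCast_val, ZMod.cast_id]
        abel
    rw [h3]
    exact (Int.mul_ediv_cancel' (hdvd P)).symm

end norm

end Fermat.Agent.CFT.SKummer
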