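import Fermat.Agent.Minkowski.Trivial
import Fermat.Agent.GalRep.Cyclo
import Fermat.Agent.Frob.Density
import Fermat.Agent.MultRed.InertiaVal
import Fermat.Prelude.Def_GroupCohomology_ContinuousUnramified

/-!
# The maximal extension of `ℚ` unramified outside `S`, inside `ℚ̄`

`Omega S` is the subfield of `ℚ̄` fixed by all inertia groups at places above primes outside `S`.
-/

set_option autoImplicit false

noncomputable section

namespace Fermat.Agent.CFT.SKummer

open scoped Pointwise NumberField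
open Fermat.Agent.Frob Fermat.Agent.Minkowski

abbrev Qbar := AlgebraicClosure ℚ

/-- The maximal subextension of `ℚ̄` unramified outside `S`. -/
def Omega (S : Finset Nat.Primes) : IntermediateField ℚ Qbar where
  carrier := {x | ∀ q : Nat.Primes, q ∉ S → ∀ A : ValuationSubring Qbar, A.LiesOverPrime (q : ℕ) →
    ∀ σ ∈ A.inertiaSubgroupIn ℚ, σ x = x}
  mul_mem' := by
    intro a b ha hb q hq A hA σ hσ
    rw [map_mul, ha q hq A hA σ hσ, hb q hq A hA σ hσ]
  add_mem' := by
    intro a b ha hb q hq A hA σ hσ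
    rw [map_add, ha q hq A hA σ hσ, hb q hq A hA σ hσ]
  algebraMap_mem' := by
    intro r q hq A hA σ hσ
    exact σ.commutes r
  inv_mem' := by
    intro a ha q hq A hA σ hσ
    rw [map_inv₀, ha q hq A hA σ hσ]

variable {S : Finset Nat.Primes}

lemma mem_Omega_iff {x : Qbar} : x ∈ Omega S ↔ ∀ q : Nat.Primes, q ∉ S →
    ∀ A : ValuationSubring Qbar, A.LiesOverPrime (q : ℕ) →
    ∀ σ ∈ A.inertiaSubgroupIn ℚ, σ x = x := Iff.rfl

lemma isUnramifiedOutside_iff {F : IntermediateField ℚ Qbar} [hF : FiniteDimensional ℚ F] :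
    F.IsUnramifiedOutside S ↔ F ≤ Omega S := by
  constructor
  · rintro ⟨-, h⟩ x hx q hq A hA σ hσ
    exact (IntermediateField.mem_fixingSubgroup_iff F σ).mp (h q hq A hA hσ) x hx
  · intro h
    refine ⟨hF, fun q hq A hA σ hσ => ?_⟩
    rw [IntermediateField.mem_fixingSubgroup_iff]
    intro x hx
    exact h hx q hq A hA σ hσ

lemma le_Omega {F : IntermediateField ℚ Qbar} (h : F.IsUnramifiedOutside S) : F ≤ Omega S :=
  haveI := h.1
  isUnramifiedOutside_iff.mp h

lemma Omega_mono {S' : Finset Nat.Primes} (h : S ⊆ S') : Omega S ≤ Omega S' :=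
  fun _ hx q hq A hA σ hσ => hx q (fun hq' => hq (h hq')) A hA σ hσ

/-- Conjugation of inertia groups. -/
lemma conj_mem_inertia {A : ValuationSubring Qbar} {g σ : GQ}
    (hσ : σ ∈ (g • A).inertiaSubgroupIn ℚ) : g⁻¹ * σ * g ∈ A.inertiaSubgroupIn ℚ := by
  have hmem : ∀ {x : Qbar}, g x ∈ g • A ↔ x ∈ A := fun {x} =>
    ValuationSubring.smul_mem_pointwise_smul_iff (g := g) (S := A) (x := x)
  have hgg : ∀ y : Qbar, g (g⁻¹ y) = y := fun y => g.apply_symm_apply y
  apply mem_inertiaSubgroupIn_of_forall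
  · intro x hx
    have h1 := (sub_mem_nonunits_of_mem_inertia hσ (hmem.mpr hx)).2
    rw [← Fermat.Agent.FrobDensity.mem_nonunits_smul_iff (A := A) (g := g), map_sub]
    have h2 : g ((g⁻¹ * σ * g) x) = σ (g x) := hgg _
    rw [h2]
    exact h1
  · intro x hx
    have h3 : σ⁻¹ ∈ (g • A).inertiaSubgroupIn ℚ := inv_mem hσ
    have h1 := (sub_mem_nonunits_of_mem_inertia h3 (hmem.mpr hx)).1
    rw [← hmem]
    have h2 : g ((g⁻¹ * σ * g).symm x) = σ⁻¹ (g x) := by
      change g ((g⁻¹ * σ * g)⁻¹ x) = _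
      have : (g⁻¹ * σ * g)⁻¹ = g⁻¹ * σ⁻¹ * g := by group
      rw [this]
      exact hgg _
    rw [h2]
    exact h1

lemma map_mem_Omega (g : GQ) {x : Qbar} (hx : x ∈ Omega S) : g x ∈ Omega S := by
  intro q hq A hA σ hσ
  have hA' : (g⁻¹ • A).LiesOverPrime (q : ℕ) := Fermat.Agent.FrobDensity.liesOverPrime_smul hA
  have hσ' : g⁻¹ * σ * g ∈ (g⁻¹ • A).inertiaSubgroupIn ℚ := by
    have h0 : σ ∈ (g • (g⁻¹ • A)).inertiaSubgroupIn ℚ := by rwa [smul_inv_smul]
    exact conj_mem_inertia h0
  have h1 := hx q hq _ hA' _ hσ'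
  have h2 : g⁻¹ (σ (g x)) = x := h1
  calc σ (g x) = g (g⁻¹ (σ (g x))) := (g.apply_symm_apply _).symm
    _ = g x := by rw [h2]

lemma map_mem_Omega_iff (g : GQ) {x : Qbar} : g x ∈ Omega S ↔ x ∈ Omega S := by
  constructor
  · intro h
    have := map_mem_Omega g⁻¹ h
    have h2 : g⁻¹ (g x) = x := g.symm_apply_apply x
    rwa [h2] at this
  · exact map_mem_Omega g

lemma exists_galois_of_stable {k K : Type*} [Field k] [Field K] [Algebra k K] [Normal k K]
    [CharZero k] (F Om : IntermediateField k K) [FiniteDimensional k F] (hF : F ≤ Om)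
    (H : ∀ (g : K ≃ₐ[k] K) (x : K), x ∈ Om → g x ∈ Om) :
    ∃ L : IntermediateField k K, F ≤ L ∧ FiniteDimensional k L ∧ IsGalois k L ∧ L ≤ Om := by
  refine ⟨IntermediateField.normalClosure k F K, F.le_normalClosure, inferInstance, ?_, ?_⟩
  · exact IsGalois.mk
  · rw [IntermediateField.normalClosure_def'']
    refine iSup_le fun g => ?_
    rintro _ ⟨x, hx, rfl⟩
    exact H g x (hF hx)

/-- every finite subextension of `Omega S` is contained in a finite Galois extension of `ℚ`
unramified outside `S`. -/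
lemma exists_galois_of_le_Omega (F : IntermediateField ℚ Qbar) [FiniteDimensional ℚ F]
    (hF : F ≤ Omega S) : ∃ L : IntermediateField ℚ Qbar, F ≤ L ∧ FiniteDimensional ℚ L ∧
      IsGalois ℚ L ∧ L ≤ Omega S := by
  have hn : Normal ℚ Qbar := inferInstance
  exact exists_galois_of_stable F (Omega S) hF (fun g x hx => map_mem_Omega g hx)

lemma exists_galois_of_mem_Omega {x : Qbar} (hx : x ∈ Omega S) :
    ∃ L : IntermediateField ℚ Qbar, x ∈ L ∧ FiniteDimensional ℚ L ∧ IsGalois ℚ L ∧ L ≤ Omega S := by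
  have hint : IsIntegral ℚ x := Algebra.IsIntegral.isIntegral x
  have : FiniteDimensional ℚ (IntermediateField.adjoin ℚ {x}) :=
    IntermediateField.adjoin.finiteDimensional hint
  obtain ⟨L, h1, h2, h3, h4⟩ := exists_galois_of_le_Omega (S := S) (IntermediateField.adjoin ℚ {x})
    (by rw [IntermediateField.adjoin_simple_le_iff]; exact hx)
  exact ⟨L, h1 (IntermediateField.mem_adjoin_simple_self ℚ x), h2, h3, h4⟩

/-- The valuation at a place above `q ∉ S` of an element of `Omega S` is an integral power of the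
valuation of `q` : `Omega S` is unramified at `q`. -/
theorem exists_valuation_eq_zpow {q : Nat.Primes} (hq : q ∉ S) {A : ValuationSubring Qbar}
    (hA : A.LiesOverPrime (q : ℕ)) {x : Qbar} (hx : x ∈ Omega S) (hx0 : x ≠ 0) :
    ∃ n : ℤ, A.valuation x = A.valuation ((q : ℕ) : Qbar) ^ n := by
  obtain ⟨F, hxF, hfd, hgal, hFΩ⟩ := exists_galois_of_mem_Omega hx
  have : NumberField F := ⟨⟩
  let P : Ideal (𝓞 F) := (centre A).comap (incl F)
  have hP : P.IsPrime := Ideal.comap_isPrime _ _
  have hPp : ((q : ℕ) : 𝓞 F) ∈ P := by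
    change incl F ((q : ℕ) : 𝓞 F) ∈ centre A
    rw [map_natCast]
    exact natCast_mem_centre hA
  have hq0 : ((q : ℕ) : 𝓞 F) ≠ 0 := by exact_mod_cast q.2.ne_zero
  have hP0 : P ≠ ⊥ := by
    intro h
    rw [h, Ideal.mem_bot] at hPp
    exact hq0 hPp
  have hPmax : P.IsMaximal := hP.isMaximal hP0
  let p' : Ideal ℤ := P.under ℤ
  have hp'0 : p' ≠ ⊥ := by
    intro h
    exact hP0 (Ideal.eq_bot_of_comap_eq_bot h)
  have hp'p : p'.IsPrime := inferInstance
  have hfin : Finite (ℤ ⧸ p') := Ring.HasFiniteQuotients.finiteQuotient hp'0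
  have hp'm : p'.IsMaximal := hp'p.isMaximal hp'0
  have hp'q : p' = Ideal.span {((q : ℕ) : ℤ)} := by
    symm
    have : Fact (q : ℕ).Prime := ⟨q.2⟩
    have hmax : (Ideal.span {((q : ℕ) : ℤ)}).IsMaximal :=
      Int.ideal_span_isMaximal_of_prime (q : ℕ)
    refine hmax.eq_of_le (Ideal.IsPrime.ne_top inferInstance) ?_
    rw [Ideal.span_singleton_le_iff_mem, Ideal.mem_comap]
    simpa using hPp
  have hfin2 : Finite p'.ResidueField := inferInstance
  have hcard := Ideal.card_inertia_eq_ramificationIdxIn (G := F ≃ₐ[ℚ] F) p' P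
  rw [Ideal.ramificationIdxIn_eq_ramificationIdx p' P (F ≃ₐ[ℚ] F)] at hcard
  -- the inertia group is trivial
  have htriv : Nat.card (P.inertia (F ≃ₐ[ℚ] F)) = 1 := by
    rw [Nat.card_eq_one_iff_unique]
    refine ⟨⟨?_⟩, ⟨1⟩⟩
    have key : ∀ τ : P.inertia (F ≃ₐ[ℚ] F), τ = 1 := by
      rintro ⟨τ, hτ⟩
      obtain ⟨σ, hσ, hσ2⟩ := exists_lift_inertia F q.2 hA τ (fun x => ⟨τ • x - x, rfl, hτ x⟩)
      apply Subtype.ext
      apply AlgEquiv.ext
      intro y
      apply Subtype.ext
      have h1 := hFΩ y.2 q hq A hA σ hσ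
      rw [hσ2] at h1
      exact h1
    intro a b
    rw [key a, key b]
  rw [htriv] at hcard
  have hunr : Algebra.IsUnramifiedAt ℤ P := by
    rw [← Ideal.ramificationIdx_eq_one_iff]
    exact hcard.symm
  have : P.LiesOver p' := ⟨rfl⟩
  let R := Localization.AtPrime P
  let : Algebra (Localization.AtPrime p') (Localization.AtPrime P) :=
    Localization.AtPrime.algebraOfLiesOver p' P
  have hmap := ((Algebra.isUnramifiedAt_iff_map_eq ℤ p' P).mp hunr).2
  rw [hp'q, Ideal.map_span, Set.image_singleton] at hmap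
  have hDVR : IsDiscreteValuationRing R :=
    IsLocalization.AtPrime.isDiscreteValuationRing_of_dedekind_domain _ hP0 _
  -- the map to `A`
  have hunitA : ∀ z : 𝓞 F, z ∉ P → A.valuation ((z : F) : Qbar) = 1 := by
    intro z hz
    have h1 := isUnit_of_notMem_centre (A := A) (s := incl F z) hz
    have h2 : A.valuation ((incl F z : Zbar) : Qbar) ≤ 1 :=
      (A.valuation_le_one_iff _).mpr (mem_of_mem_Zbar A _)
    have h3 : A.valuation ((incl F z : Zbar) : Qbar)⁻¹ ≤ 1 :=
      (A.valuation_le_one_iff _).mpr h1.1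
    rw [map_inv₀] at h3
    have h4 : A.valuation ((incl F z : Zbar) : Qbar) ≠ 0 := by
      rw [Ne, Valuation.zero_iff]
      exact h1.2
    have h5 : 1 ≤ A.valuation ((incl F z : Zbar) : Qbar) := by
      rwa [inv_le_one₀ (zero_lt_iff.mpr h4)] at h3
    exact le_antisymm h2 h5
  let : Algebra R F :=
    (IsLocalization.lift (M := P.primeCompl) (g := algebraMap (𝓞 F) F)
      (fun z => (by
        have hz0 : (z : 𝓞 F) ≠ 0 := by
          rintro h
          exact z.2 (h ▸ P.zero_mem)
        exact isUnit_iff_ne_zero.mpr (by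
          intro h
          exact hz0 (FaithfulSMul.algebraMap_injective (𝓞 F) F
            (by rw [h, map_zero])))))).toAlgebra
  have : IsScalarTower (𝓞 F) R F :=
    IsScalarTower.of_algebraMap_eq (fun z => by
      rw [RingHom.algebraMap_toAlgebra, IsLocalization.lift_eq])
  have : IsFractionRing R F :=
    IsFractionRing.isFractionRing_of_isDomain_of_isLocalization P.primeCompl _ _
  have hunitR : ∀ u : Rˣ, A.valuation ((algebraMap R F u : F) : Qbar) = 1 := by
    intro u
    obtain ⟨b, s, hbs⟩ := IsLocalization.exists_mk'_eq P.primeCompl (u : R)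
    have h1 := IsLocalization.mk'_spec R b s
    rw [hbs] at h1
    have hb : b ∉ P := by
      intro hb
      have h2 : algebraMap (𝓞 F) R b ∈ IsLocalRing.maximalIdeal R := by
        rw [IsLocalization.AtPrime.to_map_mem_maximal_iff R P]
        exact hb
      rw [← h1] at h2
      have h3 : IsUnit ((u : R) * algebraMap (𝓞 F) R s) :=
        u.isUnit.mul (IsLocalization.map_units R s)
      exact h2 h3
    have h4 := congrArg (fun z => (algebraMap R F z : F)) h1
    simp only [map_mul] at h4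
    rw [← IsScalarTower.algebraMap_apply, ← IsScalarTower.algebraMap_apply] at h4
    have h5 := congrArg (fun z : F => A.valuation (z : Qbar)) h4
    simp only [MulMemClass.coe_mul, map_mul] at h5
    have h6 : A.valuation ((algebraMap (𝓞 F) F s : F) : Qbar) = 1 := hunitA s s.2
    have h7 : A.valuation ((algebraMap (𝓞 F) F b : F) : Qbar) = 1 := hunitA b hb
    rw [h6, h7, mul_one] at h5
    exact h5
  have hirr : Irreducible ((q : ℕ) : R) := by
    rw [IsDiscreteValuationRing.irreducible_iff_uniformizer]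
    rw [← hmap]
    congr 2
    exact (map_natCast _ _)
  let y : F := ⟨x, hxF⟩
  have hy0 : y ≠ 0 := fun h => hx0 (congrArg Subtype.val h)
  have hval : ∀ w : R, w ≠ 0 → ∃ n : ℕ, A.valuation ((algebraMap R F w : F) : Qbar) =
      A.valuation ((q : ℕ) : Qbar) ^ n := by
    intro w hw
    obtain ⟨n, u, hu⟩ := IsDiscreteValuationRing.eq_unit_mul_pow_irreducible hw hirr
    refine ⟨n, ?_⟩
    rw [hu, map_mul, map_pow, map_natCast]
    simp only [MulMemClass.coe_mul, SubmonoidClass.coe_pow, map_mul, map_pow]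
    rw [hunitR, one_mul]
    rfl
  obtain ⟨a, b, hb, hab⟩ := IsFractionRing.div_surjective (A := R) y
  have hb0 : b ≠ 0 := nonZeroDivisors.ne_zero hb
  have ha0 : a ≠ 0 := by
    rintro rfl
    rw [map_zero, zero_div] at hab
    exact hy0 hab.symm
  obtain ⟨m, hm⟩ := hval a ha0
  obtain ⟨n, hn⟩ := hval b hb0
  refine ⟨(m : ℤ) - n, ?_⟩
  have hqv : A.valuation ((q : ℕ) : Qbar) ≠ 0 := by
    rw [Ne, Valuation.zero_iff]
    exact_mod_cast q.2.ne_zero
  have h8 : A.valuation x = A.valuation ((algebraMap R F a / algebraMap R F b : F) : Qbar) := by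
    rw [hab]
  rw [h8, IntermediateField.coe_div, map_div₀, hm, hn, zpow_sub₀ hqv, zpow_natCast, zpow_natCast]

end Fermat.Agent.CFT.SKummer
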