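import Fermat.Agent.CFT.SKummer.Omega

/-!
# Normalised valuations of `Omega S` at the places outside `S`, Kummer criterion
-/

set_option autoImplicit false

noncomputable section

namespace Fermat.Agent.CFT.SKummer

open scoped Pointwise NumberField
open Fermat.Agent.Frob Fermat.Agent.Minkowski

/-- places of `ℚ̄` above primes outside `S`. -/
@[ext] structure Place (S : Finset Nat.Primes) where
  A : ValuationSubring Qbar
  q : Nat.Primes
  hq : q ∉ S
  hA : A.LiesOverPrime (q : ℕ)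

variable {S : Finset Nat.Primes}

namespace Place

lemma q_eq_of_A_eq {P P' : Place S} (h : P.A = P'.A) : P.q = P'.q := by
  by_contra hne
  have hne' : (P.q : ℕ) ≠ P'.q := fun h => hne (Subtype.ext h)
  have hcop : Nat.Coprime (P.q : ℕ) (P'.q : ℕ) := (Nat.coprime_primes P.q.2 P'.q.2).mpr hne'
  have h1 := Fermat.Agent.GalRep.residue_natCast_ne_zero P.hA hcop
  apply h1
  have h2 := P'.hA
  rw [← h] at h2
  have := (IsLocalRing.residue_eq_zero_iff (((P'.q : ℕ)) : P.A)).mpr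
    (Fermat.Agent.GalRep.natCast_mem_nonunits_of_dvd h2)
  rwa [map_natCast] at this

lemma ext' {P P' : Place S} (h : P.A = P'.A) : P = P' :=
  Place.ext h (q_eq_of_A_eq h)

instance : SMul GQ (Place S) where
  smul g P := ⟨g • P.A, P.q, P.hq, Fermat.Agent.FrobDensity.liesOverPrime_smul P.hA⟩

@[simp] lemma smul_A (g : GQ) (P : Place S) : (g • P).A = g • P.A := rfl
@[simp] lemma smul_q (g : GQ) (P : Place S) : (g • P).q = P.q := rfl

instance : MulAction GQ (Place S) where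
  one_smul P := ext' (one_smul _ _)
  mul_smul g h P := ext' (mul_smul _ _ _)

lemma valuation_q_ne_zero (P : Place S) : P.A.valuation ((P.q : ℕ) : Qbar) ≠ 0 := by
  rw [Ne, Valuation.zero_iff]
  exact_mod_cast P.q.2.ne_zero

lemma valuation_q_lt_one (P : Place S) : P.A.valuation ((P.q : ℕ) : Qbar) < 1 :=
  (ValuationSubring.mem_nonunits_iff (A := P.A)).mp P.hA

lemma zpow_inj (P : Place S) {m n : ℤ}
    (h : P.A.valuation ((P.q : ℕ) : Qbar) ^ m = P.A.valuation ((P.q : ℕ) : Qbar) ^ n) : m = n := by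
  have h0 := P.valuation_q_ne_zero
  have h1 := P.valuation_q_lt_one
  exact zpow_right_injective₀ (zero_lt_iff.mpr h0) h1.ne h

end Place

/-- The normalised valuation at a place outside `S`. -/
def ord (P : Place S) (x : Qbar) : ℤ :=
  open Classical in
  if h : ∃ n : ℤ, P.A.valuation x = P.A.valuation ((P.q : ℕ) : Qbar) ^ n then h.choose else 0

lemma ord_spec (P : Place S) {x : Qbar} (hx : x ∈ Omega S) (hx0 : x ≠ 0) :
    P.A.valuation x = P.A.valuation ((P.q : ℕ) : Qbar) ^ (ord P x) := by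
  have h := exists_valuation_eq_zpow P.hq P.hA hx hx0
  rw [ord, dif_pos h]
  exact h.choose_spec

lemma ord_eq_of (P : Place S) {x : Qbar} {n : ℤ}
    (h : P.A.valuation x = P.A.valuation ((P.q : ℕ) : Qbar) ^ n) : ord P x = n := by
  have h' : ∃ n : ℤ, P.A.valuation x = P.A.valuation ((P.q : ℕ) : Qbar) ^ n := ⟨n, h⟩
  rw [ord, dif_pos h']
  exact P.zpow_inj (h'.choose_spec.symm.trans h)

lemma ord_eq_zero_iff (P : Place S) {x : Qbar} (hx : x ∈ Omega S) (hx0 : x ≠ 0) :
    ord P x = 0 ↔ P.A.valuation x = 1 := by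
  constructor
  · intro h
    rw [ord_spec P hx hx0, h, zpow_zero]
  · intro h
    exact ord_eq_of P (by rw [h, zpow_zero])

@[simp] lemma ord_one (P : Place S) : ord P 1 = 0 := ord_eq_of P (by simp)

@[simp] lemma ord_q (P : Place S) : ord P ((P.q : ℕ) : Qbar) = 1 := ord_eq_of P (by simp)

lemma ord_mul (P : Place S) {x y : Qbar} (hx : x ∈ Omega S) (hx0 : x ≠ 0)
    (hy : y ∈ Omega S) (hy0 : y ≠ 0) : ord P (x * y) = ord P x + ord P y := by
  apply ord_eq_of
  rw [map_mul, ord_spec P hx hx0, ord_spec P hy hy0, zpow_add₀ P.valuation_q_ne_zero]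

lemma ord_inv (P : Place S) {x : Qbar} (hx : x ∈ Omega S) (hx0 : x ≠ 0) :
    ord P x⁻¹ = - ord P x := by
  apply ord_eq_of
  rw [map_inv₀, ord_spec P hx hx0, zpow_neg]

lemma ord_div (P : Place S) {x y : Qbar} (hx : x ∈ Omega S) (hx0 : x ≠ 0)
    (hy : y ∈ Omega S) (hy0 : y ≠ 0) : ord P (x / y) = ord P x - ord P y := by
  rw [div_eq_mul_inv, ord_mul P hx hx0 ((Omega S).inv_mem hy) (inv_ne_zero hy0),
    ord_inv P hy hy0, sub_eq_add_neg]

lemma ord_pow (P : Place S) {x : Qbar} (hx : x ∈ Omega S) (hx0 : x ≠ 0) (n : ℕ) :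
    ord P (x ^ n) = n * ord P x := by
  apply ord_eq_of
  rw [map_pow, ord_spec P hx hx0, mul_comm, zpow_mul, zpow_natCast]

lemma ord_zpow (P : Place S) {x : Qbar} (hx : x ∈ Omega S) (hx0 : x ≠ 0) (n : ℤ) :
    ord P (x ^ n) = n * ord P x := by
  apply ord_eq_of
  rw [map_zpow₀, ord_spec P hx hx0, mul_comm, zpow_mul]

lemma valuation_smul (A : ValuationSubring Qbar) (g : GQ) (x y : Qbar) :
    (g • A).valuation (g x) = (g • A).valuation (g y) ↔ A.valuation x = A.valuation y := by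
  have key : ∀ x y : Qbar, (g • A).valuation (g x) ≤ (g • A).valuation (g y) ↔
      A.valuation x ≤ A.valuation y := by
    intro x y
    by_cases hy : y = 0
    · subst hy
      simp only [map_zero, le_zero_iff, map_eq_zero]
    · have hy' : g y ≠ 0 := by rwa [Ne, map_eq_zero]
      have e1 : (g • A).valuation (g x) ≤ (g • A).valuation (g y) ↔ g x / g y ∈ g • A := by
        rw [← ValuationSubring.valuation_le_one_iff, map_div₀, div_le_one₀]
        exact zero_lt_iff.mpr (by rwa [Ne, Valuation.zero_iff])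
      have e2 : A.valuation x ≤ A.valuation y ↔ x / y ∈ A := by
        rw [← ValuationSubring.valuation_le_one_iff, map_div₀, div_le_one₀]
        exact zero_lt_iff.mpr (by rwa [Ne, Valuation.zero_iff])
      rw [e1, e2, ← map_div₀]
      exact ValuationSubring.smul_mem_pointwise_smul_iff
  rw [le_antisymm_iff, le_antisymm_iff, key, key]

lemma ord_smul (g : GQ) (P : Place S) {x : Qbar} (hx : x ∈ Omega S) (hx0 : x ≠ 0) :
    ord (g • P) (g x) = ord P x := by
  apply ord_eq_of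
  have h := ord_spec P hx hx0
  have h2 : P.A.valuation x = P.A.valuation (((P.q : ℕ) : Qbar) ^ (ord P x)) := by
    rw [map_zpow₀, h]
  have h3 := (valuation_smul P.A g x _).mpr h2
  rw [Place.smul_A, h3, map_zpow₀, map_zpow₀, map_natCast]
  rfl

lemma ord_map (g : GQ) (P : Place S) {x : Qbar} (hx : x ∈ Omega S) (hx0 : x ≠ 0) :
    ord P (g x) = ord (g⁻¹ • P) x := by
  have := ord_smul g (g⁻¹ • P) hx hx0
  rwa [smul_inv_smul] at this

/-- `p`-power roots of unity lie in `Omega S` for `p ∈ S`. -/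
lemma rootOfUnity_mem_Omega {p : Nat.Primes} (hpS : p ∈ S) {n : ℕ} {ζ : Qbar}
    (hζ : ζ ^ ((p : ℕ) ^ n) = 1) : ζ ∈ Omega S := by
  intro q hq A hA σ hσ
  have hne : (q : ℕ) ≠ p := fun h => hq (by rwa [Subtype.ext h])
  have hcop : Nat.Coprime (q : ℕ) ((p : ℕ) ^ n) :=
    Nat.Coprime.pow_right n ((Nat.coprime_primes q.2 p.2).mpr hne)
  exact Fermat.Agent.GalRep.inertia_fix_rootOfUnity hA hcop (pow_ne_zero _ p.2.ne_zero) hσ hζ

/-- Kummer criterion : if `z ^ p` lies in `Omega S` (`p ∈ S`) and its valuations outside `S` are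
divisible by `p`, then `z` lies in `Omega S`. -/
theorem mem_Omega_of_pow {p : Nat.Primes} (hpS : p ∈ S) {z : Qbar} (hz : z ^ (p : ℕ) ∈ Omega S)
    (hord : ∀ P : Place S, ((p : ℕ) : ℤ) ∣ ord P (z ^ (p : ℕ))) : z ∈ Omega S := by
  by_cases hz0 : z = 0
  · rw [hz0]; exact (Omega S).zero_mem
  intro q hq A hA σ hσ
  have hne : (q : ℕ) ≠ p := fun h => hq (by rwa [Subtype.ext h])
  have hcop : Nat.Coprime (q : ℕ) (p : ℕ) := (Nat.coprime_primes q.2 p.2).mpr hne
  let P : Place S := ⟨A, q, hq, hA⟩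
  obtain ⟨n, hn⟩ := hord P
  have hzp0 : z ^ (p : ℕ) ≠ 0 := pow_ne_zero _ hz0
  have hqQ : ((q : ℕ) : Qbar) ≠ 0 := by exact_mod_cast q.2.ne_zero
  -- `u = z / q ^ n` is a unit
  set u : Qbar := z / ((q : ℕ) : Qbar) ^ n with hu
  have hu0 : u ≠ 0 := div_ne_zero hz0 (zpow_ne_zero _ hqQ)
  have hup : A.valuation (u ^ (p : ℕ)) = 1 := by
    rw [hu, div_pow, map_div₀]
    have h1 := ord_spec P hz hzp0
    rw [hn] at h1
    have h2 : A.valuation (z ^ (p : ℕ)) = A.valuation ((q : ℕ) : Qbar) ^ (((p : ℕ) : ℤ) * n) := h1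
    rw [h2, map_pow, map_zpow₀, mul_comm, zpow_mul, zpow_natCast]
    apply div_self
    apply pow_ne_zero
    apply zpow_ne_zero
    exact P.valuation_q_ne_zero
  have huv : A.valuation u = 1 := by
    rw [map_pow] at hup
    exact (pow_eq_one_iff.mp hup).resolve_right p.2.ne_zero
  have huA : u ∈ A := (A.valuation_le_one_iff u).mp huv.le
  obtain ⟨hσA, hσu⟩ := sub_mem_nonunits_of_mem_inertia hσ huA
  -- ζ = σ u / u
  have hσq : σ (((q : ℕ) : Qbar) ^ n) = ((q : ℕ) : Qbar) ^ n := by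
    rw [map_zpow₀, map_natCast]
  have hzσ : σ (z ^ (p : ℕ)) = z ^ (p : ℕ) := hz q hq A hA σ hσ
  have hpow : (σ u / u) ^ (p : ℕ) = 1 := by
    rw [div_pow, ← map_pow]
    have h3 : u ^ (p : ℕ) = z ^ (p : ℕ) / (((q : ℕ) : Qbar) ^ n) ^ (p : ℕ) := by
      rw [hu, div_pow]
    rw [h3, map_div₀, hzσ, map_pow, hσq]
    apply div_self
    exact div_ne_zero hzp0 (pow_ne_zero _ (zpow_ne_zero _ hqQ))
  have hζA : σ u / u ∈ A := Fermat.Agent.GalRep.rootOfUnity_mem p.2.ne_zero hpow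
  have hζ1 : (⟨σ u / u, hζA⟩ : A) = 1 := by
    refine Fermat.Agent.GalRep.eq_one_of_residue_eq_one hA hcop (M := (p : ℕ))
      (Subtype.ext hpow) ?_
    rw [← sub_eq_zero, ← map_one (IsLocalRing.residue A), ← map_sub,
      IsLocalRing.residue_eq_zero_iff]
    have h4 : ((⟨σ u / u, hζA⟩ : A) - 1 : A) = ⟨(σ u - u) / u, by
        rw [sub_div, div_self hu0]; exact sub_mem hζA A.one_mem⟩ := by
      apply Subtype.ext
      change σ u / u - 1 = (σ u - u) / u
      rw [sub_div, div_self hu0]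
    rw [h4]
    have h5 : (σ u - u) / u ∈ A.nonunits := by
      rw [ValuationSubring.mem_nonunits_iff, map_div₀, huv, div_one]
      exact (ValuationSubring.mem_nonunits_iff A).mp hσu
    exact ((ValuationSubring.mem_nonunits_iff_exists_mem_maximalIdeal).mp h5).2
  have h6 : σ u / u = 1 := congrArg Subtype.val hζ1
  have h7 : σ u = u := by rwa [div_eq_one_iff_eq hu0] at h6
  have h8 : z = u * ((q : ℕ) : Qbar) ^ n := by
    rw [hu, div_mul_cancel₀ _ (zpow_ne_zero _ hqQ)]
  rw [h8, map_mul, h7, hσq]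

/-- converse of the Kummer criterion. -/
theorem dvd_ord_pow {p : ℕ} (P : Place S) {z : Qbar} (hz : z ∈ Omega S) (hz0 : z ≠ 0) :
    (p : ℤ) ∣ ord P (z ^ p) := by
  rw [ord_pow P hz hz0]
  exact Dvd.intro _ rfl

/-- the group of units of `Omega S` outside `S` is `p`-divisible. -/
theorem exists_root_of_ord_eq_zero {p : Nat.Primes} (hpS : p ∈ S) {x : Qbar} (hx : x ∈ Omega S)
    (hord : ∀ P : Place S, ((p : ℕ) : ℤ) ∣ ord P x) : ∃ z ∈ Omega S, z ^ (p : ℕ) = x := by
  obtain ⟨z, hz⟩ := IsAlgClosed.exists_pow_nat_eq x p.2.pos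
  refine ⟨z, mem_Omega_of_pow hpS (by rwa [hz]) (by rwa [hz]), hz⟩

end Fermat.Agent.CFT.SKummer
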