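import Fermat.Agent.CFT.Bridge.GlobPlace

/-!
# Roots of unity of `p`-power order in finite extensions of `ℚ_q`

* `exists_no_root` : a finite extension of `ℚ_[q]` does not contain all roots of unity of `p`-power
  order;
* `exists_no_root_locField` : uniform version for all embeddings of a number field `K` and all `q`
  in a finite set.
-/

set_option autoImplicit false

noncomputable section

namespace Fermat.Agent.CFT.SKummer

open Fermat.Agent.PT Fermat.Agent.CFT.Kum Fermat.Agent.CFT.Bridge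

section local_

variable {q : ℕ} [hq : Fact q.Prime]

lemma norm_eq_one_of_pow {x : PadicAlgCl q} {n : ℕ} (h : x ^ n = 1) (hn : n ≠ 0) : ‖x‖ = 1 := by
  have h1 : ‖x‖ ^ n = 1 := by rw [← norm_pow, h, norm_one]
  exact (pow_eq_one_iff_of_nonneg (norm_nonneg _) hn).mp h1

lemma norm_pow_sub_one_le {ε : PadicAlgCl q} (hε : ‖ε‖ = 1) (m : ℕ) : ‖ε ^ m - 1‖ ≤ ‖ε - 1‖ := by
  induction m with
  | zero => simp
  | succ m ih =>
    have h1 : ε ^ (m + 1) - 1 = ε * (ε ^ m - 1) + (ε - 1) := by ring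
    rw [h1]
    refine (PadicAlgCl.isNonarchimedean q _ _).trans (max_le ?_ le_rfl)
    rw [norm_mul, hε, one_mul]
    exact ih

/-- A root of unity of `p`-power order close to `1` equals `1`. -/
lemma exists_radius {p : ℕ} (hp : p.Prime) : ∃ δ > 0, ∀ (ε : PadicAlgCl q) (n : ℕ),
    ε ^ p ^ n = 1 → ‖ε - 1‖ < δ → ε = 1 := by
  classical
  let s : Finset (PadicAlgCl q) := (Polynomial.nthRoots p 1).toFinset.erase 1
  have hs : (s : Set (PadicAlgCl q))ᶜ ∈ nhds (1 : PadicAlgCl q) :=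
    (s.finite_toSet.isClosed.isOpen_compl).mem_nhds (by simp [s])
  obtain ⟨δ, hδ, hball⟩ := Metric.mem_nhds_iff.mp hs
  refine ⟨δ, hδ, fun ε n hn hlt => ?_⟩
  by_contra hne
  have hε : ‖ε‖ = 1 := norm_eq_one_of_pow hn (pow_ne_zero _ hp.ne_zero)
  have hex : ∃ k, ε ^ p ^ k = 1 := ⟨n, hn⟩
  have hk := Nat.find_spec hex
  have hk0 : Nat.find hex ≠ 0 := by
    intro h
    rw [h, pow_zero, pow_one] at hk
    exact hne hk
  obtain ⟨k, hkk⟩ := Nat.exists_eq_succ_of_ne_zero hk0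
  rw [hkk] at hk
  have hk' : ε ^ p ^ k ≠ 1 := Nat.find_min hex (by omega)
  have h1 : ε ^ p ^ k ∈ Metric.ball (1 : PadicAlgCl q) δ := by
    rw [Metric.mem_ball, dist_eq_norm]
    exact lt_of_le_of_lt (norm_pow_sub_one_le hε _) hlt
  apply hball h1
  rw [Finset.mem_coe, Finset.mem_erase]
  refine ⟨hk', ?_⟩
  rw [Multiset.mem_toFinset, Polynomial.mem_nthRoots hp.pos, ← pow_mul, ← pow_succ]
  exact hk

/-- A finite extension of `ℚ_[q]` does not contain all roots of unity of `p`-power order. -/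
theorem exists_no_root {p : ℕ} (hp : p.Prime) (l : IntermediateField ℚ_[q] (PadicAlgCl q))
    [hl : FiniteDimensional ℚ_[q] l] : ∃ N : ℕ, ∀ z ∈ l, ¬ IsPrimitiveRoot z (p ^ N) := by
  by_contra! hcon
  choose z hz hz' using hcon
  obtain ⟨δ, hδ, hrad⟩ := exists_radius (q := q) hp
  let E : Submodule ℚ_[q] (PadicAlgCl q) := l.toSubalgebra.toSubmodule
  have hE : FiniteDimensional ℚ_[q] E := hl
  have hprop : ProperSpace E := FiniteDimensional.proper ℚ_[q] E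
  let x : ℕ → E := fun N => ⟨z N, hz N⟩
  have hx : ∀ N, x N ∈ Metric.closedBall (0 : E) 1 := by
    intro N
    rw [mem_closedBall_zero_iff]
    exact (norm_eq_one_of_pow (hz' N).pow_eq_one (pow_ne_zero _ hp.ne_zero)).le
  obtain ⟨a, -, φ, hφ, hlim⟩ := (isCompact_closedBall (0 : E) 1).tendsto_subseq hx
  have hc := hlim.cauchySeq
  rw [Metric.cauchySeq_iff] at hc
  obtain ⟨M, hM⟩ := hc δ hδ
  have h1 := hM M le_rfl (M + 1) (Nat.le_succ M)
  have h2 : ‖z (φ M) - z (φ (M + 1))‖ < δ := by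
    rw [dist_eq_norm] at h1
    exact h1
  have hlt : φ M < φ (M + 1) := hφ (Nat.lt_succ_self M)
  have h0 : z (φ M) ≠ 0 := (hz' (φ M)).ne_zero (pow_ne_zero _ hp.ne_zero)
  have hn : ‖z (φ M)‖ = 1 :=
    norm_eq_one_of_pow (hz' (φ M)).pow_eq_one (pow_ne_zero _ hp.ne_zero)
  have h3 : (z (φ (M + 1)) / z (φ M)) ^ p ^ φ (M + 1) = 1 := by
    rw [div_pow, (hz' (φ (M + 1))).pow_eq_one, one_div, inv_eq_one,
      show p ^ φ (M + 1) = p ^ φ M * p ^ (φ (M + 1) - φ M) by rw [← pow_add]; congr 1; omega,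
      pow_mul, (hz' (φ M)).pow_eq_one, one_pow]
  have h4 : ‖z (φ (M + 1)) / z (φ M) - 1‖ < δ := by
    rw [div_sub_one h0, norm_div, hn, div_one, norm_sub_rev]
    exact h2
  have h5 := hrad _ _ h3 h4
  have h6 : z (φ (M + 1)) = z (φ M) := by
    rw [div_eq_one_iff_eq h0] at h5
    exact h5
  have h7 := (hz' (φ (M + 1))).dvd_of_pow_eq_one (l := p ^ φ M) (by
    rw [h6]; exact (hz' (φ M)).pow_eq_one)
  have h8 := (Nat.pow_dvd_pow_iff_le_right hp.one_lt).mp h7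
  omega

end local_

variable (K : IntermediateField ℚ (AlgebraicClosure ℚ)) [FiniteDimensional ℚ K]

/-- Uniform version. -/
theorem exists_no_root_locField {p : ℕ} (hp : p.Prime) (S : Finset Nat.Primes) :
    ∃ N : ℕ, ∀ (q : ℕ) [hq : Fact q.Prime], (⟨q, hq.out⟩ : Nat.Primes) ∈ S →
      ∀ (τ : K →ₐ[ℚ] PadicAlgCl q), ∀ z ∈ locField τ, ¬ IsPrimitiveRoot z (p ^ N) := by
  classical
  have h1 : ∀ q : Nat.Primes, ∃ N : ℕ, ∀ (τ : K →ₐ[ℚ] (haveI : Fact (q : ℕ).Prime := ⟨q.2⟩;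
      PadicAlgCl (q : ℕ))), haveI : Fact (q : ℕ).Prime := ⟨q.2⟩;
      ∀ z ∈ locField (q := (q : ℕ)) τ, ¬ IsPrimitiveRoot z (p ^ N) := by
    intro q
    have : Fact (q : ℕ).Prime := ⟨q.2⟩
    choose N hN using fun τ : K →ₐ[ℚ] PadicAlgCl (q : ℕ) => exists_no_root hp (locField τ)
    let _ : Fintype (K →ₐ[ℚ] PadicAlgCl (q : ℕ)) := Fintype.ofFinite _
    refine ⟨Finset.univ.sup N, fun τ z hz hprim => ?_⟩
    have h2 : N τ ≤ Finset.univ.sup N := Finset.le_sup (Finset.mem_univ τ)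
    have h3 : p ^ Finset.univ.sup N = p ^ (Finset.univ.sup N - N τ) * p ^ N τ := by
      rw [← pow_add]; congr 1; omega
    have h4 : z ^ p ^ (Finset.univ.sup N - N τ) ∈ locField τ := pow_mem hz _
    exact hN τ _ h4 (hprim.pow (pow_pos hp.pos _) h3)
  choose N hN using h1
  refine ⟨S.sup N, fun q hq hqS τ z hz hprim => ?_⟩
  have h2 : N ⟨q, hq.out⟩ ≤ S.sup N := Finset.le_sup hqS
  have h3 : p ^ S.sup N = p ^ (S.sup N - N ⟨q, hq.out⟩) * p ^ N ⟨q, hq.out⟩ := by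
    rw [← pow_add]; congr 1; omega
  have h4 : z ^ p ^ (S.sup N - N ⟨q, hq.out⟩) ∈ locField τ := pow_mem hz _
  exact hN ⟨q, hq.out⟩ τ _ h4 (hprim.pow (pow_pos hp.pos _) h3)

/-- For `N` large, no decomposition group of `K` above `S` fixes a primitive `p ^ N`-th root
of unity. -/
theorem exists_jw_ne {p : ℕ} (hp : p.Prime) (S : Finset Nat.Primes) :
    ∃ N : ℕ, ∀ (ξ : AlgebraicClosure ℚ), IsPrimitiveRoot ξ (p ^ N) →
      ∀ (q : ℕ) [hq : Fact q.Prime], (⟨q, hq.out⟩ : Nat.Primes) ∈ S →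
      ∀ g : AlgebraicClosure ℚ ≃ₐ[ℚ] AlgebraicClosure ℚ,
        ∃ h : (locField (emb K q g)).fixingSubgroup,
          ((jw K q g h : K.fixingSubgroup) : AlgebraicClosure ℚ ≃ₐ[ℚ] AlgebraicClosure ℚ) ξ ≠ ξ := by
  obtain ⟨N, hN⟩ := exists_no_root_locField K hp S
  refine ⟨N, fun ξ hξ q hq hqS g => ?_⟩
  have h1 : IsPrimitiveRoot (embBar q g ξ) (p ^ N) :=
    hξ.map_of_injective (embBar q g).toRingHom.injective
  have h2 : embBar q g ξ ∉ locField (emb K q g) := fun h => hN q hqS _ _ h h1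
  rw [← InfiniteGalois.fixedField_fixingSubgroup (locField (emb K q g)),
    IntermediateField.mem_fixedField_iff] at h2
  push Not at h2
  obtain ⟨h, hh, hne⟩ := h2
  refine ⟨⟨h, hh⟩, fun heq => hne ?_⟩
  have h3 := embBar_jw K q g ⟨h, hh⟩ ξ
  have h4 : (jw K q g ⟨h, hh⟩ : K.fixingSubgroup) • ξ = ξ := heq
  rw [h4] at h3
  exact h3.symm

end Fermat.Agent.CFT.SKummer
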